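/-
Case I of Fermat's Last Theorem for a prime `p ≥ 5` such that the ring of integers of the
`p`-th cyclotomic field is a principal ideal domain (Kummer's argument).
-/
import Mathlib

set_option autoImplicit false

open NumberField Polynomial IsPrimitiveRoot NumberField.IsCMField NumberField.Units

namespace Fermat.Agent.FLTReg.CaseI

variable {p : ℕ} [hp : Fact p.Prime] {K : Type*} [Field K] [NumberField K]
  [IsCyclotomicExtension {p} ℚ K] {ζ : K} (hζ : IsPrimitiveRoot ζ p)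

include hζ in
/-- `λ = ζ - 1` divides an integer iff `p` does -/
theorem lambda_dvd_intCast_iff (hodd : p ≠ 2) (n : ℤ) :
    hζ.toInteger - 1 ∣ (n : 𝓞 K) ↔ (p : ℤ) ∣ n := by
  rw [← Ideal.norm_dvd_iff, hζ.norm_toInteger_sub_one_of_prime_ne_two' hodd]
  rw [hζ.norm_toInteger_sub_one_of_prime_ne_two' hodd]
  exact Nat.prime_iff_prime_int.1 hp.1

theorem dvd_aeval_sub_coeff_zero {R : Type*} [CommRing R] (g : R) (f : ℤ[X]) :
    g ∣ aeval g f - (f.coeff 0 : R) := by
  have h1 : f = f.divX * X + C (f.coeff 0) := (Polynomial.divX_mul_X_add f).symm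
  nth_rewrite 1 [h1]
  rw [map_add, map_mul, aeval_X, aeval_C]
  refine ⟨aeval g f.divX, ?_⟩
  simp only [algebraMap_int_eq, eq_intCast]
  ring

include hζ in
/-- every algebraic integer is congruent to a rational integer mod `λ` -/
theorem exists_int_lambda_dvd_sub (α : 𝓞 K) : ∃ n : ℤ, hζ.toInteger - 1 ∣ α - n := by
  obtain ⟨f, hf⟩ := hζ.subOneIntegralPowerBasis.exists_eq_aeval' α
  have hgen : hζ.subOneIntegralPowerBasis.gen = hζ.toInteger - 1 := by
    rw [hζ.subOneIntegralPowerBasis_gen]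
    rfl
  rw [hgen] at hf
  exact ⟨f.coeff 0, hf ▸ dvd_aeval_sub_coeff_zero _ f⟩

/-- Frobenius on finite sums, up to a multiple of `p` -/
theorem exists_sum_pow_prime_eq {R : Type*} [CommRing R] {ι : Type*} (s : Finset ι) (f : ι → R) :
    ∃ r : R, (∑ i ∈ s, f i) ^ p = ∑ i ∈ s, f i ^ p + p * r := by
  classical
  induction s using Finset.induction_on with
  | empty => exact ⟨0, by simp [hp.out.ne_zero]⟩
  | insert a s ha ih =>
    obtain ⟨r, hr⟩ := ih
    obtain ⟨r', hr'⟩ := exists_add_pow_prime_eq hp.out (f a) (∑ i ∈ s, f i)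
    refine ⟨r + f a * (∑ i ∈ s, f i) * r', ?_⟩
    rw [Finset.sum_insert ha, Finset.sum_insert ha, hr', hr]
    ring

include hζ in
/-- `α ^ p` is congruent to a rational integer mod `p` -/
theorem exists_int_prime_dvd_pow_sub (α : 𝓞 K) : ∃ m : ℤ, (p : 𝓞 K) ∣ α ^ p - m := by
  obtain ⟨f, hf⟩ := hζ.integralPowerBasis.exists_eq_aeval' α
  have hgen : hζ.integralPowerBasis.gen = hζ.toInteger := by
    rw [hζ.integralPowerBasis_gen]
  rw [hgen, aeval_eq_sum_range] at hf
  obtain ⟨r, hr⟩ := exists_sum_pow_prime_eq (p := p) (Finset.range (f.natDegree + 1))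
    (fun i => f.coeff i • hζ.toInteger ^ i)
  refine ⟨∑ i ∈ Finset.range (f.natDegree + 1), f.coeff i ^ p, r, ?_⟩
  rw [hf, hr]
  have h1 : hζ.toInteger ^ p = 1 := hζ.toInteger_isPrimitiveRoot.pow_eq_one
  have h2 : ∀ i, (f.coeff i • hζ.toInteger ^ i) ^ p = ((f.coeff i ^ p : ℤ) : 𝓞 K) := by
    intro i
    rw [zsmul_eq_mul, mul_pow, ← pow_mul, mul_comm i p, pow_mul, h1, one_pow, mul_one]
    push_cast
    rfl
  simp_rw [h2]
  push_cast
  ring

include hζ in
/-- If `p` divides `∑ i < p - 1, c i ζ ^ i` then `p` divides all `c i` (integral basis). -/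
theorem dvd_coeff_of_dvd_sum_basis (c : ℕ → ℤ)
    (h : (p : 𝓞 K) ∣ ∑ i ∈ Finset.range (p - 1), c i • hζ.toInteger ^ i) :
    ∀ i < p - 1, (p : ℤ) ∣ c i := by
  set pB := hζ.integralPowerBasis with hpB
  have hdim : pB.dim = p - 1 := by
    rw [hpB, hζ.integralPowerBasis_dim, Nat.totient_prime hp.out]
  have hgen : pB.gen = hζ.toInteger := by rw [hpB, hζ.integralPowerBasis_gen]
  obtain ⟨β, hβ⟩ := h
  intro i hi
  have h1 : ∑ k ∈ Finset.range (p - 1), c k • hζ.toInteger ^ k =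
      ∑ k : Fin pB.dim, c k • pB.basis k := by
    rw [← hdim, Finset.sum_range]
    refine Finset.sum_congr rfl fun k _ => ?_
    rw [pB.basis_eq_pow, hgen]
  rw [h1] at hβ
  have h2 := congrArg (fun x => pB.basis.repr x ⟨i, hdim ▸ hi⟩) hβ
  beta_reduce at h2
  rw [pB.basis.repr_sum_self] at h2
  have h3 : (p : 𝓞 K) * β = (p : ℤ) • β := by simp
  rw [h3, map_smul] at h2
  simp only [Finsupp.smul_apply, smul_eq_mul] at h2
  exact ⟨_, h2⟩

include hζ in
/-- The coefficient lemma: if `p ∣ ∑ i < p, a i ζ ^ i` and some `a j` vanishes then `p ∣ a i`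
for all `i`. -/
theorem dvd_coeff_of_dvd_sum (a : ℕ → ℤ)
    (h : (p : 𝓞 K) ∣ ∑ i ∈ Finset.range p, a i • hζ.toInteger ^ i) {j : ℕ} (hj : j < p)
    (haj : a j = 0) : ∀ i < p, (p : ℤ) ∣ a i := by
  have hp1 : 1 < p := hp.out.one_lt
  have hr : Finset.range (p - 1 + 1) = Finset.range p := by congr 1; omega
  have hgeom : ∑ i ∈ Finset.range p, hζ.toInteger ^ i = 0 :=
    hζ.toInteger_isPrimitiveRoot.geom_sum_eq_zero hp1
  have htop : hζ.toInteger ^ (p - 1) = -∑ i ∈ Finset.range (p - 1), hζ.toInteger ^ i := by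
    rw [← hr, Finset.sum_range_succ] at hgeom
    linear_combination hgeom
  have hsum : ∑ i ∈ Finset.range p, a i • hζ.toInteger ^ i =
      ∑ i ∈ Finset.range (p - 1), (a i - a (p - 1)) • hζ.toInteger ^ i := by
    rw [← hr, Finset.sum_range_succ]
    rw [htop, smul_neg, Finset.smul_sum, ← sub_eq_add_neg, ← Finset.sum_sub_distrib]
    refine Finset.sum_congr rfl fun i _ => ?_
    rw [sub_smul]
  rw [hsum] at h
  have key := dvd_coeff_of_dvd_sum_basis hζ (fun i => a i - a (p - 1)) h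
  have hlast : (p : ℤ) ∣ a (p - 1) := by
    by_cases hjp : j = p - 1
    · rw [← hjp, haj]; exact dvd_zero _
    · have := key j (by omega)
      simp only [haj, zero_sub, dvd_neg] at this
      exact this
  intro i hi
  by_cases hip : i = p - 1
  · rw [hip]; exact hlast
  · have h1 : (p : ℤ) ∣ a i - a (p - 1) := key i (by omega)
    have h2 := dvd_add h1 hlast
    simpa using h2

include hζ in
/-- if `λ ∣ x + ζ y` then `p ∣ x + y` -/
theorem prime_dvd_add_of_lambda_dvd (hodd : p ≠ 2) (x y : ℤ)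
    (h : hζ.toInteger - 1 ∣ (x : 𝓞 K) + hζ.toInteger * y) : (p : ℤ) ∣ x + y := by
  rw [← lambda_dvd_intCast_iff hζ hodd]
  have h1 : ((x + y : ℤ) : 𝓞 K) = (x : 𝓞 K) + hζ.toInteger * y - (hζ.toInteger - 1) * y := by
    push_cast; ring
  rw [h1]
  exact dvd_sub h (Dvd.intro _ rfl)

/-- Fermat's little theorem consequence: `p ∣ x + y` and `x^p + y^p = z^p` imply `p ∣ z` -/
theorem prime_dvd_of_dvd_add {x y z : ℤ} (h : x ^ p + y ^ p = z ^ p) (hxy : (p : ℤ) ∣ x + y) :
    (p : ℤ) ∣ z := by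
  have h1 : ((z : ℤ) : ZMod p) = 0 := by
    have h2 := congrArg (fun t : ℤ => (t : ZMod p)) h
    simp only [Int.cast_add, Int.cast_pow, ZMod.pow_card] at h2
    rw [← h2, ← Int.cast_add, ZMod.intCast_zmod_eq_zero_iff_dvd]
    exact hxy
  exact (ZMod.intCast_zmod_eq_zero_iff_dvd z p).mp h1

include hζ in
/-- coprimality of `x + ζ y` with the other factors `x + μ y` -/
theorem isCoprime_factor [IsPrincipalIdealRing (𝓞 K)] {x y : ℤ}
    (hxy : IsCoprime x y)
    (hA : ¬ hζ.toInteger - 1 ∣ (x : 𝓞 K) + hζ.toInteger * y) {μ : 𝓞 K}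
    (hμ : μ ∈ nthRootsFinset p (1 : 𝓞 K)) (hne : μ ≠ hζ.toInteger) :
    IsCoprime ((x : 𝓞 K) + hζ.toInteger * y) ((x : 𝓞 K) + μ * y) := by
  have hζ' := hζ.toInteger_isPrimitiveRoot
  have hζmem : hζ.toInteger ∈ nthRootsFinset p (1 : 𝓞 K) :=
    (mem_nthRootsFinset hp.out.pos 1).2 hζ'.pow_eq_one
  obtain ⟨u, hu⟩ := hζ'.nthRootsFinset_pairwise_associated_sub_one_sub_of_prime hp.out hζmem hμ
    hne.symm
  obtain ⟨s, t, hst⟩ := hxy
  have hprime : Prime (hζ.toInteger - 1) := hζ.zeta_sub_one_prime'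
  have h1 : IsCoprime (hζ.toInteger - 1) ((x : 𝓞 K) + hζ.toInteger * y) :=
    hprime.coprime_iff_not_dvd.2 hA
  -- λ = combination of A and B
  set A := (x : 𝓞 K) + hζ.toInteger * y with hAdef
  set B := (x : 𝓞 K) + μ * y with hBdef
  have hst' : (s : 𝓞 K) * x + t * y = 1 := by exact_mod_cast congrArg (fun n : ℤ => (n : 𝓞 K)) hst
  have h2 : hζ.toInteger - 1 = A * ((↑u⁻¹ : 𝓞 K) * (t - s * μ)) +
      ((↑u⁻¹ : 𝓞 K) * (s * hζ.toInteger - t)) * B := by
    have h3 : (hζ.toInteger - 1) = (hζ.toInteger - μ) * (↑u⁻¹ : 𝓞 K) := by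
      rw [← hu, mul_assoc, Units.mul_inv, mul_one]
    rw [h3, hAdef, hBdef]
    linear_combination (-(hζ.toInteger - μ) * (↑u⁻¹ : 𝓞 K)) * hst'
  rw [h2] at h1
  have h4 := h1.symm
  rw [add_comm, IsCoprime.add_mul_left_right_iff] at h4
  exact h4.of_mul_right_right

include hζ in
/-- `x + ζ y` is a unit times a `p`-th power -/
theorem exists_unit_mul_pow [IsPrincipalIdealRing (𝓞 K)] (hodd : p ≠ 2) {x y z : ℤ}
    (hxy : IsCoprime x y) (h : x ^ p + y ^ p = z ^ p) (hz : ¬ (p : ℤ) ∣ z) :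
    ∃ (u : (𝓞 K)ˣ) (α : 𝓞 K), (x : 𝓞 K) + hζ.toInteger * y = u * α ^ p := by
  classical
  have hA : ¬ hζ.toInteger - 1 ∣ (x : 𝓞 K) + hζ.toInteger * y := fun hdiv =>
    hz (prime_dvd_of_dvd_add h (prime_dvd_add_of_lambda_dvd hζ hodd x y hdiv))
  have hζ' := hζ.toInteger_isPrimitiveRoot
  have hζmem : hζ.toInteger ∈ nthRootsFinset p (1 : 𝓞 K) :=
    (mem_nthRootsFinset hp.out.pos 1).2 hζ'.pow_eq_one
  have hprod := hζ'.pow_add_pow_eq_prod_add_mul (x : 𝓞 K) (y : 𝓞 K) (hp.out.odd_of_ne_two hodd)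
  rw [← Finset.mul_prod_erase _ _ hζmem] at hprod
  have hcop : IsCoprime ((x : 𝓞 K) + hζ.toInteger * y)
      (∏ μ ∈ (nthRootsFinset p (1 : 𝓞 K)).erase hζ.toInteger, ((x : 𝓞 K) + μ * y)) := by
    refine IsCoprime.prod_right fun μ hμ => ?_
    rw [Finset.mem_erase] at hμ
    exact isCoprime_factor hζ hxy hA hμ.2 hμ.1
  have hz' : ((x : 𝓞 K) + hζ.toInteger * y) *
      (∏ μ ∈ (nthRootsFinset p (1 : 𝓞 K)).erase hζ.toInteger, ((x : 𝓞 K) + μ * y)) =
      (z : 𝓞 K) ^ p := by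
    rw [← hprod]
    exact_mod_cast congrArg (fun n : ℤ => (n : 𝓞 K)) h
  obtain ⟨d, u, hu⟩ := exists_associated_pow_of_mul_eq_pow' hcop hz'
  exact ⟨u, d, by rw [← hu, mul_comm]⟩

section CM

variable [IsCMField K]

omit [IsCyclotomicExtension {p} ℚ K] in
include hζ in
theorem complexConj_zeta : complexConj K ζ = ζ⁻¹ := by
  let φ : K →+* ℂ := Classical.choice inferInstance
  apply φ.injective
  rw [complexEmbedding_complexConj, map_inv₀]
  have h1 : (φ ζ) ^ p = 1 := by rw [← map_pow, hζ.pow_eq_one, map_one]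
  have hn : ‖φ ζ‖ = 1 := Complex.norm_eq_one_of_pow_eq_one h1 hp.out.ne_zero
  exact (Complex.inv_eq_conj hn).symm

omit [IsCyclotomicExtension {p} ℚ K] in
include hζ in
theorem conj_toInteger :
    ringOfIntegersComplexConj K hζ.toInteger = hζ.toInteger ^ (p - 1) := by
  apply RingOfIntegers.ext
  rw [coe_ringOfIntegersComplexConj]
  show complexConj K ζ = _
  rw [complexConj_zeta hζ]
  have h1 : ζ ^ (p - 1) * ζ = 1 := by
    rw [← pow_succ, Nat.sub_add_cancel hp.out.one_le, hζ.pow_eq_one]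
  have hz : ζ ≠ 0 := hζ.ne_zero hp.out.ne_zero
  have : ((hζ.toInteger ^ (p - 1) : 𝓞 K) : K) = ζ ^ (p - 1) := by
    push_cast
    rfl
  rw [this]
  field_simp
  rw [mul_comm]
  exact h1.symm

include hζ in
/-- complex conjugation is trivial mod `λ` -/
theorem lambda_dvd_conj_sub (α : 𝓞 K) :
    hζ.toInteger - 1 ∣ ringOfIntegersComplexConj K α - α := by
  obtain ⟨n, β, hβ⟩ := exists_int_lambda_dvd_sub hζ α
  have h1 : ringOfIntegersComplexConj K α - n =
      (ringOfIntegersComplexConj K (hζ.toInteger - 1)) * ringOfIntegersComplexConj K β := by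
    rw [← map_mul, ← hβ, map_sub, map_intCast]
  have h2 : hζ.toInteger - 1 ∣ ringOfIntegersComplexConj K (hζ.toInteger - 1) := by
    rw [map_sub, map_one, conj_toInteger hζ]
    simpa using sub_dvd_pow_sub_pow hζ.toInteger 1 (p - 1)
  have h3 : hζ.toInteger - 1 ∣ ringOfIntegersComplexConj K α - n := by
    rw [h1]
    exact Dvd.dvd.mul_right h2 _
  have h4 : ringOfIntegersComplexConj K α - α =
      (ringOfIntegersComplexConj K α - n) - (α - n) := by ring
  rw [h4]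
  exact dvd_sub h3 ⟨β, hβ⟩

include hζ in
/-- Kummer's lemma on units: `u = ζ ^ r * conj u` -/
theorem unit_eq_zeta_pow_mul_conj (hodd : p ≠ 2) (u : (𝓞 K)ˣ) :
    ∃ r : ℕ, r < p ∧ (u : 𝓞 K) = hζ.toInteger ^ r * ringOfIntegersComplexConj K u := by
  set t := unitsMulComplexConjInv K u with ht
  have hconj : ((unitsComplexConj K u : (𝓞 K)ˣ) : 𝓞 K) = ringOfIntegersComplexConj K u :=
    RingOfIntegers.ext rfl
  have htu : (u : 𝓞 K) = ((t : (𝓞 K)ˣ) : 𝓞 K) * ringOfIntegersComplexConj K u := by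
    rw [← hconj, ← Units.val_mul, ht, unitsMulComplexConjInv_apply, inv_mul_cancel_right]
  have htfin : IsOfFinOrder ((((t : (𝓞 K)ˣ) : 𝓞 K) : K)) := by
    have h1 : IsOfFinOrder (t : (𝓞 K)ˣ) := (CommGroup.mem_torsion (t : (𝓞 K)ˣ)).mp t.2
    exact ((algebraMap (𝓞 K) K).toMonoidHom.comp (Units.coeHom (𝓞 K))).isOfFinOrder h1
  obtain ⟨r, hr, h | h⟩ :=
    hζ.exists_pow_or_neg_mul_pow_of_isOfFinOrder (hp.out.odd_of_ne_two hodd) htfin
  · refine ⟨r, hr, ?_⟩
    have : ((t : (𝓞 K)ˣ) : 𝓞 K) = hζ.toInteger ^ r := by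
      apply RingOfIntegers.ext
      rw [h]
      push_cast
      rfl
    rw [← this]
    exact htu
  · exfalso
    have ht' : ((t : (𝓞 K)ˣ) : 𝓞 K) = -hζ.toInteger ^ r := by
      apply RingOfIntegers.ext
      rw [h]
      push_cast
      rfl
    rw [ht'] at htu
    obtain ⟨β, hβ⟩ := lambda_dvd_conj_sub hζ (u : 𝓞 K)
    obtain ⟨γ, hγ⟩ : hζ.toInteger - 1 ∣ hζ.toInteger ^ r - 1 := by
      simpa using sub_dvd_pow_sub_pow hζ.toInteger 1 r
    have h2 : hζ.toInteger - 1 ∣ ((2 : ℤ) : 𝓞 K) * (u : 𝓞 K) := by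
      refine ⟨-(γ * ringOfIntegersComplexConj K u + β), ?_⟩
      push_cast
      linear_combination htu + (-(ringOfIntegersComplexConj K (u : 𝓞 K))) * hγ - hβ
    have h3 : hζ.toInteger - 1 ∣ ((2 : ℤ) : 𝓞 K) := (u.isUnit.dvd_mul_right).mp h2
    rw [lambda_dvd_intCast_iff hζ hodd] at h3
    have h4 : p ∣ 2 := by exact_mod_cast h3
    have h5 := Nat.le_of_dvd (by norm_num) h4
    have h6 := hp.out.two_le
    omega

include hζ in
/-- the key congruence -/
theorem prime_dvd_key (hodd : p ≠ 2) {x y : ℤ} {u : (𝓞 K)ˣ} {α : 𝓞 K}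
    (hA : (x : 𝓞 K) + hζ.toInteger * y = u * α ^ p) :
    ∃ r : ℕ, r < p ∧ (p : 𝓞 K) ∣ (x : 𝓞 K) + hζ.toInteger * y - hζ.toInteger ^ r * x
      - hζ.toInteger ^ ((r + p - 1) % p) * y := by
  obtain ⟨m, β, hβ⟩ := exists_int_prime_dvd_pow_sub hζ α
  obtain ⟨r, hr, hu⟩ := unit_eq_zeta_pow_mul_conj hζ hodd u
  refine ⟨r, hr, ?_⟩
  have h1 : hζ.toInteger ^ p = 1 := hζ.toInteger_isPrimitiveRoot.pow_eq_one
  have hs : hζ.toInteger ^ ((r + p - 1) % p) = hζ.toInteger ^ r * hζ.toInteger ^ (p - 1) := by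
    rw [← pow_eq_pow_mod _ h1, ← pow_add, Nat.add_sub_assoc hp.out.one_le]
  have e2 := congrArg (ringOfIntegersComplexConj K) hA
  rw [map_add, map_mul, map_mul, map_pow, map_intCast, map_intCast, conj_toInteger hζ] at e2
  have e3 := congrArg (ringOfIntegersComplexConj K) hβ
  rw [map_sub, map_pow, map_mul, map_intCast, map_natCast] at e3
  refine ⟨hζ.toInteger ^ r * ringOfIntegersComplexConj K u *
    (β - ringOfIntegersComplexConj K β), ?_⟩
  rw [hs]
  linear_combination hA + (u : 𝓞 K) * hβ - hζ.toInteger ^ r * e2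
    - hζ.toInteger ^ r * ringOfIntegersComplexConj K u * e3
    + (m + p * β) * hu

include hζ in
/-- Case I core: no solution with `x ≢ y mod p`. -/
theorem caseI_aux (hp5 : 5 ≤ p) [IsPrincipalIdealRing (𝓞 K)] {x y z : ℤ}
    (hxy : IsCoprime x y) (h : x ^ p + y ^ p = z ^ p) (hx : ¬ (p : ℤ) ∣ x) (hy : ¬ (p : ℤ) ∣ y)
    (hz : ¬ (p : ℤ) ∣ z) (hne : ¬ (p : ℤ) ∣ x - y) : False := by
  have hodd : p ≠ 2 := by omega
  obtain ⟨u, α, hA⟩ := exists_unit_mul_pow hζ hodd hxy h hz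
  obtain ⟨r, hr, hdvd⟩ := prime_dvd_key hζ hodd hA
  set s := (r + p - 1) % p with hs
  have hsp : s < p := Nat.mod_lt _ hp.out.pos
  have h0p : 0 < p := hp.out.pos
  have h1p : 1 < p := hp.out.one_lt
  set a : ℕ → ℤ := fun i => (if i = 0 then x else 0) + (if i = 1 then y else 0)
    - (if i = r then x else 0) - (if i = s then y else 0) with ha
  have hsum : ∑ i ∈ Finset.range p, a i • hζ.toInteger ^ i =
      (x : 𝓞 K) + hζ.toInteger * y - hζ.toInteger ^ r * x - hζ.toInteger ^ s * y := by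
    simp only [ha, sub_smul, add_smul, ite_smul, zero_smul, Finset.sum_add_distrib,
      Finset.sum_sub_distrib, Finset.sum_ite_eq', Finset.mem_range, h0p, h1p, hr, hsp, if_true,
      pow_zero, pow_one, zsmul_eq_mul]
    ring
  rw [← hsum] at hdvd
  obtain ⟨j, hj, hjn⟩ : ∃ j ∈ Finset.range p, j ∉ ({0, 1, r, s} : Finset ℕ) := by
    apply Finset.exists_mem_notMem_of_card_lt_card
    calc _ ≤ 4 := Finset.card_le_four
      _ < p := by omega
      _ = _ := (Finset.card_range p).symm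
  simp only [Finset.mem_insert, Finset.mem_singleton, not_or] at hjn
  have haj : a j = 0 := by simp [ha, hjn.1, hjn.2.1, hjn.2.2.1, hjn.2.2.2]
  have key := dvd_coeff_of_dvd_sum hζ a hdvd (Finset.mem_range.1 hj) haj
  rcases Nat.lt_or_ge r 2 with hr2 | hr2
  · interval_cases r
    · -- r = 0, s = p - 1
      have hs' : s = p - 1 := by
        rw [hs, Nat.zero_add]; exact Nat.mod_eq_of_lt (by omega)
      have := key 1 h1p
      have h1s : (1 : ℕ) ≠ s := by omega
      simp [ha, h1s] at this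
      exact hy this
    · -- r = 1, s = 0
      have hs' : s = 0 := by
        rw [hs, Nat.add_sub_cancel_left]; exact Nat.mod_self p
      have := key 0 h0p
      simp [ha, hs'] at this
      exact hne this
  · have hs' : s = r - 1 := by
      rw [hs]
      have : r + p - 1 = (r - 1) + p := by omega
      rw [this, Nat.add_mod_right]; exact Nat.mod_eq_of_lt (by omega)
    have := key 0 h0p
    have h0r : (0 : ℕ) ≠ r := by omega
    have h0s : (0 : ℕ) ≠ s := by omega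
    simp [ha, h0r, h0s] at this
    exact hx this

end CM

/-- From `gcd {a, b, c} = 1`, no prime divides all three. -/
theorem not_prime_dvd_all {a b c : ℤ} (hgcd : ({a, b, c} : Finset ℤ).gcd id = 1) (q : ℤ)
    (hq : Prime q) (ha : q ∣ a) (hb : q ∣ b) (hc : q ∣ c) : False := by
  apply hq.not_dvd_one
  rw [← hgcd]
  refine Finset.dvd_gcd_iff.mpr fun x hx => ?_
  simp only [Finset.mem_insert, Finset.mem_singleton] at hx
  rcases hx with rfl | rfl | rfl <;> simpa

end Fermat.Agent.FLTReg.CaseI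

namespace Fermat.Agent.FLTReg

open Fermat.Agent.FLTReg.CaseI

/-- **Case I of Fermat's Last Theorem** for a prime `p ≥ 5` whose cyclotomic ring of integers
is a PID. -/
theorem caseI_of_pid {p : ℕ} [Fact p.Prime] (hp5 : 5 ≤ p) {K : Type*} [Field K]
    [NumberField K] [IsCyclotomicExtension {p} ℚ K] [IsPrincipalIdealRing (𝓞 K)]
    {a b c : ℤ} (hgcd : ({a, b, c} : Finset ℤ).gcd id = 1) (hcase : ¬ (p : ℤ) ∣ a * b * c) :
    a ^ p + b ^ p ≠ c ^ p := by
  intro h
  have hp : p.Prime := Fact.out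
  have hpZ : Prime (p : ℤ) := Nat.prime_iff_prime_int.1 hp
  have hodd : Odd p := hp.odd_of_ne_two (by omega)
  have : IsCMField K := IsCyclotomicExtension.Rat.isCMField K (S := {p}) ⟨p, rfl, by omega⟩
  have hζ := IsCyclotomicExtension.zeta_spec p ℚ K
  have ha : ¬ (p : ℤ) ∣ a := fun hd => hcase (Dvd.dvd.mul_right (Dvd.dvd.mul_right hd b) c)
  have hb : ¬ (p : ℤ) ∣ b := fun hd => hcase (Dvd.dvd.mul_right (Dvd.dvd.mul_left hd a) c)
  have hc : ¬ (p : ℤ) ∣ c := fun hd => hcase (Dvd.dvd.mul_left hd (a * b))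
  have ha0 : a ≠ 0 := fun h0 => ha (h0 ▸ dvd_zero _)
  have hcopab : IsCoprime a b := by
    refine isCoprime_of_prime_dvd (fun h0 => ha0 h0.1) fun q hq hqa hqb => ?_
    refine not_prime_dvd_all hgcd q hq hqa hqb (hq.dvd_of_dvd_pow (n := p) ?_)
    rw [← h]
    exact dvd_add (dvd_pow hqa hp.ne_zero) (dvd_pow hqb hp.ne_zero)
  have hcopac : IsCoprime a c := by
    refine isCoprime_of_prime_dvd (fun h0 => ha0 h0.1) fun q hq hqa hqc => ?_
    refine not_prime_dvd_all hgcd q hq hqa (hq.dvd_of_dvd_pow (n := p) ?_) hqc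
    have : b ^ p = c ^ p - a ^ p := by linarith
    rw [this]
    exact dvd_sub (dvd_pow hqc hp.ne_zero) (dvd_pow hqa hp.ne_zero)
  by_cases hab : (p : ℤ) ∣ a - b
  · have h' : a ^ p + (-c) ^ p = (-b) ^ p := by
      rw [hodd.neg_pow, hodd.neg_pow]; linarith
    have hac : ¬ (p : ℤ) ∣ a - (-c) := by
      intro hac
      have h2 := congrArg (fun t : ℤ => (t : ZMod p)) h
      simp only [Int.cast_add, Int.cast_pow, ZMod.pow_card] at h2
      have hab' : ((a - b : ℤ) : ZMod p) = 0 := (ZMod.intCast_zmod_eq_zero_iff_dvd _ p).2 hab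
      have hac' : ((a - (-c) : ℤ) : ZMod p) = 0 := (ZMod.intCast_zmod_eq_zero_iff_dvd _ p).2 hac
      push_cast at hab' hac'
      have h3 : ((3 * a : ℤ) : ZMod p) = 0 := by
        push_cast
        linear_combination h2 + hab' + hac'
      have h4 : (p : ℤ) ∣ 3 * a := (ZMod.intCast_zmod_eq_zero_iff_dvd _ p).1 h3
      rcases hpZ.dvd_or_dvd h4 with h5 | h5
      · have := Int.le_of_dvd (by norm_num) h5
        omega
      · exact ha h5
    exact caseI_aux hζ hp5 hcopac.neg_right h' ha (by rwa [dvd_neg]) (by rwa [dvd_neg]) hac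
  · exact caseI_aux hζ hp5 hcopab h ha hb hc hab

end Fermat.Agent.FLTReg
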