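import Mathlib

/-!
# P8 / piece C : the descent for the second case of Fermat's Last Theorem

Abstract setting: a principal ideal domain `R` with a primitive `p`-th root of unity `ζ`
such that `ζ - 1` is prime, `(ζ - 1)^(p-1)` is associated to `p`, every element is congruent
to a rational integer modulo `ζ - 1`, and Kummer's lemma holds.  We show that the generalized
Fermat equation `x ^ p + y ^ p = ε (ζ - 1)^(p m) z ^ p` has no solution with `m ≥ 1`,
`x, y` coprime and `ζ - 1 ∤ z`.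
-/

set_option autoImplicit false

namespace Fermat.Agent.FLTReg.CaseII

open Finset

section General

variable {R : Type*} [CommRing R]

/-- `ζ - 1 ∣ ζ ^ i - 1`. -/
theorem sub_one_dvd_pow_sub_one (ζ : R) (i : ℕ) : ζ - 1 ∣ ζ ^ i - 1 := by
  simpa using sub_dvd_pow_sub_pow ζ 1 i

/-- `ζ ^ i ≡ 1 + i (ζ - 1)` modulo `(ζ - 1) ^ 2`. -/
theorem sq_dvd_pow_sub_one_sub (ζ : R) (i : ℕ) : (ζ - 1) ^ 2 ∣ ζ ^ i - 1 - i * (ζ - 1) := by
  induction i with
  | zero => simp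
  | succ i ih =>
    have : ζ ^ (i + 1) - 1 - ((i + 1 : ℕ) : R) * (ζ - 1) =
        ζ * (ζ ^ i - 1 - i * (ζ - 1)) + i * (ζ - 1) ^ 2 := by
      push_cast; ring
    rw [this]
    exact dvd_add (Dvd.dvd.mul_left ih _) (Dvd.dvd.mul_left dvd_rfl _)

variable [IsDomain R]

/-- Pairwise coprime factors of an associate of a `k`-th power are associates of `k`-th
powers. -/
theorem exists_associated_pow_of_prod {ι : Type*} [DecidableEq ι] [IsPrincipalIdealRing R]
    (s : Finset ι) (b : ι → R) (c : R) (k : ℕ)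
    (hco : ∀ i ∈ s, ∀ j ∈ s, i ≠ j → IsCoprime (b i) (b j))
    (h : Associated (c ^ k) (∏ i ∈ s, b i)) (i : ι) (hi : i ∈ s) :
    ∃ d : R, Associated (d ^ k) (b i) := by
  rw [← Finset.mul_prod_erase s b hi] at h
  refine exists_associated_pow_of_associated_pow_mul ?_ h
  refine IsCoprime.prod_right fun j hj => ?_
  exact hco i hi j (Finset.mem_of_mem_erase hj) (Finset.ne_of_mem_erase hj).symm

variable {p : ℕ} [hp : Fact p.Prime] {ζ : R} (hζ : IsPrimitiveRoot ζ p)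

include hζ

theorem prod_add_zeta_pow_mul (hodd : p ≠ 2) (x y : R) :
    ∏ i ∈ range p, (x + ζ ^ i * y) = x ^ p + y ^ p := by
  classical
  rw [hζ.pow_add_pow_eq_prod_add_mul x y (hp.out.odd_of_ne_two hodd)]
  have : Polynomial.nthRootsFinset p (1 : R) = (range p).image (fun i => ζ ^ i) := by
    symm
    apply Finset.eq_of_subset_of_card_le
    · intro t ht
      obtain ⟨i, _, rfl⟩ := Finset.mem_image.1 ht
      rw [Polynomial.mem_nthRootsFinset hp.out.pos]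
      rw [← pow_mul, mul_comm, pow_mul, hζ.pow_eq_one, one_pow]
    · rw [hζ.card_nthRootsFinset, Finset.card_image_of_injOn, card_range]
      intro i hi j hj hij
      exact hζ.pow_inj (mem_range.1 hi) (mem_range.1 hj) hij
  rw [this, Finset.prod_image]
  intro i hi j hj hij
  exact hζ.pow_inj (mem_range.1 hi) (mem_range.1 hj) hij

/-- `ζ ^ i - ζ ^ j` is associated to `ζ - 1` for `i ≠ j` in `range p`. -/
theorem associated_sub_one_pow_sub_pow {i j : ℕ} (hi : i < p) (hj : j < p) (hij : i ≠ j) :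
    Associated (ζ - 1) (ζ ^ i - ζ ^ j) := by
  refine hζ.nthRootsFinset_pairwise_associated_sub_one_sub_of_prime hp.out ?_ ?_ ?_
  · rw [mem_coe, Polynomial.mem_nthRootsFinset hp.out.pos,
      ← pow_mul, mul_comm, pow_mul, hζ.pow_eq_one, one_pow]
  · rw [mem_coe, Polynomial.mem_nthRootsFinset hp.out.pos,
      ← pow_mul, mul_comm, pow_mul, hζ.pow_eq_one, one_pow]
  · exact fun h => hij (hζ.pow_inj hi hj h)

/-- `1 + ζ` is a unit for odd `p`. -/
theorem isUnit_one_add_zeta (hodd : p ≠ 2) : IsUnit (1 + ζ) := by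
  have h2 : Nat.Coprime 2 p := by
    rw [Nat.coprime_comm, Nat.Prime.coprime_iff_not_dvd hp.out]
    intro h
    exact hodd ((Nat.prime_dvd_prime_iff_eq hp.out Nat.prime_two).1 h)
  have := hζ.geom_sum_isUnit hp.out.two_le h2
  simpa [Finset.sum_range_succ] using this

end General

/-- The abstract setting for the descent. -/
structure Setting (R : Type*) [CommRing R] (p : ℕ) (ζ : R) : Prop where
  prim : IsPrimitiveRoot ζ p
  odd : p ≠ 2
  prime : Prime (ζ - 1)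
  assoc : Associated ((ζ - 1) ^ (p - 1)) (p : R)
  res : ∀ x : R, ∃ n : ℤ, ζ - 1 ∣ x - n
  kummer : ∀ (u : Rˣ) (n : ℤ), (p : R) ∣ (u : R) - n → ∃ v : Rˣ, u = v ^ p

namespace Setting

variable {R : Type*} [CommRing R] [IsDomain R] {p : ℕ} [hp : Fact p.Prime] {ζ : R}
  (S : Setting R p ζ)

include S

omit [IsDomain R] in
theorem lam_dvd_p : ζ - 1 ∣ (p : R) := by
  refine dvd_trans ?_ S.assoc.dvd
  exact dvd_pow_self _ (by have := hp.out.two_le; omega)

omit [IsDomain R] hp in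
theorem p_dvd_lam_pow {k : ℕ} (hk : p - 1 ≤ k) : (p : R) ∣ (ζ - 1) ^ k :=
  dvd_trans S.assoc.symm.dvd (pow_dvd_pow _ hk)

omit [IsDomain R] in
theorem lam_dvd_intCast {n : ℤ} (h : (p : ℤ) ∣ n) : ζ - 1 ∣ (n : R) := by
  obtain ⟨k, rfl⟩ := h
  push_cast
  exact Dvd.dvd.mul_right S.lam_dvd_p _

omit [IsDomain R] in
/-- `x ^ p` is congruent to a rational integer modulo `p`. -/
theorem exists_int_pow (x : R) : ∃ n : ℤ, (p : R) ∣ x ^ p - n := by
  obtain ⟨n, t, ht⟩ := S.res x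
  obtain ⟨r, hr⟩ := exists_add_pow_prime_eq hp.out (n : R) ((ζ - 1) * t)
  obtain ⟨s, hs⟩ := S.p_dvd_lam_pow (k := p) (by omega)
  refine ⟨n ^ p, (n : R) * ((ζ - 1) * t) * r + s * t ^ p, ?_⟩
  have hx : x = n + (ζ - 1) * t := by rw [← ht]; ring
  rw [hx, hr, mul_pow, hs]
  push_cast
  ring

omit [IsDomain R] in
/-- If `ζ - 1 ∣ x + y` and `ζ - 1 ∤ y`, some `x + ζ ^ i y` is divisible by `(ζ - 1) ^ 2`. -/
theorem exists_sq_dvd {x y : R} (hxy : ζ - 1 ∣ x + y) (hy : ¬ ζ - 1 ∣ y) :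
    ∃ i : ℕ, (ζ - 1) ^ 2 ∣ x + ζ ^ i * y := by
  obtain ⟨t, ht⟩ := hxy
  obtain ⟨c, hc⟩ := S.res t
  obtain ⟨b, hb⟩ := S.res y
  have hpb : ¬ (p : ℤ) ∣ b := by
    intro h
    apply hy
    have := dvd_add hb (S.lam_dvd_intCast h)
    simpa using this
  have hb0 : (b : ZMod p) ≠ 0 := by
    rwa [Ne, ZMod.intCast_zmod_eq_zero_iff_dvd]
  set i : ℕ := ((-(c : ZMod p)) * (b : ZMod p)⁻¹).val with hi
  have hdvd : (p : ℤ) ∣ c + i * b := by
    rw [← ZMod.intCast_zmod_eq_zero_iff_dvd]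
    push_cast
    rw [hi, ZMod.natCast_val, ZMod.cast_id', id, mul_assoc, inv_mul_cancel₀ hb0]
    ring
  refine ⟨i, ?_⟩
  have hlam : ζ - 1 ∣ t + i * y := by
    have h3 := S.lam_dvd_intCast hdvd
    have : t + i * y = (t - c) + i * (y - b) + ((c + i * b : ℤ) : R) := by
      push_cast; ring
    rw [this]
    exact dvd_add (dvd_add hc (Dvd.dvd.mul_left hb _)) h3
  have : x + ζ ^ i * y = (ζ - 1) * (t + i * y) + (ζ ^ i - 1 - i * (ζ - 1)) * y := by
    have : x = (ζ - 1) * t - y := by rw [← ht]; ring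
    rw [this]; ring
  rw [this, sq]
  refine dvd_add (mul_dvd_mul_left _ hlam) ?_
  rw [← sq]
  exact Dvd.dvd.mul_right (sq_dvd_pow_sub_one_sub ζ i) _

/-- The core of the descent: a solution with `(ζ - 1) ^ 2 ∣ x + y` has `m ≥ 2` and produces
a solution with `m - 1`. -/
theorem descent_core [IsPrincipalIdealRing R] {m : ℕ} (hm : 1 ≤ m) {x y z : R} {ε : Rˣ}
    (hxy : IsCoprime x y) (hz : ¬ ζ - 1 ∣ z) (hsq : (ζ - 1) ^ 2 ∣ x + y)
    (h : x ^ p + y ^ p = ε * (ζ - 1) ^ (p * m) * z ^ p) :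
    2 ≤ m ∧ ∃ (x' y' z' : R) (ε' : Rˣ), IsCoprime x' y' ∧ ¬ ζ - 1 ∣ z' ∧
      x' ^ p + y' ^ p = ε' * (ζ - 1) ^ (p * (m - 1)) * z' ^ p := by
  classical
  have hζ := S.prim
  have hprime := S.prime
  have hlam0 : ζ - 1 ≠ 0 := hprime.ne_zero
  have hp0 : p ≠ 0 := hp.out.ne_zero
  have hp3 : 3 ≤ p := by
    have := hp.out.two_le
    have := S.odd
    omega
  have hlamxy : ζ - 1 ∣ x + y := dvd_trans (dvd_pow_self _ two_ne_zero) hsq
  -- `ζ - 1 ∤ y`
  have hy : ¬ ζ - 1 ∣ y := by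
    intro hy
    have hx : ζ - 1 ∣ x := by
      have := dvd_sub hlamxy hy
      simpa using this
    exact hprime.not_isUnit (hxy.isUnit_of_dvd' hx hy)
  -- all the factors are divisible by `ζ - 1`
  have hdiv : ∀ i : ℕ, ζ - 1 ∣ x + ζ ^ i * y := fun i => by
    have : x + ζ ^ i * y = (x + y) + (ζ ^ i - 1) * y := by ring
    rw [this]
    exact dvd_add hlamxy (Dvd.dvd.mul_right (sub_one_dvd_pow_sub_one ζ i) _)
  choose a ha using hdiv
  have ha0 : x + y = (ζ - 1) * a 0 := by simpa using ha 0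
  -- `ζ - 1 ∤ a i` for `1 ≤ i < p`
  have hai : ∀ i, 1 ≤ i → i < p → ¬ ζ - 1 ∣ a i := by
    intro i hi1 hip hdvd
    have hcop : Nat.Coprime i p :=
      ((Nat.Prime.coprime_iff_not_dvd hp.out).2 (Nat.not_dvd_of_pos_of_lt hi1 hip)).symm
    obtain ⟨u, hu⟩ := hζ.associated_sub_one_pow_sub_one_of_coprime hcop
    have h1 : (ζ - 1) ^ 2 ∣ x + ζ ^ i * y := by
      rw [ha i, sq]
      exact mul_dvd_mul_left _ hdvd
    have h2 : (ζ - 1) ^ 2 ∣ (ζ - 1) * (u * y) := by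
      have : (ζ - 1) * (u * y) = (x + ζ ^ i * y) - (x + y) := by
        rw [← mul_assoc, hu]; ring
      rw [this]
      exact dvd_sub h1 hsq
    rw [sq, mul_dvd_mul_iff_left hlam0] at h2
    rcases hprime.dvd_mul.1 h2 with h3 | h3
    · exact hprime.not_isUnit (isUnit_of_dvd_unit h3 u.isUnit)
    · exact hy h3
  -- the product of the `a i`
  have hprod : ∏ i ∈ range p, a i = ε * (ζ - 1) ^ (p * (m - 1)) * z ^ p := by
    have h1 : ∏ i ∈ range p, (x + ζ ^ i * y) = (ζ - 1) ^ p * ∏ i ∈ range p, a i := by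
      rw [Finset.prod_congr rfl (fun i _ => ha i), Finset.prod_mul_distrib, Finset.prod_const,
        card_range]
    rw [prod_add_zeta_pow_mul hζ S.odd, h] at h1
    have h2 : p * m = p + p * (m - 1) := by
      obtain ⟨m', rfl⟩ : ∃ m', m = m' + 1 := ⟨m - 1, by omega⟩
      simp; ring
    rw [h2, pow_add] at h1
    apply mul_left_cancel₀ (pow_ne_zero p hlam0)
    rw [← h1]; ring
  set A := ∏ i ∈ Ico 1 p, a i with hA
  have hsplit : ∏ i ∈ range p, a i = a 0 * A := by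
    rw [Finset.range_eq_Ico, Finset.prod_eq_prod_Ico_succ_bot hp.out.pos]
  have hlamA : ¬ ζ - 1 ∣ A := by
    rw [hA, hprime.dvd_finsetProd_iff]
    rintro ⟨i, hi, hdvd⟩
    rw [Finset.mem_Ico] at hi
    exact hai i hi.1 hi.2 hdvd
  have hlama0 : ζ - 1 ∣ a 0 := by
    rw [ha0, sq, mul_dvd_mul_iff_left hlam0] at hsq
    exact hsq
  have hlamεz : ¬ ζ - 1 ∣ ε * z ^ p := by
    intro h1
    rcases hprime.dvd_mul.1 h1 with h2 | h2
    · exact hprime.not_isUnit (isUnit_of_dvd_unit h2 ε.isUnit)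
    · exact hz (hprime.dvd_of_dvd_pow h2)
  -- `m ≥ 2`
  have hm2 : 2 ≤ m := by
    by_contra hm2
    have hm1 : m = 1 := by omega
    rw [hsplit, hm1] at hprod
    simp only [le_refl, tsub_eq_zero_of_le, mul_zero, pow_zero, mul_one] at hprod
    apply hlamεz
    rw [← hprod]
    exact Dvd.dvd.mul_right hlama0 _
  refine ⟨hm2, ?_⟩
  -- `(ζ - 1) ^ (p (m - 1)) ∣ a 0`
  obtain ⟨a0', ha0'⟩ : (ζ - 1) ^ (p * (m - 1)) ∣ a 0 := by
    refine hprime.pow_dvd_of_dvd_mul_right _ hlamA ?_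
    rw [← hsplit, hprod]
    exact ⟨ε * z ^ p, by ring⟩
  have hprod' : a0' * A = ε * z ^ p := by
    apply mul_left_cancel₀ (pow_ne_zero (p * (m - 1)) hlam0)
    rw [← mul_assoc, ← ha0', ← hsplit, hprod]; ring
  -- pairwise coprimality of the `a i`
  have hcop : ∀ i < p, ∀ j < p, i ≠ j → IsCoprime (a i) (a j) := by
    intro i hi j hj hij
    obtain ⟨w, hw⟩ := associated_sub_one_pow_sub_pow hζ hi hj hij
    obtain ⟨r, s, hrs⟩ := hxy
    have h1 : (w : R) * x = ζ ^ i * a j - ζ ^ j * a i := by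
      apply mul_left_cancel₀ hlam0
      rw [← mul_assoc, hw]
      have e1 := ha i
      have e2 := ha j
      linear_combination ζ ^ i * e2 - ζ ^ j * e1
    have h2 : (w : R) * y = a i - a j := by
      apply mul_left_cancel₀ hlam0
      rw [← mul_assoc, hw]
      have e1 := ha i
      have e2 := ha j
      linear_combination e1 - e2
    refine ⟨((w⁻¹ : Rˣ) : R) * (s - r * ζ ^ j), ((w⁻¹ : Rˣ) : R) * (r * ζ ^ i - s), ?_⟩
    have h3 : ((w⁻¹ : Rˣ) : R) * w = 1 := by simp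
    linear_combination (exp := 1) ((w⁻¹ : Rˣ) : R) * w * hrs - ((w⁻¹ : Rˣ) : R) * r * h1 -
      ((w⁻¹ : Rˣ) : R) * s * h2 + h3
  -- the family `b` with `b 0 = a0'`
  set b : ℕ → R := fun i => if i = 0 then a0' else a i with hb
  have hb0 : b 0 = a0' := by simp [hb]
  have hbi : ∀ i, i ≠ 0 → b i = a i := fun i hi => by simp [hb, hi]
  have hbprod : ∏ i ∈ range p, b i = ε * z ^ p := by
    rw [Finset.range_eq_Ico, Finset.prod_eq_prod_Ico_succ_bot hp.out.pos, hb0, ← hprod']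
    congr 1
    refine Finset.prod_congr rfl fun i hi => ?_
    rw [Finset.mem_Ico] at hi
    exact hbi i (by omega)
  have hbcop : ∀ i ∈ range p, ∀ j ∈ range p, i ≠ j → IsCoprime (b i) (b j) := by
    have key : ∀ j, j < p → j ≠ 0 → IsCoprime a0' (a j) := by
      intro j hj hj0
      have := hcop 0 hp.out.pos j hj (Ne.symm hj0)
      rw [ha0'] at this
      exact this.of_mul_left_right
    intro i hi j hj hij
    rw [mem_range] at hi hj
    by_cases hi0 : i = 0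
    · subst hi0
      rw [hb0, hbi j (Ne.symm hij)]
      exact key j hj (Ne.symm hij)
    · by_cases hj0 : j = 0
      · subst hj0
        rw [hb0, hbi i hi0]
        exact (key i hi hi0).symm
      · rw [hbi i hi0, hbi j hj0]
        exact hcop i hi j hj hij
  have hbpow : ∀ i < p, ∃ d : R, Associated (d ^ p) (b i) := by
    intro i hi
    refine exists_associated_pow_of_prod (range p) b z p hbcop ?_ i (mem_range.2 hi)
    rw [hbprod]
    exact ⟨ε, by ring⟩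
  obtain ⟨ρ0, η0, h0⟩ := hbpow 0 (by omega)
  obtain ⟨ρ1, η1, h1⟩ := hbpow 1 (by omega)
  obtain ⟨ρ2, η2, h2⟩ := hbpow 2 (by omega)
  rw [hb0] at h0
  rw [hbi 1 one_ne_zero] at h1
  rw [hbi 2 two_ne_zero] at h2
  -- the linear relation
  have hrel : a 2 + ζ * a 0 = (1 + ζ) * a 1 := by
    apply mul_left_cancel₀ hlam0
    have e0 := ha 0
    have e1 := ha 1
    have e2 := ha 2
    simp only [pow_zero, pow_one, one_mul] at e0 e1
    linear_combination (-1 : R) * e2 - ζ * e0 + (1 + ζ) * e1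
  obtain ⟨w, hw⟩ := isUnit_one_add_zeta hζ S.odd
  obtain ⟨ζu, hζu⟩ := hζ.isUnit hp0
  set k := p * (m - 1) with hk
  have hrel' : ρ2 ^ p * η2 + ζ * ((ζ - 1) ^ k * (ρ0 ^ p * η0)) = w * (ρ1 ^ p * η1) := by
    rw [h0, h1, h2, ← ha0', hw]
    exact hrel
  set η' : Rˣ := -(w * η1 * η2⁻¹) with hη'
  set ε' : Rˣ := -(ζu * η0 * η2⁻¹) with hε'
  have he : (η2 : R) * ((η2⁻¹ : Rˣ) : R) = 1 := by simp
  have hnew : ρ2 ^ p + η' * ρ1 ^ p = ε' * (ζ - 1) ^ k * ρ0 ^ p := by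
    simp only [hη', hε', Units.val_neg, Units.val_mul, hζu]
    linear_combination ((η2⁻¹ : Rˣ) : R) * hrel' - ρ2 ^ p * he
  -- `η'` is congruent to an integer modulo `p`
  have hpk : (p : R) ∣ (ζ - 1) ^ k := by
    refine S.p_dvd_lam_pow ?_
    rw [hk]
    calc p - 1 ≤ p * 1 := by omega
      _ ≤ p * (m - 1) := Nat.mul_le_mul_left _ (by omega)
  obtain ⟨k3, hk3⟩ : (p : R) ∣ ρ2 ^ p + η' * ρ1 ^ p := by
    rw [hnew]
    exact Dvd.dvd.mul_right (Dvd.dvd.mul_left hpk _) _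
  obtain ⟨n1, k1, hk1⟩ := S.exists_int_pow ρ1
  obtain ⟨n2, k2, hk2⟩ := S.exists_int_pow ρ2
  have hρ1 : ¬ ζ - 1 ∣ ρ1 := by
    intro hdvd
    apply hai 1 le_rfl (by omega)
    rw [← h1]
    exact Dvd.dvd.mul_right (dvd_pow hdvd hp0) _
  have hρ0 : ¬ ζ - 1 ∣ ρ0 := by
    intro hdvd
    apply hlamεz
    rw [← hprod', ← h0]
    exact Dvd.dvd.mul_right (Dvd.dvd.mul_right (dvd_pow hdvd hp0) _) _
  have hn1 : ¬ (p : ℤ) ∣ n1 := by
    intro hdvd
    apply hρ1
    apply hprime.dvd_of_dvd_pow (n := p)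
    have : ρ1 ^ p = (p : R) * k1 + n1 := by rw [← hk1]; ring
    rw [this]
    exact dvd_add (Dvd.dvd.mul_right S.lam_dvd_p _) (S.lam_dvd_intCast hdvd)
  obtain ⟨u, v, huv⟩ : IsCoprime (p : ℤ) n1 :=
    (Nat.prime_iff_prime_int.1 hp.out).coprime_iff_not_dvd.2 hn1
  have huv' : (u : R) * p + v * n1 = 1 := by exact_mod_cast congrArg (Int.cast : ℤ → R) huv
  have hcong : (p : R) ∣ (η' : R) - ((-(v * n2) : ℤ) : R) := by
    refine ⟨η' * u + v * (k3 - η' * k1 - k2), ?_⟩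
    push_cast
    linear_combination (-(η' : R)) * huv' + (v : R) * hk3 - (v : R) * hk2 - (v : R) * η' * hk1
  obtain ⟨ξ, hξ⟩ := S.kummer η' _ hcong
  refine ⟨ρ2, ξ * ρ1, ρ0, ε', ?_, hρ0, ?_⟩
  · have h12 : IsCoprime (a 2) (a 1) := hcop 2 (by omega) 1 (by omega) (by norm_num)
    rw [← h1, ← h2] at h12
    have h12' : IsCoprime (ρ2 ^ p) (ρ1 ^ p) :=
      (IsCoprime.of_mul_left_left h12).of_mul_right_left
    rw [IsCoprime.pow_iff hp.out.pos hp.out.pos] at h12'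
    exact (isCoprime_mul_unit_left_right ξ.isUnit _ _).2 h12'
  · rw [mul_pow, ← Units.val_pow_eq_pow_val, ← hξ]
    exact hnew

/-- The descent step: a solution has `m ≥ 2` and produces a solution with `m - 1`. -/
theorem descent_step [IsPrincipalIdealRing R] {m : ℕ} (hm : 1 ≤ m) {x y z : R} {ε : Rˣ}
    (hxy : IsCoprime x y) (hz : ¬ ζ - 1 ∣ z)
    (h : x ^ p + y ^ p = ε * (ζ - 1) ^ (p * m) * z ^ p) :
    2 ≤ m ∧ ∃ (x' y' z' : R) (ε' : Rˣ), IsCoprime x' y' ∧ ¬ ζ - 1 ∣ z' ∧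
      x' ^ p + y' ^ p = ε' * (ζ - 1) ^ (p * (m - 1)) * z' ^ p := by
  have hζ := S.prim
  have hprime := S.prime
  have hp0 : p ≠ 0 := hp.out.ne_zero
  -- `ζ - 1 ∣ x + y`
  have hlamxy : ζ - 1 ∣ x + y := by
    apply hprime.dvd_of_dvd_pow (n := p)
    obtain ⟨r, hr⟩ := exists_add_pow_prime_eq hp.out x y
    rw [hr, h]
    refine dvd_add ?_ ?_
    · refine Dvd.dvd.mul_right (Dvd.dvd.mul_left (dvd_pow_self _ ?_) _) _
      exact Nat.mul_ne_zero hp0 (by omega)
    · simp only [mul_assoc]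
      exact Dvd.dvd.mul_right S.lam_dvd_p _
  have hy : ¬ ζ - 1 ∣ y := by
    intro hy
    have hx : ζ - 1 ∣ x := by
      have := dvd_sub hlamxy hy
      simpa using this
    exact hprime.not_isUnit (hxy.isUnit_of_dvd' hx hy)
  obtain ⟨i, hi⟩ := S.exists_sq_dvd hlamxy hy
  have hu : IsUnit (ζ ^ i) := (hζ.isUnit hp0).pow i
  refine S.descent_core hm (y := ζ ^ i * y) (ε := ε) ?_ hz hi ?_
  · exact (isCoprime_mul_unit_left_right hu _ _).2 hxy
  · rw [mul_pow, ← pow_mul, mul_comm i p, pow_mul, hζ.pow_eq_one, one_pow, one_mul]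
    exact h

/-- **Second case, generalized equation.** No solution of
`x ^ p + y ^ p = ε (ζ - 1)^(p m) z ^ p` with `m ≥ 1`, `x, y` coprime and `ζ - 1 ∤ z`. -/
theorem no_solution [IsPrincipalIdealRing R] : ∀ (m : ℕ), 1 ≤ m → ∀ (x y z : R) (ε : Rˣ),
    IsCoprime x y → ¬ ζ - 1 ∣ z → x ^ p + y ^ p ≠ ε * (ζ - 1) ^ (p * m) * z ^ p := by
  intro m
  induction m with
  | zero => intro h; omega
  | succ m ih =>
    intro _ x y z ε hxy hz h
    obtain ⟨h2, x', y', z', ε', hxy', hz', h'⟩ := S.descent_step (by omega) hxy hz h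
    exact ih (by omega) x' y' z' ε' hxy' hz' h'

end Setting

end Fermat.Agent.FLTReg.CaseII
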