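import Mathlib

/-!
# P8 / piece B1: a unit of `ℤ[ζ_p]` which is `≡ 1 mod p` is `≡ 1 mod p(ζ-1)`
-/

set_option autoImplicit false

open NumberField Polynomial

namespace Fermat.Agent.FLTReg

section Trace

variable {K : Type*} [Field K] [NumberField K]

/-- If `y ^ m ∈ p 𝓞 K` then `p ∣ Tr(y)` (nilpotent mod `p`). -/
theorem dvd_trace_of_pow_mem {p : ℕ} [Fact p.Prime] (y w : 𝓞 K) (m : ℕ)
    (h : y ^ m = (p : 𝓞 K) * w) : (p : ℤ) ∣ Algebra.trace ℤ (𝓞 K) y := by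
  classical
  let b := RingOfIntegers.basis K
  rw [Algebra.trace_eq_matrix_trace b]
  set M := Algebra.leftMulMatrix b y with hM
  have hMm : M ^ m = (p : ℤ) • Algebra.leftMulMatrix b w := by
    rw [hM, ← map_pow, h]
    have : ((p : 𝓞 K) * w) = (p : ℤ) • w := by
      rw [zsmul_eq_mul]; push_cast; rfl
    rw [this, map_smul]
  let f := Int.castRingHom (ZMod p)
  have hnil : IsNilpotent (M.map f) := by
    refine ⟨m, ?_⟩
    rw [← Matrix.map_pow, hMm]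
    ext i j
    rw [Matrix.map_apply, Matrix.smul_apply, smul_eq_mul, map_mul]
    have : f (p : ℤ) = 0 := by simp [f]
    rw [this, zero_mul]
    rfl
  have htr := Matrix.isNilpotent_trace_of_isNilpotent hnil
  have htr0 : (M.map f).trace = 0 := htr.eq_zero
  have : f M.trace = 0 := by
    rw [← htr0]
    exact AddMonoidHom.map_trace f.toAddMonoidHom M
  exact (ZMod.intCast_zmod_eq_zero_iff_dvd _ _).mp this

end Trace

variable {p : ℕ} [hp : Fact p.Prime] {K : Type*} [Field K] [NumberField K]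
  [IsCyclotomicExtension {p} ℚ K] {ζ : K} (hζ : IsPrimitiveRoot ζ p)

/-- every element of `𝓞 K` is congruent to an integer modulo `ζ - 1` -/
theorem exists_int_add_zeta_sub_one_mul (c : 𝓞 K) :
    ∃ (c₀ : ℤ) (d : 𝓞 K), c = (c₀ : 𝓞 K) + (hζ.toInteger - 1) * d := by
  obtain ⟨f, hf⟩ := hζ.subOneIntegralPowerBasis.exists_eq_aeval' c
  have hgen : hζ.subOneIntegralPowerBasis.gen = hζ.toInteger - 1 := by
    rw [hζ.subOneIntegralPowerBasis_gen]
    rfl
  rw [hgen] at hf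
  refine ⟨f.coeff 0, aeval (hζ.toInteger - 1) f.divX, ?_⟩
  conv_lhs => rw [hf, ← Polynomial.divX_mul_X_add f]
  simp only [map_add, map_mul, aeval_X, aeval_C]
  rw [add_comm, mul_comm]
  rfl

omit [NumberField K] [IsCyclotomicExtension {p} ℚ K] in
/-- `p = (ζ - 1)^(p-1) * unit` -/
theorem exists_unit_zeta_sub_one_pow_mul :
    ∃ ε : (𝓞 K)ˣ, (hζ.toInteger - 1) ^ (p - 1) * (ε : 𝓞 K) = (p : 𝓞 K) :=
  IsCyclotomicExtension.Rat.associated_zeta_sub_one_pow_prime p hζ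

/-- **B1.** A unit congruent to `1` modulo `p` is congruent to `1` modulo `p (ζ - 1)`. -/
theorem mul_zeta_sub_one_dvd_unit_sub_one (hp2 : p ≠ 2) (x : (𝓞 K)ˣ)
    (h : (p : 𝓞 K) ∣ (x : 𝓞 K) - 1) : (p : 𝓞 K) * (hζ.toInteger - 1) ∣ (x : 𝓞 K) - 1 := by
  classical
  obtain ⟨c, hc⟩ := h
  have hx : (x : 𝓞 K) = 1 + (p : ℤ) • c := by
    rw [zsmul_eq_mul]; push_cast; rw [← hc]; ring
  -- the norm of `x`
  let b := RingOfIntegers.basis K
  have hnorm : Algebra.norm ℤ (x : 𝓞 K) = 1 + Algebra.trace ℤ (𝓞 K) c * p +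
      ((1 + (X : ℤ[X]) • (Algebra.leftMulMatrix b c).map C).det).divX.divX.eval (p : ℤ)
        * (p : ℤ) ^ 2 := by
    rw [Algebra.norm_eq_matrix_det b, hx, map_add, map_one, map_smul, Matrix.det_one_add_smul,
      Algebra.trace_eq_matrix_trace b]
  set k := ((1 + (X : ℤ[X]) • (Algebra.leftMulMatrix b c).map C).det).divX.divX.eval (p : ℤ)
  have hunit : IsUnit (Algebra.norm ℤ (x : 𝓞 K)) := x.isUnit.map (Algebra.norm ℤ)
  have hp3 : 3 ≤ p := by
    have := hp.out.two_le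
    omega
  have hpz : (p : ℤ) ≠ 0 := by exact_mod_cast hp.out.ne_zero
  have htr : (p : ℤ) ∣ Algebra.trace ℤ (𝓞 K) c := by
    rcases Int.isUnit_iff.mp hunit with h1 | h1
    · rw [h1] at hnorm
      have : (p : ℤ) * (Algebra.trace ℤ (𝓞 K) c + k * p) = 0 := by linarith
      have h2 : Algebra.trace ℤ (𝓞 K) c + k * p = 0 := by
        rcases mul_eq_zero.mp this with h3 | h3
        · exact absurd h3 hpz
        · exact h3
      exact ⟨-k, by linarith⟩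
    · rw [h1] at hnorm
      exfalso
      have h2 : (p : ℤ) ∣ 2 := ⟨-(Algebra.trace ℤ (𝓞 K) c + k * p), by linarith⟩
      have h3 := Int.le_of_dvd (by norm_num) h2
      omega
  -- decompose `c`
  obtain ⟨c₀, d, hcd⟩ := exists_int_add_zeta_sub_one_mul hζ c
  obtain ⟨ε, hε⟩ := exists_unit_zeta_sub_one_pow_mul hζ
  set lam := hζ.toInteger - 1 with hlam
  have hpow : (lam * d) ^ (p - 1) = (p : 𝓞 K) * ((ε⁻¹ : (𝓞 K)ˣ) * d ^ (p - 1)) := by
    rw [mul_pow, ← hε]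
    have : (ε : 𝓞 K) * ((ε⁻¹ : (𝓞 K)ˣ) : 𝓞 K) = 1 := by simp
    calc lam ^ (p - 1) * d ^ (p - 1) = lam ^ (p - 1) * ((ε : 𝓞 K) * ((ε⁻¹ : (𝓞 K)ˣ) : 𝓞 K))
          * d ^ (p - 1) := by rw [this, mul_one]
      _ = _ := by ring
  have htr2 : (p : ℤ) ∣ Algebra.trace ℤ (𝓞 K) (lam * d) := dvd_trace_of_pow_mem _ _ _ hpow
  have htr3 : Algebra.trace ℤ (𝓞 K) c = (p - 1 : ℕ) * c₀ + Algebra.trace ℤ (𝓞 K) (lam * d) := by
    rw [hcd, map_add]
    congr 1
    have h1 : ((c₀ : ℤ) : 𝓞 K) = algebraMap ℤ (𝓞 K) c₀ := by simp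
    rw [h1, Algebra.trace_algebraMap, RingOfIntegers.rank,
      IsCyclotomicExtension.Rat.finrank p K, Nat.totient_prime hp.out]
    simp
  have hc0 : (p : ℤ) ∣ c₀ := by
    have h1 : (p : ℤ) ∣ ((p - 1 : ℕ) : ℤ) * c₀ := by
      have := (Int.dvd_add_left htr2).mp (htr3 ▸ htr)
      exact this
    have hcop : IsCoprime (p : ℤ) ((p - 1 : ℕ) : ℤ) := by
      rw [Nat.cast_sub hp.out.one_le]
      refine ⟨1, -1, ?_⟩
      push_cast
      ring
    exact hcop.dvd_of_dvd_mul_left h1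
  obtain ⟨c₁, hc₁⟩ := hc0
  have hp1 : p - 1 = (p - 2) + 1 := by omega
  have hlamc : lam ∣ c := by
    rw [hcd, hc₁]
    refine dvd_add ?_ (dvd_mul_right _ _)
    push_cast
    rw [← hε, hp1, pow_succ]
    exact ⟨lam ^ (p - 2) * ε * c₁, by ring⟩
  obtain ⟨e, he⟩ := hlamc
  exact ⟨e, by rw [hc, he]; ring⟩

end Fermat.Agent.FLTReg
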