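import Mathlib
import Fermat.Agent.Lib.FLTReg.KummerCongr
import Fermat.Agent.Lib.FLTReg.CaseIIDescent

/-!
# P8 / piece C : the second case of Fermat's Last Theorem under a PID hypothesis

`caseII_of_pid` : if `𝓞 K` (`K` the `p`-th cyclotomic field) is a PID and Kummer's lemma holds,
then `a ^ p + b ^ p = c ^ p` has no solution in nonzero integers with `gcd = 1` and `p ∣ a b c`.
-/

set_option autoImplicit false

open NumberField

namespace Fermat.Agent.FLTReg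

namespace CaseII

/-- Pairwise coprimality in a primitive solution of the Fermat equation. -/
theorem isCoprime_of_fermat {n : ℕ} (hn : n ≠ 0) {a b c : ℤ}
    (hgcd : ({a, b, c} : Finset ℤ).gcd id = 1) (h : a ^ n + b ^ n = c ^ n) :
    IsCoprime a b ∧ IsCoprime c b ∧ IsCoprime c a := by
  have key : ∀ q : ℤ, Prime q → ((q ∣ a ∧ q ∣ b) ∨ (q ∣ c ∧ q ∣ b) ∨ (q ∣ c ∧ q ∣ a)) → False := by
    intro q hq hcases
    have hall : q ∣ a ∧ q ∣ b ∧ q ∣ c := by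
      rcases hcases with ⟨h1, h2⟩ | ⟨h1, h2⟩ | ⟨h1, h2⟩
      · refine ⟨h1, h2, hq.dvd_of_dvd_pow (n := n) ?_⟩
        rw [← h]
        exact dvd_add (dvd_pow h1 hn) (dvd_pow h2 hn)
      · refine ⟨hq.dvd_of_dvd_pow (n := n) ?_, h2, h1⟩
        have : a ^ n = c ^ n - b ^ n := by rw [← h]; ring
        rw [this]
        exact dvd_sub (dvd_pow h1 hn) (dvd_pow h2 hn)
      · refine ⟨h2, hq.dvd_of_dvd_pow (n := n) ?_, h1⟩
        have : b ^ n = c ^ n - a ^ n := by rw [← h]; ring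
        rw [this]
        exact dvd_sub (dvd_pow h1 hn) (dvd_pow h2 hn)
    apply hq.not_dvd_one
    rw [← hgcd]
    refine Finset.dvd_gcd fun x hx => ?_
    simp only [Finset.mem_insert, Finset.mem_singleton] at hx
    rcases hx with rfl | rfl | rfl
    · exact hall.1
    · exact hall.2.1
    · exact hall.2.2
  have hne : ¬ (a = 0 ∧ b = 0 ∧ c = 0) := by
    rintro ⟨rfl, rfl, rfl⟩
    simp at hgcd
  refine ⟨isCoprime_of_prime_dvd ?_ fun q hq h1 h2 => key q hq (Or.inl ⟨h1, h2⟩),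
    isCoprime_of_prime_dvd ?_ fun q hq h1 h2 => key q hq (Or.inr (Or.inl ⟨h1, h2⟩)),
    isCoprime_of_prime_dvd ?_ fun q hq h1 h2 => key q hq (Or.inr (Or.inr ⟨h1, h2⟩))⟩
  · rintro ⟨rfl, rfl⟩
    apply hne
    refine ⟨rfl, rfl, ?_⟩
    simpa [hn] using h.symm
  · rintro ⟨rfl, rfl⟩
    apply hne
    refine ⟨?_, rfl, rfl⟩
    simpa [hn] using h
  · rintro ⟨rfl, rfl⟩
    apply hne
    refine ⟨rfl, ?_, rfl⟩
    simpa [hn] using h

/-- Reduction of the second case to the situation `p ∣ c`. -/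
theorem int_reduction {p : ℕ} (hp : p.Prime) (hodd : p ≠ 2)
    (H : ∀ a b c : ℤ, c ≠ 0 → (p : ℤ) ∣ c → IsCoprime a b → a ^ p + b ^ p ≠ c ^ p)
    {a b c : ℤ} (ha : a ≠ 0) (hb : b ≠ 0) (hc : c ≠ 0)
    (hgcd : ({a, b, c} : Finset ℤ).gcd id = 1) (hcase : (p : ℤ) ∣ a * b * c) :
    a ^ p + b ^ p ≠ c ^ p := by
  intro hF
  have hpodd : Odd p := hp.odd_of_ne_two hodd
  obtain ⟨hab, hcb, hca⟩ := isCoprime_of_fermat hp.ne_zero hgcd hF
  have hpp : Prime (p : ℤ) := Nat.prime_iff_prime_int.1 hp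
  rcases hpp.dvd_mul.1 hcase with h1 | h1
  · rcases hpp.dvd_mul.1 h1 with h2 | h2
    · -- `p ∣ a` : `c ^ p + (-b) ^ p = a ^ p`
      refine H c (-b) a ha h2 hcb.neg_right ?_
      rw [hpodd.neg_pow, ← hF]; ring
    · -- `p ∣ b` : `c ^ p + (-a) ^ p = b ^ p`
      refine H c (-a) b hb h2 hca.neg_right ?_
      rw [hpodd.neg_pow, ← hF]; ring
  · exact H a b c hc h1 hab hF

variable {p : ℕ} [hp : Fact p.Prime] {K : Type*} [Field K] [NumberField K]
  [IsCyclotomicExtension {p} ℚ K] {ζ : K} (hζ : IsPrimitiveRoot ζ p)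

/-- The ring of integers of the `p`-th cyclotomic field is a `Setting` for the descent, provided
Kummer's lemma holds. -/
theorem setting_of_cyclotomic (hodd : p ≠ 2)
    (hkummer : ∀ (u : (𝓞 K)ˣ) (n : ℤ), (p : 𝓞 K) ∣ (u : 𝓞 K) - n → ∃ v : (𝓞 K)ˣ, u = v ^ p) :
    Setting (𝓞 K) p hζ.toInteger where
  prim := hζ.toInteger_isPrimitiveRoot
  odd := hodd
  prime := hζ.zeta_sub_one_prime'
  assoc := IsCyclotomicExtension.Rat.associated_zeta_sub_one_pow_prime p hζ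
  res := fun x => by
    obtain ⟨c₀, d, hd⟩ := exists_int_add_zeta_sub_one_mul hζ x
    exact ⟨c₀, d, by rw [hd]; ring⟩
  kummer := hkummer

end CaseII

open CaseII in
/-- **Second case of Fermat's Last Theorem** for an odd prime `p` such that `ℤ[ζ_p]` is a PID
and Kummer's lemma holds. -/
theorem caseII_of_pid_of_ne_two {p : ℕ} [hp : Fact p.Prime] (hodd : p ≠ 2) {K : Type*} [Field K]
    [NumberField K] [IsCyclotomicExtension {p} ℚ K] [IsPrincipalIdealRing (𝓞 K)]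
    (hkummer : ∀ (u : (𝓞 K)ˣ) (n : ℤ), (p : 𝓞 K) ∣ (u : 𝓞 K) - n → ∃ v : (𝓞 K)ˣ, u = v ^ p)
    {a b c : ℤ} (ha : a ≠ 0) (hb : b ≠ 0) (hc : c ≠ 0)
    (hgcd : ({a, b, c} : Finset ℤ).gcd id = 1) (hcase : (p : ℤ) ∣ a * b * c) :
    a ^ p + b ^ p ≠ c ^ p := by
  refine int_reduction hp.out hodd ?_ ha hb hc hgcd hcase
  clear ha hb hc hgcd hcase a b c
  intro a b c hc hpc hab hF
  have hζ := IsCyclotomicExtension.zeta_spec p ℚ K
  have S := setting_of_cyclotomic hζ hodd hkummer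
  -- write `c = p ^ k * c'`
  have hfin : FiniteMultiplicity (p : ℤ) c :=
    Int.finiteMultiplicity_iff.2 ⟨by simpa using hp.out.ne_one, hc⟩
  obtain ⟨c', hc', hpc'⟩ := hfin.exists_eq_pow_mul_and_not_dvd
  set k := multiplicity (p : ℤ) c with hk
  have hk1 : 1 ≤ k := by
    rcases Nat.eq_zero_or_pos k with h0 | h0
    · exfalso
      rw [h0, pow_zero, one_mul] at hc'
      exact hpc' (hc' ▸ hpc)
    · exact h0
  obtain ⟨u, hu⟩ := S.assoc
  have hlamc' : ¬ hζ.toInteger - 1 ∣ (c' : 𝓞 K) := by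
    rwa [IsCyclotomicExtension.Rat.zeta_sub_one_dvd_intCast_iff' p hζ]
  have hp1 : 1 ≤ p - 1 := by have := hp.out.two_le; omega
  refine S.no_solution ((p - 1) * k) (Nat.mul_pos hp1 hk1) (a : 𝓞 K) (b : 𝓞 K) (c' : 𝓞 K)
    (u ^ (k * p)) hab.intCast hlamc' ?_
  have h1 : ((a : 𝓞 K)) ^ p + (b : 𝓞 K) ^ p = (c : 𝓞 K) ^ p := by
    have := congrArg (Int.cast : ℤ → 𝓞 K) hF
    push_cast at this
    exact this
  rw [h1, hc']
  push_cast
  rw [← hu]
  ring

/-- **Second case of Fermat's Last Theorem** for `p ≥ 5` such that `ℤ[ζ_p]` is a PID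
and Kummer's lemma holds (the form used in the wiring of P8). -/
theorem caseII_of_pid {p : ℕ} [Fact p.Prime] (hp5 : 5 ≤ p) {K : Type*} [Field K]
    [NumberField K] [IsCyclotomicExtension {p} ℚ K] [IsPrincipalIdealRing (𝓞 K)]
    (hkummer : ∀ (u : (𝓞 K)ˣ) (n : ℤ), (p : 𝓞 K) ∣ (u : 𝓞 K) - n → ∃ v : (𝓞 K)ˣ, u = v ^ p)
    {a b c : ℤ} (ha : a ≠ 0) (hb : b ≠ 0) (hc : c ≠ 0)
    (hgcd : ({a, b, c} : Finset ℤ).gcd id = 1) (hcase : (p : ℤ) ∣ a * b * c) :
    a ^ p + b ^ p ≠ c ^ p :=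
  caseII_of_pid_of_ne_two (by omega) hkummer ha hb hc hgcd hcase

end Fermat.Agent.FLTReg
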