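import Mathlib

/-!
# P8 / piece B4: integral Hilbert 90 for units in an unramified cyclic extension of a PID
-/

set_option autoImplicit false

open NumberField Polynomial Pointwise

namespace Fermat.Agent.FLTReg

section Descent

variable {K L : Type*} [Field K] [NumberField K] [Field L] [NumberField L] [Algebra K L]

/-- squarefree-ness of extended primes when the different is trivial -/
theorem squarefree_map_of_differentIdeal_eq_top (hdiff : differentIdeal (𝓞 K) (𝓞 L) = ⊤)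
    (P : Ideal (𝓞 K)) [P.IsMaximal] (hP : P ≠ ⊥) :
    Squarefree (P.map (algebraMap (𝓞 K) (𝓞 L))) := by
  have hinj : Function.Injective (algebraMap (𝓞 K) (𝓞 L)) :=
    FaithfulSMul.algebraMap_injective _ _
  have hne : P.map (algebraMap (𝓞 K) (𝓞 L)) ≠ 0 := by
    rw [Ideal.zero_eq_bot, Ne, Ideal.map_eq_bot_iff_of_injective hinj]
    exact hP
  rw [squarefree_iff_irreducible_sq_not_dvd_of_ne_zero hne]
  intro Q hQ hdvd
  have h1 : Q ^ 2 ∣ P.map (algebraMap (𝓞 K) (𝓞 L)) := by rwa [sq]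
  have h2 := pow_sub_one_dvd_differentIdeal (𝓞 K) Q 2 hP h1
  rw [hdiff] at h2
  simp only [Nat.add_one_sub_one, pow_one] at h2
  have h3 : Q = ⊤ := by
    rw [Ideal.dvd_iff_le] at h2
    exact top_le_iff.mp h2
  exact hQ.not_isUnit (by rw [h3, Ideal.isUnit_iff])

theorem mem_map_of_forall_mem_prime (hdiff : differentIdeal (𝓞 K) (𝓞 L) = ⊤)
    (P : Ideal (𝓞 K)) [P.IsMaximal] (hP : P ≠ ⊥) (β : 𝓞 L)
    (h : ∀ Q : Ideal (𝓞 L), Q.IsPrime → P.map (algebraMap (𝓞 K) (𝓞 L)) ≤ Q → β ∈ Q) :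
    β ∈ P.map (algebraMap (𝓞 K) (𝓞 L)) := by
  set I := P.map (algebraMap (𝓞 K) (𝓞 L)) with hI
  have hsq : Squarefree I := squarefree_map_of_differentIdeal_eq_top hdiff P hP
  have hrad : β ∈ I.radical := by
    rw [Ideal.radical_eq_sInf, Ideal.mem_sInf]
    rintro Q ⟨hIQ, hQ⟩
    exact h Q hQ hIQ
  obtain ⟨n, hn⟩ := hrad
  have h1 : I ∣ Ideal.span {β} ^ n := by
    rw [Ideal.dvd_iff_le, Ideal.span_singleton_pow, Ideal.span_singleton_le_iff_mem]
    exact hn
  have h2 : I ∣ Ideal.span {β} := hsq.isRadical n _ h1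
  rw [Ideal.dvd_iff_le, Ideal.span_singleton_le_iff_mem] at h2
  exact h2

end Descent

section Descent2

variable {K L : Type*} [Field K] [NumberField K] [Field L] [NumberField L] [Algebra K L]
  [IsGalois K L]

omit [NumberField L] in
theorem galRestrict_apply_eq_smul (σ : Gal(L/K)) (x : 𝓞 L) :
    galRestrict (𝓞 K) K L (𝓞 L) σ x = σ • x := by
  apply RingOfIntegers.coe_injective
  rw [algebraMap_galRestrict_apply]
  rfl

omit [NumberField L] in
theorem smul_algebraMap_ringOfIntegers (σ : Gal(L/K)) (a : 𝓞 K) :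
    σ • (algebraMap (𝓞 K) (𝓞 L) a) = algebraMap (𝓞 K) (𝓞 L) a := by
  rw [← galRestrict_apply_eq_smul, AlgEquiv.commutes]

omit [NumberField K] [NumberField L] [IsGalois K L] in
theorem associated_smul_iff (σ : Gal(L/K)) (a b : 𝓞 L) :
    Associated (σ • a) (σ • b) ↔ Associated a b := by
  have key : ∀ (τ : Gal(L/K)) (x y : 𝓞 L), Associated x y → Associated (τ • x) (τ • y) := by
    intro τ x y h
    have := h.map (MulSemiringAction.toRingHom Gal(L/K) (𝓞 L) τ)
    simpa only [MulSemiringAction.toRingHom_apply] using this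
  constructor
  · intro h
    have := key σ⁻¹ _ _ h
    rwa [inv_smul_smul, inv_smul_smul] at this
  · exact key σ a b

/-- A nonzero element of `𝓞 L` generating a Galois-stable ideal is, when `L/K` is unramified and
`𝓞 K` is a PID, the product of an element of `𝓞 K` and a unit. -/
theorem exists_eq_algebraMap_mul_unit [IsPrincipalIdealRing (𝓞 K)]
    (hdiff : differentIdeal (𝓞 K) (𝓞 L) = ⊤)
    (β : 𝓞 L) (hβ : β ≠ 0) (hstab : ∀ σ : Gal(L/K), Associated (σ • β) β) :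
    ∃ (b : 𝓞 K) (ε : (𝓞 L)ˣ), β = algebraMap (𝓞 K) (𝓞 L) b * ε := by
  revert hβ hstab
  refine wellFounded_dvdNotUnit.induction (C := fun β : 𝓞 L => β ≠ 0 →
    (∀ σ : Gal(L/K), Associated (σ • β) β) →
      ∃ (b : 𝓞 K) (ε : (𝓞 L)ˣ), β = algebraMap (𝓞 K) (𝓞 L) b * ε) β ?_
  intro β ih hβ hstab
  by_cases hu : IsUnit β
  · exact ⟨1, hu.unit, by simp⟩
  obtain ⟨Q, hQmax, hQ⟩ := Ideal.exists_le_maximal (Ideal.span {β})
    (by rwa [Ne, Ideal.span_singleton_eq_top])
  have hβQ : β ∈ Q := hQ (Ideal.mem_span_singleton_self β)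
  have hQprime : Q.IsPrime := hQmax.isPrime
  set P : Ideal (𝓞 K) := Q.comap (algebraMap (𝓞 K) (𝓞 L)) with hPdef
  have hPprime : P.IsPrime := Ideal.comap_isPrime _ _
  have hPbot : P ≠ ⊥ :=
    Ideal.comap_ne_bot_of_integral_mem hβ hβQ (Algebra.IsIntegral.isIntegral β)
  have hPmax : P.IsMaximal := hPprime.isMaximal hPbot
  have : Q.LiesOver P := ⟨rfl⟩
  -- a generator
  obtain ⟨π, hπ⟩ : ∃ π, P = Ideal.span {π} :=
    ⟨_, (Ideal.span_singleton_generator P).symm⟩
  have hmap : P.map (algebraMap (𝓞 K) (𝓞 L)) = Ideal.span {algebraMap (𝓞 K) (𝓞 L) π} := by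
    rw [hπ, Ideal.map_span, Set.image_singleton]
  have hβI : β ∈ P.map (algebraMap (𝓞 K) (𝓞 L)) := by
    refine mem_map_of_forall_mem_prime hdiff P hPbot β ?_
    intro Q' hQ' hle
    have hle' : P ≤ Q'.comap (algebraMap (𝓞 K) (𝓞 L)) := Ideal.map_le_iff_le_comap.mp hle
    have hne : Q'.comap (algebraMap (𝓞 K) (𝓞 L)) ≠ ⊤ := (Ideal.comap_isPrime _ _).ne_top
    have heq : P = Q'.comap (algebraMap (𝓞 K) (𝓞 L)) := hPmax.eq_of_le hne hle'
    have : Q'.LiesOver P := ⟨heq⟩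
    obtain ⟨σ, hσ⟩ := Ideal.exists_smul_eq_of_isGaloisGroup P Q Q' Gal(L/K)
    have h1 : σ • β ∈ σ • Q := Ideal.smul_mem_pointwise_smul σ β Q hβQ
    rw [hσ] at h1
    obtain ⟨v, hv⟩ := (hstab σ).symm
    rw [← hv] at h1
    have h2 := Q'.mul_mem_right (↑v⁻¹ : 𝓞 L) h1
    rwa [mul_assoc, Units.mul_inv, mul_one] at h2
  rw [hmap, Ideal.mem_span_singleton] at hβI
  obtain ⟨β', hβ'⟩ := hβI
  have hπ0 : algebraMap (𝓞 K) (𝓞 L) π ≠ 0 := by
    intro h; rw [h, zero_mul] at hβ'; exact hβ hβ'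
  have hβ'0 : β' ≠ 0 := by
    intro h; rw [h, mul_zero] at hβ'; exact hβ hβ'
  have hπQ : algebraMap (𝓞 K) (𝓞 L) π ∈ Q := by
    have : π ∈ P := by rw [hπ]; exact Ideal.mem_span_singleton_self π
    exact this
  have hπunit : ¬ IsUnit (algebraMap (𝓞 K) (𝓞 L) π) := fun h =>
    hQprime.ne_top (Ideal.eq_top_of_isUnit_mem _ hπQ h)
  have hstab' : ∀ σ : Gal(L/K), Associated (σ • β') β' := by
    intro σ
    have h1 := hstab σ
    rw [hβ', smul_mul', smul_algebraMap_ringOfIntegers] at h1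
    exact Associated.of_mul_left h1 (Associated.refl _) hπ0
  have hdvd : DvdNotUnit β' β := ⟨hβ'0, algebraMap (𝓞 K) (𝓞 L) π, hπunit, by rw [hβ', mul_comm]⟩
  obtain ⟨b', ε, hb'⟩ := ih β' hdvd hβ'0 hstab'
  exact ⟨π * b', ε, by rw [hβ', hb', map_mul, mul_assoc]⟩

end Descent2

section H90

variable {K L : Type} [Field K] [NumberField K] [Field L] [NumberField L] [Algebra K L]
  [IsGalois K L]

/-- **Integral Hilbert 90 for units** in an unramified cyclic extension of a field with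
principal ring of integers. -/
theorem exists_unit_of_norm_eq_one [IsPrincipalIdealRing (𝓞 K)]
    (hdiff : differentIdeal (𝓞 K) (𝓞 L) = ⊤) {σ₀ : Gal(L/K)}
    (hσ₀ : ∀ x, x ∈ Subgroup.zpowers σ₀) (η : (𝓞 L)ˣ)
    (hη : Algebra.norm K ((η : 𝓞 L) : L) = 1) :
    ∃ ε : (𝓞 L)ˣ, (η : 𝓞 L) * σ₀ • (ε : 𝓞 L) = ε := by
  have : IsCyclic Gal(L/K) := ⟨σ₀, hσ₀⟩
  obtain ⟨β, hβ0, hβ⟩ := groupCohomology.exists_mul_galRestrict_of_norm_eq_one (A := 𝓞 K) (B := 𝓞 L) hσ₀ hη
  rw [galRestrict_apply_eq_smul] at hβ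
  -- the stabiliser condition
  have h0 : Associated (σ₀ • β) β := ⟨η, by rw [mul_comm]; exact hβ⟩
  have hstab : ∀ σ : Gal(L/K), Associated (σ • β) β := by
    let S : Subgroup Gal(L/K) :=
      { carrier := {σ | Associated (σ • β) β}
        one_mem' := by simp
        mul_mem' := by
          intro a b ha hb
          have h1 : Associated (a • b • β) (a • β) := (associated_smul_iff a _ _).mpr hb
          rw [Set.mem_ofPred_eq, mul_smul]
          exact h1.trans ha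
        inv_mem' := by
          intro a ha
          have h1 : Associated (a⁻¹ • a • β) (a⁻¹ • β) := (associated_smul_iff a⁻¹ _ _).mpr ha
          rw [inv_smul_smul] at h1
          exact h1.symm }
    intro σ
    have hle : Subgroup.zpowers σ₀ ≤ S := (Subgroup.zpowers_le).mpr h0
    exact hle (hσ₀ σ)
  obtain ⟨b, ε, hbε⟩ := exists_eq_algebraMap_mul_unit hdiff β hβ0 hstab
  refine ⟨ε, ?_⟩
  have hb0 : algebraMap (𝓞 K) (𝓞 L) b ≠ 0 := by
    intro h; rw [h, zero_mul] at hbε; exact hβ0 hbε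
  rw [hbε, smul_mul', smul_algebraMap_ringOfIntegers] at hβ
  apply mul_left_cancel₀ hb0
  rw [← hβ]; ring

end H90

end Fermat.Agent.FLTReg
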