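/-
Abstract index-counting core of Hilbert's Theorem 92: for an abelian group `A` with an
endomorphism `σ` of prime order `p`, under numerical hypotheses on `[A : pA]`, `[A^σ : pA^σ]`
and the `p`-torsion, there is an element of norm zero which is not of the form `σ ε - ε`.
-/
import Mathlib

set_option autoImplicit false

namespace Fermat.Agent.FLTReg.H92

open AddSubgroup Polynomial

variable {A : Type*} [AddCommGroup A]

/-- images shrink relative indices -/
theorem relIndex_map_map_dvd (f : A →+ A) {H K : AddSubgroup A} (hHK : H ≤ K) :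
    (H.map f).relIndex (K.map f) ∣ H.relIndex K := by
  rw [relIndex_map_map]
  have h1 : K ⊔ f.ker = (H ⊔ f.ker) ⊔ K := by
    rw [sup_right_comm, sup_eq_right.2 hHK]
  rw [h1, relIndex_sup_left]
  exact relIndex_dvd_of_le_left K le_sup_left

theorem iterate_map_le (f : A →+ A) (W : AddSubgroup A) (hW : W.map f ≤ W) (k : ℕ) :
    (AddSubgroup.map f)^[k] W ≤ W := by
  induction k with
  | zero => exact le_rfl
  | succ k ih =>
    rw [Function.iterate_succ_apply']
    exact (AddSubgroup.map_mono ih).trans hW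

/-- `[W : f^k W] ∣ [W : f W]^k` -/
theorem relIndex_iterate_map_dvd (f : A →+ A) (W : AddSubgroup A)
    (hW : W.map f ≤ W) (k : ℕ) :
    ((AddSubgroup.map f)^[k] W).relIndex W ∣ ((W.map f).relIndex W) ^ k := by
  induction k with
  | zero => simp [relIndex_self]
  | succ k ih =>
    have hk := iterate_map_le f W hW k
    rw [Function.iterate_succ_apply']
    have h2 : ((AddSubgroup.map f)^[k] W).map f ≤ W.map f := AddSubgroup.map_mono hk
    rw [← relIndex_mul_relIndex _ _ _ h2 hW, pow_succ]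
    exact mul_dvd_mul ((relIndex_map_map_dvd f hk).trans ih) dvd_rfl

theorem mem_iterate_map (f : A →+ A) (W : AddSubgroup A) (k : ℕ) (x : A) :
    x ∈ (AddSubgroup.map f)^[k] W ↔ ∃ w ∈ W, f^[k] w = x := by
  induction k generalizing x with
  | zero => simp
  | succ k ih =>
    rw [Function.iterate_succ_apply', AddSubgroup.mem_map]
    constructor
    · rintro ⟨y, hy, rfl⟩
      obtain ⟨w, hw, rfl⟩ := (ih y).1 hy
      exact ⟨w, hw, (Function.iterate_succ_apply' f k w)⟩
    · rintro ⟨w, hw, rfl⟩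
      exact ⟨f^[k] w, (ih _).2 ⟨w, hw, rfl⟩, (Function.iterate_succ_apply' f k w).symm⟩

/-- Finite-index invariance of the "Herbrand quotient" of an endomorphism. -/
theorem herbrand_finite_index (f : A →+ A) {M V : AddSubgroup A} (hMV : M ≤ V)
    (hM : M.map f ≤ M) (hV : V.map f ≤ V) (hT : f.ker ≤ V) (hfin : M.relIndex V ≠ 0) :
    (M.map f).relIndex M * Nat.card f.ker =
      (V.map f).relIndex V * Nat.card (M ⊓ f.ker : AddSubgroup A) := by
  set T := f.ker with hTdef
  have e1 : (M.map f).relIndex V = (M.map f).relIndex M * M.relIndex V :=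
    (relIndex_mul_relIndex _ _ _ hM hMV).symm
  have e2 : (M.map f).relIndex V = (M.map f).relIndex (V.map f) * (V.map f).relIndex V :=
    (relIndex_mul_relIndex _ _ _ (AddSubgroup.map_mono hMV) hV).symm
  have e3 : (M.map f).relIndex (V.map f) = (M ⊔ T).relIndex V := by
    rw [relIndex_map_map, sup_eq_left.2 hT]
  have e4 : M.relIndex V = M.relIndex (M ⊔ T) * (M ⊔ T).relIndex V :=
    (relIndex_mul_relIndex _ _ _ le_sup_left (sup_le hMV hT)).symm
  have e5 : M.relIndex (M ⊔ T) = (M ⊓ T).relIndex T := by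
    rw [relIndex_sup_left, inf_relIndex_right]
  have e6 : Nat.card T = Nat.card (M ⊓ T : AddSubgroup A) * (M ⊓ T).relIndex T := by
    rw [← relIndex_bot_left, ← relIndex_bot_left,
      relIndex_mul_relIndex _ _ _ bot_le inf_le_right]
  have hne : (M ⊔ T).relIndex V ≠ 0 := by
    intro h0
    rw [e4, h0, mul_zero] at hfin
    exact hfin rfl
  have key : (M.map f).relIndex M * (M ⊓ T).relIndex T = (V.map f).relIndex V := by
    apply Nat.eq_of_mul_eq_mul_right (Nat.pos_of_ne_zero hne)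
    calc _ = (M.map f).relIndex M * M.relIndex V := by rw [e4, e5]; ring
      _ = (M.map f).relIndex V := e1.symm
      _ = _ := by rw [e2, e3]; ring
  rw [e6, ← key]
  ring

/-- Multiplicativity of the "Herbrand quotient" of `f` in the sequence `0 → W → A → M → 0`
given by `g`. -/
theorem herbrand_exact (f g : A →+ A) (hfg : ∀ x, f (g x) = g (f x))
    (hker : ∀ x, f x = 0 → g x = 0) :
    (g.ker.map f).relIndex g.ker * (g.range.map f).relIndex g.range =
      f.range.index * Nat.card (g.range ⊓ f.ker : AddSubgroup A) := by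
  set W := g.ker with hW
  set M := g.range with hM
  set pU := f.range with hpU
  have hWf : W.map f ≤ W := by
    rintro _ ⟨w, hw, rfl⟩
    have hw' : g w = 0 := AddMonoidHom.mem_ker.1 hw
    exact AddMonoidHom.mem_ker.2 (by rw [← hfg, hw', map_zero])
  have hWpU : W.map f ≤ pU ⊓ W := le_inf (by rintro _ ⟨w, _, rfl⟩; exact ⟨w, rfl⟩) hWf
  -- index of pU
  have e1 : pU.index = pU.relIndex (W ⊔ pU) * (W ⊔ pU).index :=
    (relIndex_mul_index le_sup_right).symm
  have e2 : (W ⊔ pU).index = (M.map f).relIndex M := by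
    have h := relIndex_map_map g pU ⊤
    rw [top_sup_eq, relIndex_top_right, ← AddMonoidHom.range_eq_map, sup_comm] at h
    rw [← h]
    congr 1
    rw [hpU, AddMonoidHom.range_eq_map, AddSubgroup.map_map, hM, AddMonoidHom.range_eq_map,
      AddSubgroup.map_map]
    congr 1
    ext x
    exact (hfg x).symm
  have e3 : pU.relIndex (W ⊔ pU) = (pU ⊓ W).relIndex W := by
    rw [relIndex_sup_right, inf_relIndex_right]
  have e4 : (W.map f).relIndex W = (W.map f).relIndex (pU ⊓ W) * (pU ⊓ W).relIndex W :=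
    (relIndex_mul_relIndex _ _ _ hWpU inf_le_right).symm
  -- the torsion contribution
  set Y := f.ker.comap g with hY
  have hYmap : Y.map f = pU ⊓ W := by
    ext x
    simp only [AddSubgroup.mem_map, AddSubgroup.mem_inf, hY, AddSubgroup.mem_comap,
      AddMonoidHom.mem_ker, hpU, AddMonoidHom.mem_range, hW]
    constructor
    · rintro ⟨y, hy, rfl⟩
      exact ⟨⟨y, rfl⟩, by rw [← hfg, hy]⟩
    · rintro ⟨⟨y, rfl⟩, h⟩
      exact ⟨y, by rw [hfg, h], rfl⟩
  have hkY : f.ker ≤ Y := by
    intro y hy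
    rw [hY, AddSubgroup.mem_comap, AddMonoidHom.mem_ker, hfg, (AddMonoidHom.mem_ker).1 hy,
      map_zero]
  have hWY : W ≤ Y := by
    intro y hy
    rw [hY, AddSubgroup.mem_comap, (AddMonoidHom.mem_ker).1 hy]
    exact zero_mem _
  have e5 : (W.map f).relIndex (pU ⊓ W) = Nat.card (M ⊓ f.ker : AddSubgroup A) := by
    rw [← hYmap, relIndex_map_map, sup_eq_left.2 hkY]
    have h := relIndex_map_map g (W ⊔ f.ker) Y
    have h1 : W ⊔ f.ker ⊔ g.ker = W ⊔ f.ker := by
      rw [sup_right_comm, ← hW, sup_idem]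
    have h2 : Y ⊔ g.ker = Y := sup_eq_left.2 hWY
    have h3 : (W ⊔ f.ker).map g = ⊥ := by
      rw [eq_bot_iff, AddSubgroup.map_le_iff_le_comap]
      refine sup_le ?_ ?_
      · intro x hx
        exact (AddMonoidHom.mem_ker).1 hx
      · intro x hx
        exact hker x ((AddMonoidHom.mem_ker).1 hx)
    have h4 : Y.map g = M ⊓ f.ker := by
      rw [hY, AddSubgroup.map_comap_eq]
    rw [h1, h2, h3, h4, relIndex_bot_left] at h
    exact h.symm
  rw [e4, e5, e1, e2, e3]
  ring

/-- `(X - 1)^(p-1) ≡ 1 + X + ... + X^(p-1)` mod `p`. -/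
theorem exists_X_sub_one_pow_eq (p : ℕ) [hp : Fact p.Prime] :
    ∃ g : ℤ[X], (X - 1 : ℤ[X]) ^ (p - 1) = ∑ i ∈ Finset.range p, X ^ i + C (p : ℤ) * g := by
  have h1 : ((X - 1 : (ZMod p)[X]) ^ (p - 1)) = ∑ i ∈ Finset.range p, X ^ i := by
    have hne : (X - 1 : (ZMod p)[X]) ≠ 0 := X_sub_C_ne_zero (1 : ZMod p)
    apply mul_left_cancel₀ hne
    rw [mul_geom_sum, ← pow_succ', Nat.sub_add_cancel hp.out.one_le, sub_pow_char, one_pow]
  have h2 : C (p : ℤ) ∣ (X - 1 : ℤ[X]) ^ (p - 1) - ∑ i ∈ Finset.range p, X ^ i := by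
    rw [C_dvd_iff_dvd_coeff]
    intro i
    rw [← ZMod.intCast_zmod_eq_zero_iff_dvd]
    have h3 : ((((X - 1 : ℤ[X]) ^ (p - 1) - ∑ i ∈ Finset.range p, X ^ i).coeff i : ℤ) : ZMod p) =
        (((X - 1 : ℤ[X]) ^ (p - 1) - ∑ i ∈ Finset.range p, X ^ i).map
          (Int.castRingHom (ZMod p))).coeff i := by
      rw [coeff_map]; rfl
    rw [h3]
    simp only [Polynomial.map_sub, Polynomial.map_pow, Polynomial.map_X, Polynomial.map_one,
      Polynomial.map_sum]
    rw [h1, sub_self, coeff_zero]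
  obtain ⟨g, hg⟩ := h2
  exact ⟨g, by rw [← hg]; ring⟩

variable (σ : A →+ A) (p : ℕ)

/-- the norm `1 + σ + ... + σ^(p-1)` -/
def nm : A →+ A :=
  AddMonoidHom.mk' (fun x => ∑ i ∈ Finset.range p, σ^[i] x) (by
    intro x y
    simp only [iterate_map_add, Finset.sum_add_distrib])

/-- `σ - 1` -/
def lam : A →+ A := σ - AddMonoidHom.id A

theorem nm_apply (x : A) : nm σ p x = ∑ i ∈ Finset.range p, σ^[i] x := rfl

theorem lam_apply (x : A) : lam σ x = σ x - x := rfl

variable {σ p}

theorem nm_sigma (hσ : ∀ x, σ^[p] x = x) (x : A) : nm σ p (σ x) = nm σ p x := by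
  rw [nm_apply, nm_apply]
  have h1 : ∀ i, σ^[i] (σ x) = σ^[i + 1] x := fun i => (Function.iterate_succ_apply σ i x).symm
  simp_rw [h1]
  have h2 := Finset.sum_range_succ' (fun i => σ^[i] x) p
  have h3 := Finset.sum_range_succ (fun i => σ^[i] x) p
  simp only [Function.iterate_zero, id_eq] at h2
  rw [h3, hσ] at h2
  exact add_right_cancel h2.symm

theorem sigma_nm (hσ : ∀ x, σ^[p] x = x) (x : A) : σ (nm σ p x) = nm σ p x := by
  have h : σ (nm σ p x) = nm σ p (σ x) := by
    rw [nm_apply, nm_apply, map_sum]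
    refine Finset.sum_congr rfl fun i _ => ?_
    rw [← Function.iterate_succ_apply' σ i x, Function.iterate_succ_apply]
  rw [h, nm_sigma hσ x]

theorem nm_lam (hσ : ∀ x, σ^[p] x = x) (x : A) : nm σ p (lam σ x) = 0 := by
  rw [lam_apply, map_sub, nm_sigma hσ, sub_self]

theorem lam_nm (hσ : ∀ x, σ^[p] x = x) (x : A) : lam σ (nm σ p x) = 0 := by
  rw [lam_apply, sigma_nm hσ, sub_self]

theorem nm_of_fixed {v : A} (hv : σ v = v) : nm σ p v = p • v := by
  rw [nm_apply]
  have : ∀ i, σ^[i] v = v := fun i => Function.iterate_fixed hv i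
  simp [this]

/-- `λ^(p-1) W ⊆ p W` for `W = ker N`. -/
theorem iterate_lam_eq_nsmul [hp : Fact p.Prime] (w : A)
    (hw : nm σ p w = 0) : ∃ w', nm σ p w' = 0 ∧ (lam σ)^[p - 1] w = p • w' := by
  obtain ⟨g, hg⟩ := exists_X_sub_one_pow_eq p
  set s : AddMonoid.End A := σ with hs
  have h1 := congrArg (fun q => (aeval s q) w) hg
  simp only [map_pow, map_sub, aeval_X, map_one, map_add, map_sum, map_mul, aeval_C] at h1
  have hsi : ∀ i, (s ^ i : AddMonoid.End A) w = σ^[i] w := fun i => by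
    rw [AddMonoid.End.coe_pow]; rfl
  have hN : (∑ i ∈ Finset.range p, s ^ i : AddMonoid.End A) w = nm σ p w := by
    rw [nm_apply]
    have : ∀ (t : Finset ℕ), (∑ i ∈ t, s ^ i : AddMonoid.End A) w = ∑ i ∈ t, σ^[i] w := by
      intro t
      induction t using Finset.induction_on with
      | empty => simp
      | insert a t ha ih =>
        rw [Finset.sum_insert ha, Finset.sum_insert ha, ← ih, ← hsi]
        rfl
    exact this _
  have hL : ((s - 1) ^ (p - 1) : AddMonoid.End A) w = (lam σ)^[p - 1] w := by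
    rw [AddMonoid.End.coe_pow]
    rfl
  refine ⟨(aeval s g) w, ?_, ?_⟩
  · -- commutation
    have hc : (∑ i ∈ Finset.range p, s ^ i : AddMonoid.End A) * aeval s g =
        aeval s g * (∑ i ∈ Finset.range p, s ^ i : AddMonoid.End A) := by
      have : (∑ i ∈ Finset.range p, s ^ i : AddMonoid.End A) =
          aeval s (∑ i ∈ Finset.range p, X ^ i : ℤ[X]) := by
        simp only [map_sum, map_pow, aeval_X]
      rw [this, ← map_mul, ← map_mul, mul_comm]
    have h2 := congrArg (fun e : AddMonoid.End A => e w) hc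
    simp only [AddMonoid.End.coe_mul, Function.comp_apply] at h2
    rw [hN] at h2
    have h3 : (∑ i ∈ Finset.range p, s ^ i : AddMonoid.End A) ((aeval s g) w) =
        nm σ p ((aeval s g) w) := by
      rw [nm_apply]
      have : ∀ (t : Finset ℕ) (y : A),
          (∑ i ∈ t, s ^ i : AddMonoid.End A) y = ∑ i ∈ t, σ^[i] y := by
        intro t y
        induction t using Finset.induction_on with
        | empty => simp
        | insert a t ha ih =>
          rw [Finset.sum_insert ha, Finset.sum_insert ha, ← ih]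
          rfl
      exact this _ _
    rw [← h3, h2, hw, map_zero]
  · rw [← hL, h1]
    change (∑ i ∈ Finset.range p, s ^ i : AddMonoid.End A) w +
      ((algebraMap ℤ (AddMonoid.End A)) (p : ℤ)) ((aeval s g) w) = _
    rw [hN, hw, zero_add]
    simp

/-- **Abstract Hilbert 92** (index counting). -/
theorem exists_nm_eq_zero_not_lam [hp : Fact p.Prime] (hσ : ∀ x, σ^[p] x = x) (d : ℕ)
    (hA2 : p ^ (p * d) ≤ (nsmulAddMonoidHom p : A →+ A).range.index)
    (hV1 : ((lam σ).ker.map (nsmulAddMonoidHom p : A →+ A)).relIndex (lam σ).ker ≠ 0)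
    (hV2 : ((lam σ).ker.map (nsmulAddMonoidHom p : A →+ A)).relIndex (lam σ).ker ≤ p ^ d)
    (hT1 : ∀ x : A, p • x = 0 → σ x = x)
    (hT2 : p ≤ Nat.card (nsmulAddMonoidHom p : A →+ A).ker) :
    ∃ η : A, nm σ p η = 0 ∧ ∀ ε : A, η ≠ σ ε - ε := by
  by_contra hcon
  push Not at hcon
  have hp1 : 1 < p := hp.out.one_lt
  set P : A →+ A := nsmulAddMonoidHom p with hP
  have hPapp : ∀ x, P x = p • x := fun x => rfl
  set V := (lam σ).ker with hV
  set W := (nm σ p).ker with hW
  set M := (nm σ p).range with hM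
  have hMV : M ≤ V := by
    rintro _ ⟨x, rfl⟩
    exact AddMonoidHom.mem_ker.2 (lam_nm hσ x)
  have hTV : P.ker ≤ V := by
    intro x hx
    have : p • x = 0 := AddMonoidHom.mem_ker.1 hx
    exact AddMonoidHom.mem_ker.2 (by rw [lam_apply, hT1 x this, sub_self])
  have hWrange : W = (lam σ).range := by
    apply le_antisymm
    · intro w hw
      obtain ⟨ε, hε⟩ := hcon w (AddMonoidHom.mem_ker.1 hw)
      exact ⟨ε, by rw [lam_apply, hε]⟩
    · rintro _ ⟨x, rfl⟩
      exact AddMonoidHom.mem_ker.2 (nm_lam hσ x)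
  have hVmem : ∀ v, v ∈ V ↔ σ v = v := by
    intro v
    rw [hV, AddMonoidHom.mem_ker, lam_apply, sub_eq_zero]
  have hVnm : V.map (nm σ p) = V.map P := by
    ext x
    simp only [AddSubgroup.mem_map]
    constructor
    · rintro ⟨v, hv, rfl⟩
      exact ⟨v, hv, by rw [hPapp, nm_of_fixed ((hVmem v).1 hv)]⟩
    · rintro ⟨v, hv, rfl⟩
      exact ⟨v, hv, by rw [hPapp, nm_of_fixed ((hVmem v).1 hv)]⟩
  have hVP : V.map P ≤ V := by
    rintro _ ⟨v, hv, rfl⟩
    rw [hPapp]
    exact V.nsmul_mem hv p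
  have hMP : M.map P ≤ M := by
    rintro _ ⟨v, hv, rfl⟩
    rw [hPapp]
    exact M.nsmul_mem hv p
  have hVPM : V.map P ≤ M := by
    rw [← hVnm]
    rintro _ ⟨v, _, rfl⟩
    exact ⟨v, rfl⟩
  -- Step A
  have hA : (W.map (lam σ)).relIndex W = (V.map P).relIndex M := by
    have a1 := relIndex_map_map (lam σ) W ⊤
    rw [top_sup_eq, relIndex_top_right, ← AddMonoidHom.range_eq_map, ← hWrange, ← hV] at a1
    have a2 := relIndex_map_map (nm σ p) V ⊤
    rw [top_sup_eq, relIndex_top_right, ← AddMonoidHom.range_eq_map, ← hM, ← hW, hVnm] at a2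
    rw [a1, a2, sup_comm]
  -- Step B
  have hB0 : (V.map P).relIndex M ≠ 0 := fun h0 => hV1 (relIndex_eq_zero_of_le_right hMV h0)
  have hB : (V.map P).relIndex M ≤ p ^ d := (relIndex_le_of_le_right hMV hV1).trans hV2
  -- Step D
  have hWlam : W.map (lam σ) ≤ W := by
    rintro _ ⟨w, _, rfl⟩
    exact AddMonoidHom.mem_ker.2 (nm_lam hσ w)
  have hD := relIndex_iterate_map_dvd (lam σ) W hWlam (p - 1)
  have hD0 : ((AddSubgroup.map (lam σ))^[p - 1] W).relIndex W ≠ 0 := by
    intro h0
    rw [h0, zero_dvd_iff, hA] at hD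
    exact hB0 (pow_eq_zero_iff (by omega) |>.1 hD)
  have hD' : ((AddSubgroup.map (lam σ))^[p - 1] W).relIndex W ≤ (p ^ d) ^ (p - 1) := by
    refine (Nat.le_of_dvd (Nat.pos_of_ne_zero ?_) hD).trans ?_
    · rw [hA]; exact pow_ne_zero _ hB0
    · rw [hA]; exact Nat.pow_le_pow_left hB _
  -- Step C
  have hC : (AddSubgroup.map (lam σ))^[p - 1] W ≤ W.map P := by
    intro x hx
    obtain ⟨w, hw, rfl⟩ := (mem_iterate_map _ _ _ _).1 hx
    obtain ⟨w', hw', h⟩ := iterate_lam_eq_nsmul w (AddMonoidHom.mem_ker.1 hw)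
    exact ⟨w', AddMonoidHom.mem_ker.2 hw', by rw [hPapp, h]⟩
  have hX : (W.map P).relIndex W ≤ (p ^ d) ^ (p - 1) :=
    (relIndex_le_of_le_left hC hD0).trans hD'
  -- Step E
  have hE1 := herbrand_exact P (nm σ p) (fun x => by rw [hPapp, hPapp, map_nsmul])
    (fun x hx => by
      have h1 : σ x = x := hT1 x hx
      rw [nm_of_fixed h1]
      exact hx)
  rw [← hW, ← hM] at hE1
  have hMVfin : M.relIndex V ≠ 0 := by
    intro h0
    apply hV1
    rw [← relIndex_mul_relIndex _ _ _ hVPM hMV, h0, mul_zero]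
  have hE2 := herbrand_finite_index P hMV hMP hVP hTV hMVfin
  have hTfin : Nat.card P.ker ≠ 0 := by omega
  have hMTpos : 0 < Nat.card (M ⊓ P.ker : AddSubgroup A) := by
    have h6 : Nat.card (M ⊓ P.ker : AddSubgroup A) * (M ⊓ P.ker).relIndex P.ker =
        Nat.card P.ker := by
      rw [← relIndex_bot_left, ← relIndex_bot_left,
        relIndex_mul_relIndex _ _ _ bot_le inf_le_right]
    rcases Nat.eq_zero_or_pos (Nat.card (M ⊓ P.ker : AddSubgroup A)) with h0 | h0
    · rw [h0, zero_mul] at h6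
      exact absurd h6.symm hTfin
    · exact h0
  have hE : (W.map P).relIndex W * (V.map P).relIndex V = P.range.index * Nat.card P.ker := by
    apply Nat.eq_of_mul_eq_mul_right hMTpos
    calc (W.map P).relIndex W * (V.map P).relIndex V * Nat.card (M ⊓ P.ker : AddSubgroup A)
        = (W.map P).relIndex W * ((M.map P).relIndex M * Nat.card P.ker) := by
          rw [hE2]; ring
      _ = ((W.map P).relIndex W * (M.map P).relIndex M) * Nat.card P.ker := by ring
      _ = _ := by rw [hE1]; ring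
  -- final arithmetic
  have h1 : p ^ (p * d) * p ≤ (p ^ d) ^ (p - 1) * p ^ d := by
    calc p ^ (p * d) * p ≤ P.range.index * Nat.card P.ker := Nat.mul_le_mul hA2 hT2
      _ = (W.map P).relIndex W * (V.map P).relIndex V := hE.symm
      _ ≤ _ := Nat.mul_le_mul hX hV2
  have h2 : (p ^ d) ^ (p - 1) * p ^ d = p ^ (p * d) := by
    rw [← pow_succ, Nat.sub_add_cancel hp.out.one_le, ← pow_mul, mul_comm]
  rw [h2] at h1
  have h3 : 0 < p ^ (p * d) := pow_pos hp.out.pos _
  nlinarith

end Fermat.Agent.FLTReg.H92
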