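/-
Hilbert's Theorem 92 for cyclic extensions of odd prime degree `p` of number fields containing
the `p`-th roots of unity: there is a unit of norm one which is not of the form `ε / σ ε`.
-/
import Mathlib
import Fermat.Agent.Lib.FLTReg.Hilbert92Abstract

set_option autoImplicit false

namespace Fermat.Agent.FLTReg.H92

open Module NumberField NumberField.Units NumberField.InfinitePlace

/-- index of `n F` in a free `ℤ`-module `F` of finite rank -/
theorem index_range_nsmul_free (F : Type*) [AddCommGroup F] [Module.Free ℤ F]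
    [Module.Finite ℤ F] (n : ℕ) :
    (nsmulAddMonoidHom n : F →+ F).range.index = n ^ finrank ℤ F := by
  classical
  let b := Module.finBasis ℤ F
  let e : F ≃+ (Fin (finrank ℤ F) → ℤ) := b.equivFun.toAddEquiv
  have h1 : (nsmulAddMonoidHom n : F →+ F).range.map (e : F →+ (Fin (finrank ℤ F) → ℤ)) =
      AddSubgroup.pi Set.univ (fun _ => AddSubgroup.zmultiples (n : ℤ)) := by
    ext x
    simp only [AddSubgroup.mem_map, AddMonoidHom.mem_range, nsmulAddMonoidHom_apply,
      AddSubgroup.mem_pi, Set.mem_univ, forall_true_left, Int.mem_zmultiples_iff]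
    constructor
    · rintro ⟨_, ⟨y, rfl⟩, rfl⟩ i
      refine ⟨e y i, ?_⟩
      have : e (n • y) = n • e y := map_nsmul e n y
      simp [this]
    · intro h
      choose c hc using h
      refine ⟨n • e.symm c, ⟨e.symm c, rfl⟩, ?_⟩
      have : e (n • e.symm c) = n • e (e.symm c) := map_nsmul e n _
      ext i
      simp [this, hc i]
  rw [← AddSubgroup.index_map_equiv _ e, h1, AddSubgroup.index_pi]
  simp [Int.index_zmultiples]

/-- index of the `p`-th powers in the unit group when `p` divides the number of roots of unity -/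
theorem index_range_pow_units (K : Type*) [Field K] [NumberField K] {p : ℕ} (hp : p.Prime)
    (hdvd : p ∣ torsionOrder K) :
    (powMonoidHom p : (𝓞 K)ˣ →* (𝓞 K)ˣ).range.index = p ^ (rank K + 1) := by
  set T := torsion K with hT
  set q := QuotientGroup.mk' T with hq
  set powU := (powMonoidHom p : (𝓞 K)ˣ →* (𝓞 K)ˣ) with hpowU
  set powQ := powMonoidHom (α := (𝓞 K)ˣ ⧸ T) p with hpowQ
  have hqsurj : Function.Surjective q := QuotientGroup.mk'_surjective T
  -- Step 1
  have e1 : powU.range.index = powU.range.relIndex (T ⊔ powU.range) * (T ⊔ powU.range).index :=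
    (Subgroup.relIndex_mul_index le_sup_right).symm
  -- Step 2
  have hmap : powU.range.map q = powQ.range := by
    ext x
    simp only [Subgroup.mem_map, MonoidHom.mem_range]
    constructor
    · rintro ⟨_, ⟨y, rfl⟩, rfl⟩
      exact ⟨q y, by simp [hpowQ, hpowU]⟩
    · rintro ⟨y, rfl⟩
      obtain ⟨z, rfl⟩ := hqsurj y
      exact ⟨powU z, ⟨z, rfl⟩, by simp [hpowQ, hpowU]⟩
  have e2 : (T ⊔ powU.range).index = powQ.range.index := by
    have h := Subgroup.index_map powU.range q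
    rw [hmap, hq, QuotientGroup.ker_mk', MonoidHom.range_eq_top.2 hqsurj, Subgroup.index_top,
      mul_one, sup_comm] at h
    exact h.symm
  -- Step 3
  have e3 : powQ.range.index = p ^ rank K := by
    have h := index_range_nsmul_free (Additive ((𝓞 K)ˣ ⧸ T)) p
    rw [finrank_modTorsion] at h
    rw [← h, ← Subgroup.index_toAddSubgroup]
    rfl
  -- Step 4
  have hinf : powU.range ⊓ T = T.map powU := by
    ext x
    simp only [Subgroup.mem_inf, MonoidHom.mem_range, Subgroup.mem_map]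
    constructor
    · rintro ⟨⟨y, rfl⟩, hx⟩
      refine ⟨y, ?_, rfl⟩
      rw [hT, torsion, CommGroup.mem_torsion] at hx ⊢
      have : powU y = y ^ p := rfl
      rw [this] at hx
      exact hx.of_pow hp.ne_zero
    · rintro ⟨y, hy, rfl⟩
      exact ⟨⟨y, rfl⟩, T.pow_mem hy p⟩
  have e4 : powU.range.relIndex (T ⊔ powU.range) = p := by
    rw [Subgroup.relIndex_sup_right, ← Subgroup.inf_relIndex_right, hinf]
    have h5 : (T.map powU).subgroupOf T = (powMonoidHom p : T →* T).range := by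
      ext ⟨t, ht⟩
      simp only [Subgroup.mem_subgroupOf, Subgroup.mem_map, MonoidHom.mem_range]
      constructor
      · rintro ⟨s, hs, hst⟩
        exact ⟨⟨s, hs⟩, Subtype.ext hst⟩
      · rintro ⟨s, hs⟩
        exact ⟨s.1, s.2, congrArg Subtype.val hs⟩
    rw [Subgroup.relIndex, h5, IsCyclic.index_powMonoidHom_range]
    exact Nat.gcd_eq_right hdvd
  rw [e1, e4, e2, e3, pow_succ, mul_comm]

theorem rank_add_one_eq (K : Type*) [Field K] [NumberField K] {n : ℕ} (hn : 2 < n) {ζ : K}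
    (hζ : IsPrimitiveRoot ζ n) : 2 * (rank K + 1) = finrank ℚ K := by
  have h0 : nrRealPlaces K = 0 := hζ.nrRealPlaces_eq_zero_of_two_lt hn
  have h1 := card_add_two_mul_card_eq_rank K
  have h2 := card_eq_nrRealPlaces_add_nrComplexPlaces K
  have h3 : 0 < Fintype.card (InfinitePlace K) := Fintype.card_pos
  rw [h0, zero_add] at h1 h2
  rw [rank, ← h1, ← h2]
  omega

theorem rank_add_one_eq_mul {K L : Type*} [Field K] [Field L] [NumberField K] [NumberField L]
    [Algebra K L] {p : ℕ} (hp : 2 < p) (hKL : finrank K L = p) {ζ : K}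
    (hζ : IsPrimitiveRoot ζ p) : rank L + 1 = p * (rank K + 1) := by
  have h1 := rank_add_one_eq K hp hζ
  have h2 := rank_add_one_eq L hp (hζ.map_of_injective (algebraMap K L).injective)
  have h3 : finrank ℚ K * finrank K L = finrank ℚ L := Module.finrank_mul_finrank ℚ K L
  rw [hKL] at h3
  nlinarith

variable {K L : Type*} [Field K] [Field L] [Algebra K L]

/-- the action of a `K`-automorphism of `L` on the units of `𝓞 L` -/
noncomputable def unitsMap (σ : L ≃ₐ[K] L) : (𝓞 L)ˣ →* (𝓞 L)ˣ :=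
  Units.map (RingOfIntegers.mapRingHom (σ : L →+* L) : 𝓞 L →* 𝓞 L)

theorem coe_unitsMap (σ : L ≃ₐ[K] L) (u : (𝓞 L)ˣ) :
    (((unitsMap σ u : (𝓞 L)ˣ) : 𝓞 L) : L) = σ ((u : 𝓞 L) : L) := rfl

theorem coe_iterate_unitsMap (σ : L ≃ₐ[K] L) (i : ℕ) (u : (𝓞 L)ˣ) :
    ((((unitsMap σ)^[i] u : (𝓞 L)ˣ) : 𝓞 L) : L) = (σ ^ i) ((u : 𝓞 L) : L) := by
  induction i with
  | zero => simp
  | succ i ih =>
    rw [Function.iterate_succ_apply', coe_unitsMap, ih, pow_succ', AlgEquiv.mul_apply]

/-- the inclusion of the units of `𝓞 K` in those of `𝓞 L` -/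
noncomputable def unitsIncl (K L : Type*) [Field K] [Field L] [Algebra K L] :
    (𝓞 K)ˣ →* (𝓞 L)ˣ :=
  Units.map (algebraMap (𝓞 K) (𝓞 L) : 𝓞 K →* 𝓞 L)

theorem coe_unitsIncl (v : (𝓞 K)ˣ) :
    (((unitsIncl K L v : (𝓞 L)ˣ) : 𝓞 L) : L) = algebraMap K L ((v : 𝓞 K) : K) := rfl

theorem unitsIncl_injective : Function.Injective (unitsIncl K L) := by
  intro v w h
  have h1 := congrArg (fun u : (𝓞 L)ˣ => ((u : 𝓞 L) : L)) h
  simp only [coe_unitsIncl] at h1
  exact Units.ext (RingOfIntegers.ext ((algebraMap K L).injective h1))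

theorem unitsMap_unitsIncl (σ : L ≃ₐ[K] L) (v : (𝓞 K)ˣ) :
    unitsMap σ (unitsIncl K L v) = unitsIncl K L v := by
  apply Units.ext
  apply RingOfIntegers.ext
  rw [coe_unitsMap, coe_unitsIncl, AlgEquiv.commutes]

/-- units fixed by a generator of the Galois group come from `K` -/
theorem exists_unitsIncl_eq [FiniteDimensional K L] [IsGalois K L] (σ : L ≃ₐ[K] L)
    (hσ : ∀ τ : L ≃ₐ[K] L, τ ∈ Subgroup.zpowers σ) (u : (𝓞 L)ˣ) (hu : unitsMap σ u = u) :
    ∃ v : (𝓞 K)ˣ, unitsIncl K L v = u := by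
  have hfix : ∀ x : L, σ x = x → ∀ τ : L ≃ₐ[K] L, τ x = x := by
    intro x hx τ
    obtain ⟨k, rfl⟩ := Subgroup.mem_zpowers_iff.1 (hσ τ)
    have h1 : σ • x = x := hx
    have : (σ ^ k) • x = x := by
      rw [← MulAction.mem_stabilizer_iff] at h1 ⊢
      exact Subgroup.zpow_mem _ h1 k
    exact this
  have hu1 : σ ((u : 𝓞 L) : L) = ((u : 𝓞 L) : L) := by
    rw [← coe_unitsMap, hu]
  have hu2 : σ (((u⁻¹ : (𝓞 L)ˣ) : 𝓞 L) : L) = (((u⁻¹ : (𝓞 L)ˣ) : 𝓞 L) : L) := by
    rw [← coe_unitsMap, map_inv, hu]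
  obtain ⟨x, hx⟩ := (IsGalois.mem_range_algebraMap_iff_fixed _).2 (hfix _ hu1)
  obtain ⟨y, hy⟩ := (IsGalois.mem_range_algebraMap_iff_fixed _).2 (hfix _ hu2)
  have hxint : IsIntegral ℤ x := by
    have : IsIntegral ℤ (algebraMap K L x) := hx ▸ (u : 𝓞 L).2
    exact (isIntegral_algebraMap_iff (algebraMap K L).injective).1 this
  have hyint : IsIntegral ℤ y := by
    have : IsIntegral ℤ (algebraMap K L y) := hy ▸ ((u⁻¹ : (𝓞 L)ˣ) : 𝓞 L).2
    exact (isIntegral_algebraMap_iff (algebraMap K L).injective).1 this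
  have hxy : x * y = 1 := by
    apply (algebraMap K L).injective
    rw [map_mul, hx, hy, map_one]
    have : ((u : 𝓞 L) * ((u⁻¹ : (𝓞 L)ˣ) : 𝓞 L)) = 1 := Units.mul_inv u
    exact_mod_cast congrArg (fun t : 𝓞 L => (t : L)) this
  refine ⟨⟨⟨x, hxint⟩, ⟨y, hyint⟩, ?_, ?_⟩, ?_⟩
  · exact RingOfIntegers.ext hxy
  · exact RingOfIntegers.ext (by rw [mul_comm] at hxy; exact hxy)
  · apply Units.ext
    apply RingOfIntegers.ext
    rw [coe_unitsIncl]
    exact hx

/-- `p`-torsion units of `L` come from `K` when `K` contains a primitive `p`-th root of unity -/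
theorem exists_unitsIncl_eq_of_pow_eq_one {p : ℕ} [NeZero p] {ζ : K} (hζ : IsPrimitiveRoot ζ p)
    (u : (𝓞 L)ˣ) (hu : u ^ p = 1) : ∃ v : (𝓞 K)ˣ, unitsIncl K L v = u := by
  have hζ' : IsPrimitiveRoot hζ.toInteger p := hζ.toInteger_isPrimitiveRoot
  have hζL : IsPrimitiveRoot (algebraMap (𝓞 K) (𝓞 L) hζ.toInteger) p :=
    hζ'.map_of_injective (FaithfulSMul.algebraMap_injective (𝓞 K) (𝓞 L))
  have hu' : (u : 𝓞 L) ^ p = 1 := by
    rw [← Units.val_pow_eq_pow_val, hu, Units.val_one]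
  obtain ⟨i, _, hi⟩ := hζL.eq_pow_of_pow_eq_one hu'
  refine ⟨(hζ'.isUnit (NeZero.ne p)).unit ^ i, ?_⟩
  apply Units.ext
  rw [← hi, map_pow, Units.val_pow_eq_pow_val]
  rfl

theorem card_ker_pow {p : ℕ} [NeZero p] {ζ : K} (hζ : IsPrimitiveRoot ζ p) :
    Nat.card (powMonoidHom p : (𝓞 L)ˣ →* (𝓞 L)ˣ).ker = p := by
  have hζL : IsPrimitiveRoot (algebraMap (𝓞 K) (𝓞 L) hζ.toInteger) p :=
    hζ.toInteger_isPrimitiveRoot.map_of_injective
      (FaithfulSMul.algebraMap_injective (𝓞 K) (𝓞 L))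
  have h := hζL.card_rootsOfUnity
  have h2 : (powMonoidHom p : (𝓞 L)ˣ →* (𝓞 L)ˣ).ker = rootsOfUnity p (𝓞 L) := by
    ext x
    rw [MonoidHom.mem_ker, mem_rootsOfUnity]
    rfl
  rw [h2]
  exact h

theorem dvd_torsionOrder [NumberField K] {p : ℕ} [NeZero p] {ζ : K} (hζ : IsPrimitiveRoot ζ p) :
    p ∣ torsionOrder K := by
  have hζ' : IsPrimitiveRoot hζ.toInteger p := hζ.toInteger_isPrimitiveRoot
  have h1 := hζ'.card_rootsOfUnity
  rw [← h1]
  have hle : rootsOfUnity p (𝓞 K) ≤ torsion K := by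
    intro x hx
    rw [torsion, CommGroup.mem_torsion, isOfFinOrder_iff_pow_eq_one]
    exact ⟨p, Nat.pos_of_ne_zero (NeZero.ne p), hx⟩
  exact Subgroup.card_dvd_of_le hle

/-- the product over the Galois group as a product over powers of a generator -/
theorem prod_aut_eq_prod_range [FiniteDimensional K L] [IsGalois K L] {p : ℕ}
    (hKL : finrank K L = p) (σ : L ≃ₐ[K] L) (hσ : ∀ τ : L ≃ₐ[K] L, τ ∈ Subgroup.zpowers σ)
    (x : L) : ∏ τ : L ≃ₐ[K] L, τ x = ∏ i ∈ Finset.range p, (σ ^ i) x := by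
  classical
  have hord : orderOf σ = p := by
    rw [orderOf_eq_card_of_forall_mem_zpowers hσ, IsGalois.card_aut_eq_finrank, hKL]
  have hinj : Set.InjOn (fun i : ℕ => σ ^ i) (Finset.range p : Set ℕ) := by
    intro i hi j hj h
    rw [Finset.coe_range] at hi hj
    rw [← hord] at hi hj
    exact pow_injOn_Iio_orderOf hi hj h
  have himage : (Finset.range p).image (fun i : ℕ => σ ^ i) = Finset.univ := by
    apply Finset.eq_univ_of_card
    rw [Finset.card_image_of_injOn hinj, Finset.card_range, ← Nat.card_eq_fintype_card,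
      IsGalois.card_aut_eq_finrank, hKL]
  rw [← himage, Finset.prod_image hinj]

end Fermat.Agent.FLTReg.H92

namespace Fermat.Agent.FLTReg

open Module NumberField NumberField.Units Fermat.Agent.FLTReg.H92

/-- **Hilbert's Theorem 92** for a cyclic extension `L/K` of odd prime degree `p` of number
fields, where `K` contains a primitive `p`-th root of unity. -/
theorem hilbert92 {K L : Type*} [Field K] [Field L] [NumberField K] [NumberField L]
    [Algebra K L] [IsGalois K L] {p : ℕ} [hp : Fact p.Prime] (hp2 : p ≠ 2)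
    (hKL : Module.finrank K L = p) {ζ : K} (hζ : IsPrimitiveRoot ζ p) (σ : L ≃ₐ[K] L)
    (hσ : ∀ τ : L ≃ₐ[K] L, τ ∈ Subgroup.zpowers σ) :
    ∃ η : (𝓞 L)ˣ, Algebra.norm K ((η : 𝓞 L) : L) = 1 ∧
      ∀ ε : (𝓞 L)ˣ, ((η : 𝓞 L) : L) * σ ((ε : 𝓞 L) : L) ≠ ((ε : 𝓞 L) : L) := by
  have hp3 : 2 < p := lt_of_le_of_ne hp.out.two_le (Ne.symm hp2)
  have : NeZero p := ⟨hp.out.ne_zero⟩
  have : FiniteDimensional K L := Module.finite_of_finrank_pos (by rw [hKL]; exact hp.out.pos)
  have hord : σ ^ p = 1 := by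
    have : orderOf σ = p := by
      rw [orderOf_eq_card_of_forall_mem_zpowers hσ, IsGalois.card_aut_eq_finrank, hKL]
    rw [← this]
    exact pow_orderOf_eq_one σ
  -- the additive group and the endomorphism
  set sU := unitsMap σ with hsU
  set sA : Additive (𝓞 L)ˣ →+ Additive (𝓞 L)ˣ := MonoidHom.toAdditive sU with hsA
  have hiter : ∀ (i : ℕ) (x : Additive (𝓞 L)ˣ),
      (⇑sA)^[i] x = Additive.ofMul ((⇑sU)^[i] (Additive.toMul x)) := by
    intro i x
    induction i with
    | zero => rfl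
    | succ i ih =>
      rw [Function.iterate_succ_apply', Function.iterate_succ_apply', ih]
      rfl
  have hsUp : ∀ u : (𝓞 L)ˣ, (⇑sU)^[p] u = u := by
    intro u
    apply Units.ext
    apply RingOfIntegers.ext
    rw [hsU, coe_iterate_unitsMap, hord]
    rfl
  have hσA : ∀ x, (⇑sA)^[p] x = x := by
    intro x
    rw [hiter, hsUp]
    rfl
  -- index of p-th powers in the units of L
  have hdvdL : p ∣ torsionOrder L :=
    dvd_torsionOrder (hζ.map_of_injective (algebraMap K L).injective)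
  have hdvdK : p ∣ torsionOrder K := dvd_torsionOrder hζ
  have hA2 : p ^ (p * (rank K + 1)) ≤
      (nsmulAddMonoidHom p : Additive (𝓞 L)ˣ →+ Additive (𝓞 L)ˣ).range.index := by
    have h1 := index_range_pow_units L hp.out hdvdL
    rw [rank_add_one_eq_mul hp3 hKL hζ] at h1
    rw [← h1, ← Subgroup.index_toAddSubgroup]
    exact le_of_eq rfl
  -- fixed points
  have hVeq : (lam sA).ker = (unitsIncl K L).range.toAddSubgroup := by
    ext x
    rw [AddMonoidHom.mem_ker, lam_apply, sub_eq_zero]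
    constructor
    · intro hx
      obtain ⟨v, hv⟩ := exists_unitsIncl_eq σ hσ (Additive.toMul x) (by
        have := congrArg Additive.toMul hx
        exact this)
      exact ⟨v, hv⟩
    · rintro ⟨v, hv⟩
      have : Additive.toMul x = unitsIncl K L v := hv.symm
      have h2 : sU (Additive.toMul x) = Additive.toMul x := by
        rw [this, hsU, unitsMap_unitsIncl]
      exact congrArg Additive.ofMul h2
  have hVmap : (lam sA).ker.map (nsmulAddMonoidHom p : Additive (𝓞 L)ˣ →+ Additive (𝓞 L)ˣ) =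
      ((powMonoidHom p : (𝓞 K)ˣ →* (𝓞 K)ˣ).range.map (unitsIncl K L)).toAddSubgroup := by
    rw [hVeq]
    ext x
    constructor
    · rintro ⟨_, ⟨v, rfl⟩, rfl⟩
      refine ⟨v ^ p, ⟨v, rfl⟩, ?_⟩
      rw [map_pow]
      rfl
    · rintro ⟨_, ⟨v, rfl⟩, hx⟩
      obtain rfl : x = Additive.ofMul (unitsIncl K L (powMonoidHom p v)) :=
        (congrArg Additive.ofMul hx).symm
      refine ⟨Additive.ofMul (unitsIncl K L v), ⟨v, rfl⟩, ?_⟩
      exact congrArg Additive.ofMul (map_pow (unitsIncl K L) v p).symm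
  have hVidx : ((lam sA).ker.map
      (nsmulAddMonoidHom p : Additive (𝓞 L)ˣ →+ Additive (𝓞 L)ˣ)).relIndex (lam sA).ker =
      p ^ (rank K + 1) := by
    rw [hVmap, hVeq, Subgroup.relIndex_toAddSubgroup, MonoidHom.range_eq_map (unitsIncl K L),
      Subgroup.relIndex_map_map_of_injective _ _ unitsIncl_injective, Subgroup.relIndex_top_right,
      index_range_pow_units K hp.out hdvdK]
  have hV1 : ((lam sA).ker.map
      (nsmulAddMonoidHom p : Additive (𝓞 L)ˣ →+ Additive (𝓞 L)ˣ)).relIndex (lam sA).ker ≠ 0 := by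
    rw [hVidx]
    exact pow_ne_zero _ hp.out.ne_zero
  -- torsion
  have hT1 : ∀ x : Additive (𝓞 L)ˣ, p • x = 0 → sA x = x := by
    intro x hx
    have h1 : (Additive.toMul x) ^ p = 1 := congrArg Additive.toMul hx
    obtain ⟨v, hv⟩ := exists_unitsIncl_eq_of_pow_eq_one (L := L) hζ _ h1
    have h2 : sU (Additive.toMul x) = Additive.toMul x := by
      rw [← hv, hsU, unitsMap_unitsIncl]
    exact congrArg Additive.ofMul h2
  have hT2 : p ≤ Nat.card (nsmulAddMonoidHom p : Additive (𝓞 L)ˣ →+ Additive (𝓞 L)ˣ).ker := by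
    have h1 := card_ker_pow (L := L) hζ
    exact le_of_eq (h1.symm.trans rfl)
  obtain ⟨η, hη1, hη2⟩ := exists_nm_eq_zero_not_lam hσA (rank K + 1) hA2 hV1 (le_of_eq hVidx)
    hT1 hT2
  refine ⟨Additive.toMul η, ?_, ?_⟩
  · apply (algebraMap K L).injective
    rw [Algebra.norm_eq_prod_automorphisms, prod_aut_eq_prod_range hKL σ hσ, map_one]
    rw [nm_apply] at hη1
    simp_rw [hiter] at hη1
    rw [← ofMul_prod] at hη1
    have h2 : ∏ i ∈ Finset.range p, (⇑sU)^[i] (Additive.toMul η) = 1 := congrArg Additive.toMul hη1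
    have h3 := congrArg (fun u : (𝓞 L)ˣ => ((u : 𝓞 L) : L)) h2
    simp only [Units.coe_prod, map_prod, Units.val_one, map_one] at h3
    rw [← h3]
    refine Finset.prod_congr rfl fun i _ => ?_
    rw [← coe_iterate_unitsMap]
  · intro ε hε
    apply hη2 (Additive.ofMul ε⁻¹)
    have h0 : Additive.toMul η * sU ε = ε := by
      apply Units.ext
      apply RingOfIntegers.ext
      rw [Units.val_mul]
      have hmul : ((((Additive.toMul η : (𝓞 L)ˣ) : 𝓞 L) * ((sU ε : (𝓞 L)ˣ) : 𝓞 L) : 𝓞 L) : L) =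
          (((Additive.toMul η : (𝓞 L)ˣ) : 𝓞 L) : L) * (((sU ε : (𝓞 L)ˣ) : 𝓞 L) : L) :=
        map_mul (algebraMap (𝓞 L) L) _ _
      rw [hmul, hsU, coe_unitsMap]
      exact hε
    have h1 : Additive.toMul η = sU ε⁻¹ / ε⁻¹ := by
      calc Additive.toMul η = (Additive.toMul η * sU ε) * (sU ε)⁻¹ :=
            (mul_inv_cancel_right _ _).symm
        _ = ε * (sU ε)⁻¹ := by rw [h0]
        _ = sU ε⁻¹ / ε⁻¹ := by rw [map_inv, div_eq_mul_inv, inv_inv, mul_comm]
    exact congrArg Additive.ofMul h1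

end Fermat.Agent.FLTReg
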