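import Mathlib

/-!
# P8 / piece B3 (abstract part): Hilbert 92 by index counting

`A` an abelian group with an endomorphism `s`, `F` a subgroup fixed by `s` containing all norms
`(1 + s + ⋯ + s^(p-1)) x`.  If `[A : pA] ≥ [F : pF]^p` and some `u ∈ F ∩ pA` is not in `pF`, then
there is a norm-zero element which is not of the form `s y - y`.
-/

set_option autoImplicit false

open Polynomial

namespace Fermat.Agent.FLTReg

/-- `(X - 1)^(p-1) ≡ 1 + X + ⋯ + X^(p-1)` modulo `p` in `ℤ[X]`. -/
theorem exists_X_sub_one_pow_eq_geom_sum_add (p : ℕ) [hp : Fact p.Prime] :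
    ∃ q : ℤ[X], (X - 1 : ℤ[X]) ^ (p - 1) =
      (∑ i ∈ Finset.range p, (X : ℤ[X]) ^ i) + C (p : ℤ) * q := by
  have key : ((X - 1 : ℤ[X]) ^ (p - 1) - ∑ i ∈ Finset.range p, (X : ℤ[X]) ^ i).map
      (Int.castRingHom (ZMod p)) = 0 := by
    have h1 : ((X : (ZMod p)[X]) - 1) * (X - 1) ^ (p - 1) =
        (X - 1) * ∑ i ∈ Finset.range p, X ^ i := by
      rw [mul_geom_sum, ← pow_succ', Nat.sub_add_cancel hp.out.one_le, sub_pow_char, one_pow]
    have h2 : ((X : (ZMod p)[X]) - 1) ≠ 0 := by
      have := X_sub_C_ne_zero (1 : ZMod p)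
      simpa using this
    have h3 := mul_left_cancel₀ h2 h1
    simp only [Polynomial.map_sub, Polynomial.map_pow, Polynomial.map_X, Polynomial.map_one,
      Polynomial.map_sum, h3, sub_self]
  obtain ⟨q, hq⟩ : C (p : ℤ) ∣ (X - 1 : ℤ[X]) ^ (p - 1) - ∑ i ∈ Finset.range p, (X : ℤ[X]) ^ i := by
    rw [Polynomial.C_dvd_iff_dvd_coeff]
    intro i
    have := congrArg (fun f => f.coeff i) key
    simp only [coeff_map, coeff_zero] at this
    exact (ZMod.intCast_zmod_eq_zero_iff_dvd _ _).mp this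
  exact ⟨q, by rw [← hq]; ring⟩

section Count

variable {A : Type*} [AddCommGroup A] (p : ℕ) (s : AddMonoid.End A)

/-- the group-ring norm element `1 + s + ⋯ + s^(p-1)` -/
noncomputable def normEnd : AddMonoid.End A := ∑ i ∈ Finset.range p, s ^ i

theorem normEnd_apply (x : A) : normEnd p s x = ∑ i ∈ Finset.range p, (s ^ i) x := by
  unfold normEnd
  exact map_sum (AddMonoidHom.eval x : (A →+ A) →+ A) _ _

theorem end_sub_one_apply (x : A) : (s - 1 : AddMonoid.End A) x = s x - x := rfl

theorem end_pow_succ_apply (n : ℕ) (x : A) : (s ^ (n + 1)) x = (s ^ n) (s x) := by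
  rw [pow_succ]; rfl

theorem end_pow_succ_apply' (n : ℕ) (x : A) : (s ^ (n + 1)) x = s ((s ^ n) x) := by
  rw [pow_succ']; rfl

variable {p s}

theorem end_pow_apply_of_fixed {f : A} (hf : s f = f) (i : ℕ) : (s ^ i) f = f := by
  induction i with
  | zero => rfl
  | succ n ih => rw [end_pow_succ_apply, hf, ih]

theorem normEnd_apply_of_fixed {f : A} (hf : s f = f) : normEnd p s f = p • f := by
  rw [normEnd_apply]
  simp [end_pow_apply_of_fixed hf]

/-- `(s^i - 1) x ∈ range (s - 1)` -/
theorem end_pow_sub_mem_range (i : ℕ) (x : A) :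
    (s ^ i) x - x ∈ AddMonoidHom.range (s - 1 : AddMonoid.End A) := by
  refine ⟨(∑ j ∈ Finset.range i, s ^ j : AddMonoid.End A) x, ?_⟩
  have : (s - 1) * (∑ j ∈ Finset.range i, s ^ j) = s ^ i - 1 := mul_geom_sum s i
  calc (s - 1 : AddMonoid.End A) ((∑ j ∈ Finset.range i, s ^ j : AddMonoid.End A) x)
      = ((s - 1) * (∑ j ∈ Finset.range i, s ^ j) : AddMonoid.End A) x := rfl
    _ = (s ^ i) x - x := by rw [this]; rfl

theorem normEnd_sub_nsmul_mem_range (x : A) :
    normEnd p s x - p • x ∈ AddMonoidHom.range (s - 1 : AddMonoid.End A) := by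
  have : normEnd p s x - p • x = ∑ i ∈ Finset.range p, ((s ^ i) x - x) := by
    rw [normEnd_apply, Finset.sum_sub_distrib]
    simp
  rw [this]
  exact AddSubgroup.sum_mem _ fun i _ => end_pow_sub_mem_range i x

/-- a nontrivial quotient killed by `p` has index at least `p` -/
theorem le_relIndex_of_nsmul_mem [hp : Fact p.Prime] {H G : AddSubgroup A}
    (hfin : H.relIndex G ≠ 0) (hkill : ∀ x ∈ G, p • x ∈ H) {u : A} (huG : u ∈ G) (hu : u ∉ H) :
    p ≤ H.relIndex G := by
  have hfin' : (H.addSubgroupOf G).index ≠ 0 := hfin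
  have : Finite (G ⧸ H.addSubgroupOf G) := AddSubgroup.index_ne_zero_iff_finite.mp hfin'
  let ū : G ⧸ H.addSubgroupOf G := QuotientAddGroup.mk ⟨u, huG⟩
  have h1 : ū ≠ 0 := by
    intro h
    rw [QuotientAddGroup.eq_zero_iff] at h
    exact hu h
  have h2 : p • ū = 0 := by
    rw [← QuotientAddGroup.mk_nsmul, QuotientAddGroup.eq_zero_iff]
    exact hkill u huG
  have h3 : addOrderOf ū = p := addOrderOf_eq_prime h2 h1
  have h4 : p ∣ Nat.card (G ⧸ H.addSubgroupOf G) := h3 ▸ addOrderOf_dvd_natCard ū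
  have h5 : Nat.card (G ⧸ H.addSubgroupOf G) = H.relIndex G := rfl
  rw [h5] at h4
  exact Nat.le_of_dvd (Nat.pos_of_ne_zero hfin) h4

set_option backward.isDefEq.respectTransparency false in
/-- **Abstract Hilbert 92 by counting.** -/
theorem hilbert92_count [hp : Fact p.Prime] (F : AddSubgroup A)
    (hF : ∀ f ∈ F, s f = f) (hNF : ∀ x, normEnd p s x ∈ F)
    (hfin : (nsmulAddMonoidHom (α := A) p).range.index ≠ 0)
    (hb : (F.map (nsmulAddMonoidHom (α := A) p)).relIndex F ≠ 0)
    (hidx : ((F.map (nsmulAddMonoidHom (α := A) p)).relIndex F) ^ p ≤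
      (nsmulAddMonoidHom (α := A) p).range.index)
    {u : A} (huF : u ∈ F) (huP : u ∈ (nsmulAddMonoidHom (α := A) p).range)
    (hu : u ∉ F.map (nsmulAddMonoidHom (α := A) p)) :
    ∃ x, normEnd p s x = 0 ∧ x ∉ AddMonoidHom.range (s - 1 : AddMonoid.End A) := by
  classical
  by_contra hcon
  push Not at hcon
  set φ : A →+ A := nsmulAddMonoidHom (α := A) p with hφ
  set Pw : AddSubgroup A := φ.range with hPw
  set Fp : AddSubgroup A := F.map φ with hFp
  set D : AddMonoid.End A := s - 1 with hD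
  set R : AddSubgroup A := AddMonoidHom.range D with hR
  set b := Fp.relIndex F with hbdef
  have hφx : ∀ x, φ x = p • x := fun x => rfl
  have hFpF : Fp ≤ F := by
    rintro _ ⟨f, hf, rfl⟩
    exact F.nsmul_mem hf p
  have hFpPw : Fp ≤ Pw := by
    rintro _ ⟨f, _, rfl⟩
    exact ⟨f, rfl⟩
  have : Pw.FiniteIndex := ⟨hfin⟩
  -- `Pw ≤ F ⊔ R`
  have hPwFR : Pw ≤ F ⊔ R := by
    rintro _ ⟨x, rfl⟩
    have h1 := normEnd_sub_nsmul_mem_range (p := p) (s := s) x
    have h2 : φ x = normEnd p s x - (normEnd p s x - p • x) := by rw [hφx]; abel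
    rw [h2]
    exact (F ⊔ R).sub_mem (AddSubgroup.mem_sup_left (hNF x)) (AddSubgroup.mem_sup_right h1)
  have : (F ⊔ R).FiniteIndex := AddSubgroup.finiteIndex_of_le hPwFR
  -- step (i)
  have step1 : (F ⊔ R).index ≤ b := by
    have h1 : (Fp.comap (normEnd p s)).index = Fp.relIndex (AddMonoidHom.range (normEnd p s)) :=
      AddSubgroup.index_comap _ _
    have hrange : AddMonoidHom.range (normEnd p s) ≤ F := by
      rintro _ ⟨x, rfl⟩; exact hNF x
    have h2 : Fp.relIndex (AddMonoidHom.range (normEnd p s)) ≤ b :=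
      AddSubgroup.relIndex_le_of_le_right hrange hb
    have h2' : Fp.relIndex (AddMonoidHom.range (normEnd p s)) ≠ 0 := fun h =>
      hb (AddSubgroup.relIndex_eq_zero_of_le_right hrange h)
    have h3 : Fp.comap (normEnd p s) ≤ F ⊔ R := by
      intro x hx
      obtain ⟨f, hf, hfx⟩ := hx
      have h4 : normEnd p s (x - f) = 0 := by
        rw [map_sub, normEnd_apply_of_fixed (hF f hf), ← hfx, hφx, sub_self]
      have h5 : x = f + (x - f) := by abel
      rw [h5]
      exact (F ⊔ R).add_mem (AddSubgroup.mem_sup_left hf) (AddSubgroup.mem_sup_right (hcon _ h4))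
    have : (Fp.comap (normEnd p s)).FiniteIndex := ⟨by rw [h1]; exact h2'⟩
    calc (F ⊔ R).index ≤ (Fp.comap (normEnd p s)).index := AddSubgroup.index_antitone h3
      _ = _ := h1
      _ ≤ b := h2
  -- step (ii)
  have step2 : p * (F ⊓ Pw).relIndex F ≤ b := by
    have h1 : Fp.relIndex (F ⊓ Pw) * (F ⊓ Pw).relIndex F = b :=
      AddSubgroup.relIndex_mul_relIndex _ _ _ (le_inf hFpF hFpPw) inf_le_left
    have h2 : Fp.relIndex (F ⊓ Pw) ≠ 0 := fun h => hb (by rw [← h1, h, zero_mul])
    have h3 : p ≤ Fp.relIndex (F ⊓ Pw) :=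
      le_relIndex_of_nsmul_mem h2
        (fun x hx => ⟨x, hx.1, rfl⟩) (⟨huF, huP⟩ : u ∈ F ⊓ Pw) hu
    calc p * (F ⊓ Pw).relIndex F ≤ Fp.relIndex (F ⊓ Pw) * (F ⊓ Pw).relIndex F :=
          Nat.mul_le_mul_right _ h3
      _ = b := h1
  -- step (iii)
  have step3 : Pw.index = (F ⊓ Pw).relIndex F * (F ⊔ Pw).index := by
    rw [← AddSubgroup.relIndex_mul_index (le_sup_right : Pw ≤ F ⊔ Pw),
      AddSubgroup.relIndex_sup_right, inf_comm, AddSubgroup.inf_relIndex_right]
  -- step (iv)
  have hDF : ∀ f ∈ F, ∀ j, (D ^ j) f ∈ F := by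
    intro f hf j
    induction j with
    | zero => exact hf
    | succ n _ =>
      rw [end_pow_succ_apply]
      have : D f = 0 := by rw [hD, end_sub_one_apply, hF f hf, sub_self]
      rw [this, map_zero]
      exact F.zero_mem
  have step4 : ∀ j, (F ⊔ Pw ⊔ AddMonoidHom.range (D ^ j)).index ≤ b ^ j := by
    intro j
    induction j with
    | zero =>
      have : AddMonoidHom.range (D ^ 0) = ⊤ := by
        rw [pow_zero]; exact AddMonoidHom.range_eq_top.mpr (fun x => ⟨x, rfl⟩)
      rw [this, sup_top_eq, AddSubgroup.index_top, pow_zero]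
    | succ j ih =>
      set C0 := F ⊔ Pw ⊔ AddMonoidHom.range (D ^ j) with hC0
      set C1 := F ⊔ Pw ⊔ AddMonoidHom.range (D ^ (j + 1)) with hC1
      have hle : AddMonoidHom.range (D ^ (j + 1)) ≤ AddMonoidHom.range (D ^ j) := by
        rintro _ ⟨x, rfl⟩
        exact ⟨D x, (end_pow_succ_apply D j x).symm⟩
      have hC10 : C1 ≤ C0 := sup_le_sup_left hle _
      have h1 : C1.relIndex C0 * C0.index = C1.index := AddSubgroup.relIndex_mul_index hC10
      have h2 : C1.relIndex C0 = (C1.comap (D ^ j)).index := by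
        rw [AddSubgroup.index_comap]
        have : C0 = AddMonoidHom.range (D ^ j) ⊔ C1 := by
          rw [hC0, hC1, sup_comm (AddMonoidHom.range (D ^ j)), sup_assoc (F ⊔ Pw),
            sup_eq_right.mpr hle]
        rw [this, AddSubgroup.relIndex_sup_right]
      have h3 : F ⊔ R ≤ C1.comap (D ^ j) := by
        refine sup_le ?_ ?_
        · intro f hf
          exact AddSubgroup.mem_sup_left (AddSubgroup.mem_sup_left (hDF f hf j))
        · rintro _ ⟨y, rfl⟩
          refine AddSubgroup.mem_sup_right ⟨y, ?_⟩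
          exact end_pow_succ_apply D j y
      have h4 : C1.relIndex C0 ≤ b := by
        rw [h2]
        exact (AddSubgroup.index_antitone h3).trans step1
      calc C1.index = C1.relIndex C0 * C0.index := h1.symm
        _ ≤ b * b ^ j := Nat.mul_le_mul h4 ih
        _ = b ^ (j + 1) := by ring
  have hlast : F ⊔ Pw ⊔ AddMonoidHom.range (D ^ (p - 1)) = F ⊔ Pw := by
    refine sup_eq_left.mpr ?_
    obtain ⟨q, hq⟩ := exists_X_sub_one_pow_eq_geom_sum_add p
    have hq' := congrArg (aeval s) hq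
    simp only [map_pow, map_sub, aeval_X, map_one, map_add, map_sum, map_mul, aeval_C] at hq'
    rintro _ ⟨x, rfl⟩
    have h1 : (D ^ (p - 1)) x = normEnd p s x + p • ((aeval s q) x) := by
      rw [hD, hq']
      have h2 : (algebraMap ℤ (AddMonoid.End A)) (p : ℤ) = (p : AddMonoid.End A) := by
        rw [eq_intCast, Int.cast_natCast]
      rw [h2]
      change (∑ i ∈ Finset.range p, s ^ i : AddMonoid.End A) x +
        (p : AddMonoid.End A) ((aeval s q) x) = _
      rw [AddMonoid.End.natCast_apply]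
      rfl
    rw [h1]
    exact (F ⊔ Pw).add_mem (AddSubgroup.mem_sup_left (hNF x)) (AddSubgroup.mem_sup_right ⟨_, rfl⟩)
  have step5 : (F ⊔ Pw).index ≤ b ^ (p - 1) := by
    have := step4 (p - 1)
    rwa [hlast] at this
  -- conclusion
  set c := (F ⊓ Pw).relIndex F with hc
  have hp2 : 2 ≤ p := hp.out.two_le
  have hbpos : 0 < b := Nat.pos_of_ne_zero hb
  have h6 : b ^ p ≤ c * b ^ (p - 1) := by
    calc b ^ p ≤ Pw.index := hidx
      _ = c * (F ⊔ Pw).index := step3
      _ ≤ c * b ^ (p - 1) := Nat.mul_le_mul_left _ step5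
  have h7 : b ≤ c := by
    have : b * b ^ (p - 1) ≤ c * b ^ (p - 1) := by
      rwa [← pow_succ', Nat.sub_add_cancel hp.out.one_le]
    exact Nat.le_of_mul_le_mul_right this (pow_pos hbpos _)
  have h8 : p * c ≤ c := step2.trans h7
  have hcpos : 0 < c := by
    rcases Nat.eq_zero_or_pos c with h | h
    · rw [h] at h7; omega
    · exact h
  nlinarith

end Count

section Mul

variable {E : Type*} [CommGroup E]

/-- a monoid endomorphism as an endomorphism of the additive group -/
def toAddEnd (t : E →* E) : AddMonoid.End (Additive E) := MonoidHom.toAdditive t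

theorem toAddEnd_apply (t : E →* E) (a : Additive E) :
    toAddEnd t a = Additive.ofMul (t a.toMul) := rfl

theorem toAddEnd_pow_apply (t : E →* E) (i : ℕ) (a : Additive E) :
    ((toAddEnd t) ^ i) a = Additive.ofMul (t^[i] a.toMul) := by
  induction i generalizing a with
  | zero => rfl
  | succ n ih =>
    rw [end_pow_succ_apply, ih, Function.iterate_succ_apply]
    rfl

/-- **Abstract Hilbert 92 by counting**, multiplicative version. -/
theorem hilbert92_count_mul (p : ℕ) [hp : Fact p.Prime] (t : E →* E)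
    (F : Subgroup E) (hF : ∀ f ∈ F, t f = f)
    (hNF : ∀ x, ∏ i ∈ Finset.range p, (t^[i]) x ∈ F)
    (hfin : (powMonoidHom (α := E) p).range.index ≠ 0)
    (hb : (F.map (powMonoidHom (α := E) p)).relIndex F ≠ 0)
    (hidx : ((F.map (powMonoidHom (α := E) p)).relIndex F) ^ p ≤
      (powMonoidHom (α := E) p).range.index)
    {u : E} (huF : u ∈ F) (huP : ∃ y, y ^ p = u) (hu : ¬ ∃ f ∈ F, f ^ p = u) :
    ∃ x, ∏ i ∈ Finset.range p, (t^[i]) x = 1 ∧ ¬ ∃ y, t y / y = x := by
  set s : AddMonoid.End (Additive E) := toAddEnd t with hs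
  have hnorm : ∀ a : Additive E, normEnd p s a =
      Additive.ofMul (∏ i ∈ Finset.range p, (t^[i]) a.toMul) := by
    intro a
    rw [normEnd_apply, ofMul_prod]
    exact Finset.sum_congr rfl fun i _ => toAddEnd_pow_apply t i a
  have hrange : (nsmulAddMonoidHom (α := Additive E) p).range =
      Subgroup.toAddSubgroup (powMonoidHom (α := E) p).range := rfl
  have hmap : (Subgroup.toAddSubgroup F).map (nsmulAddMonoidHom (α := Additive E) p) =
      Subgroup.toAddSubgroup (F.map (powMonoidHom (α := E) p)) := rfl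
  obtain ⟨x, hx1, hx2⟩ := hilbert92_count (p := p) (s := s) (Subgroup.toAddSubgroup F)
    (fun f hf => congrArg Additive.ofMul (hF f.toMul hf))
    (fun x => by rw [hnorm]; exact hNF x.toMul)
    (by rw [hrange, Subgroup.index_toAddSubgroup]; exact hfin)
    (by rw [hmap, Subgroup.relIndex_toAddSubgroup]; exact hb)
    (by rw [hmap, hrange, Subgroup.relIndex_toAddSubgroup, Subgroup.index_toAddSubgroup]
        exact hidx)
    (u := Additive.ofMul u) huF
    (by obtain ⟨y, hy⟩ := huP; exact ⟨Additive.ofMul y, congrArg Additive.ofMul hy⟩)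
    (by
      rintro ⟨f, hf, hfu⟩
      exact hu ⟨f.toMul, hf, congrArg Additive.toMul hfu⟩)
  refine ⟨x.toMul, ?_, ?_⟩
  · have := hnorm x
    rw [hx1] at this
    exact (congrArg Additive.toMul this).symm
  · rintro ⟨y, hy⟩
    apply hx2
    refine ⟨Additive.ofMul y, ?_⟩
    change s (Additive.ofMul y) - Additive.ofMul y = x
    exact congrArg Additive.ofMul hy

end Mul

end Fermat.Agent.FLTReg
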