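import Mathlib

/-!
# P8 / piece B2: the Kummer extension `K(u^(1/p))` is unramified when `u ≡ 1 mod (ζ-1)^p`
-/

set_option autoImplicit false

open NumberField Polynomial

namespace Fermat.Agent.FLTReg

section KummerPoly

variable {R : Type*} [CommRing R] {p : ℕ}

/-- The polynomial `(λ X + 1)^p - u`. -/
noncomputable def kummerPolyAux (lam u : R) (p : ℕ) : R[X] :=
  ((X + 1) ^ p - C u).comp (C lam * X)

theorem kummerPolyAux_coeff (lam u : R) (k : ℕ) :
    (kummerPolyAux lam u p).coeff k = ((p.choose k : R) - if k = 0 then u else 0) * lam ^ k := by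
  unfold kummerPolyAux
  rw [comp_C_mul_X_coeff, coeff_sub, coeff_X_add_one_pow, coeff_C]

theorem C_pow_dvd_kummerPolyAux [hp : Fact p.Prime] {lam u e w : R} (he : lam ^ (p - 1) * e = p)
    (hw : u - 1 = lam ^ p * w) : C (lam ^ p) ∣ kummerPolyAux lam u p := by
  rw [C_dvd_iff_dvd_coeff]
  intro k
  rw [kummerPolyAux_coeff]
  rcases Nat.eq_zero_or_pos k with rfl | hk
  · simp only [Nat.choose_zero_right, Nat.cast_one, if_true, pow_zero, mul_one]
    exact ⟨-w, by linear_combination -hw⟩
  · rw [if_neg hk.ne', sub_zero]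
    rcases lt_or_ge k p with hkp | hkp
    · obtain ⟨m, hm⟩ := hp.out.dvd_choose_self hk.ne' hkp
      have h1 : lam ^ (p - 1) ∣ (p.choose k : R) := by
        rw [hm, Nat.cast_mul, ← he]
        exact ⟨e * m, by ring⟩
      have h2 : lam ∣ lam ^ k := dvd_pow_self lam hk.ne'
      have h3 : lam ^ p = lam ^ (p - 1) * lam := by
        rw [← pow_succ, Nat.sub_add_cancel hp.out.one_le]
      rw [h3]
      exact mul_dvd_mul h1 h2
    · exact Dvd.dvd.mul_left (pow_dvd_pow lam hkp) _

theorem exists_kummerPoly [IsDomain R] [hp : Fact p.Prime] {lam u e w : R} (hlam : lam ≠ 0)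
    (he : lam ^ (p - 1) * e = p) (hw : u - 1 = lam ^ p * w) :
    ∃ g : R[X], g.Monic ∧ C (lam ^ p) * g = kummerPolyAux lam u p := by
  obtain ⟨g, hg⟩ := C_pow_dvd_kummerPolyAux he hw
  refine ⟨g, ?_, hg.symm⟩
  have hlp : lam ^ p ≠ 0 := pow_ne_zero _ hlam
  have hcoeff : ∀ k, lam ^ p * g.coeff k =
      ((p.choose k : R) - if k = 0 then u else 0) * lam ^ k := by
    intro k
    rw [← coeff_C_mul, ← hg, kummerPolyAux_coeff]
  refine monic_of_natDegree_le_of_coeff_eq_one p ?_ ?_
  · rw [natDegree_le_iff_coeff_eq_zero]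
    intro k hk
    have := hcoeff k
    rw [Nat.choose_eq_zero_of_lt hk, if_neg (by omega), Nat.cast_zero, sub_zero, zero_mul] at this
    exact (mul_eq_zero.mp this).resolve_left hlp
  · have := hcoeff p
    rw [Nat.choose_self, if_neg hp.out.ne_zero, Nat.cast_one, sub_zero, one_mul] at this
    exact mul_left_cancel₀ hlp (this.trans (mul_one _).symm)

variable {S : Type*} [CommRing S] [Algebra R S]

theorem aeval_kummerPolyAux (lam u : R) (x : S) :
    aeval x (kummerPolyAux lam u p) =
      (algebraMap R S lam * x + 1) ^ p - algebraMap R S u := by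
  unfold kummerPolyAux
  rw [aeval_comp]
  simp

theorem aeval_derivative_kummerPolyAux (lam u : R) (x : S) :
    aeval x (derivative (kummerPolyAux lam u p)) =
      p * (algebraMap R S lam * x + 1) ^ (p - 1) * algebraMap R S lam := by
  unfold kummerPolyAux
  have h1 : derivative ((X + 1 : R[X]) ^ p - C u) = C (p : R) * (X + 1) ^ (p - 1) := by
    rw [derivative_sub, derivative_C, sub_zero, derivative_pow, derivative_add, derivative_X,
      derivative_one, add_zero, mul_one]
  have h2 : derivative (C lam * X : R[X]) = C lam := by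
    rw [derivative_C_mul, derivative_X, mul_one]
  rw [derivative_comp, h1, h2, map_mul, aeval_comp, map_mul, map_pow, map_add, aeval_X, map_one,
    aeval_C, map_mul, aeval_C, aeval_C, aeval_X, map_natCast]
  ring

end KummerPoly

section Different

variable {p : ℕ} [hp : Fact p.Prime] {K L : Type*} [Field K] [NumberField K] [Field L]
  [NumberField L] [Algebra K L]

theorem differentIdeal_eq_top_of_kummer
    {lam e w : 𝓞 K} {u : (𝓞 K)ˣ} (hlam : lam ≠ 0) (he : lam ^ (p - 1) * e = p) (heu : IsUnit e)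
    (hw : (u : 𝓞 K) - 1 = lam ^ p * w) (hdeg : Module.finrank K L = p)
    {α : 𝓞 L} (hα : α ^ p = algebraMap (𝓞 K) (𝓞 L) u)
    (hαK : (α : L) ∉ Set.range (algebraMap K L)) :
    differentIdeal (𝓞 K) (𝓞 L) = ⊤ := by
  classical
  obtain ⟨g, hgm, hg⟩ := exists_kummerPoly hlam he hw
  have hinjL : Function.Injective (algebraMap (𝓞 L) L) := RingOfIntegers.coe_injective
  have hinjKL : Function.Injective (algebraMap (𝓞 K) (𝓞 L)) :=
    FaithfulSMul.algebraMap_injective _ _
  have hlamL : algebraMap (𝓞 K) L lam ≠ 0 := by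
    rw [IsScalarTower.algebraMap_apply (𝓞 K) (𝓞 L) L]
    intro h
    have h1 := hinjL (h.trans (map_zero _).symm)
    exact hlam (hinjKL (h1.trans (map_zero _).symm))
  set θL : L := ((α : L) - 1) / algebraMap (𝓞 K) L lam with hθLdef
  have h0 : algebraMap (𝓞 K) L lam * θL + 1 = α := by
    rw [hθLdef]; field_simp; ring
  have hαL : (α : L) ^ p = algebraMap (𝓞 K) L u := by
    have := congrArg (algebraMap (𝓞 L) L) hα
    rwa [map_pow, ← IsScalarTower.algebraMap_apply (𝓞 K) (𝓞 L) L] at this
  have hθL : aeval θL g = 0 := by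
    have h1 : aeval θL (C (lam ^ p) * g) = 0 := by
      rw [hg, aeval_kummerPolyAux, h0, hαL, sub_self]
    rw [map_mul, aeval_C, map_pow] at h1
    exact (mul_eq_zero.mp h1).resolve_left (pow_ne_zero _ hlamL)
  have hint : IsIntegral (𝓞 K) θL := ⟨g, hgm, hθL⟩
  obtain ⟨θ, hθ⟩ := (IsIntegralClosure.isIntegral_iff (A := 𝓞 L)).mp hint
  have hlamKL : algebraMap (𝓞 K) (𝓞 L) lam ≠ 0 := fun h =>
    hlam (hinjKL (h.trans (map_zero _).symm))
  have h1 : algebraMap (𝓞 K) (𝓞 L) lam * θ + 1 = α := by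
    apply hinjL
    rw [map_add, map_mul, map_one, hθ, ← IsScalarTower.algebraMap_apply (𝓞 K) (𝓞 L) L, h0]
  have hθg : aeval θ g = 0 := by
    apply hinjL
    rw [← aeval_algebraMap_apply, hθ, hθL, map_zero]
  -- the derivative
  have hder : aeval θ (derivative g) = algebraMap (𝓞 K) (𝓞 L) e * α ^ (p - 1) := by
    have h2 : aeval θ (derivative (C (lam ^ p) * g)) =
        p * α ^ (p - 1) * algebraMap (𝓞 K) (𝓞 L) lam := by
      rw [hg, aeval_derivative_kummerPolyAux, h1]
    rw [derivative_C_mul, map_mul, aeval_C, map_pow] at h2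
    have h3 : (p : 𝓞 L) = algebraMap (𝓞 K) (𝓞 L) lam ^ (p - 1) * algebraMap (𝓞 K) (𝓞 L) e := by
      rw [← map_pow, ← map_mul, he, map_natCast]
    have h4 : algebraMap (𝓞 K) (𝓞 L) lam ^ p =
        algebraMap (𝓞 K) (𝓞 L) lam ^ (p - 1) * algebraMap (𝓞 K) (𝓞 L) lam := by
      rw [← pow_succ, Nat.sub_add_cancel hp.out.one_le]
    apply mul_left_cancel₀ (pow_ne_zero p hlamKL)
    rw [h2, h3, h4]
    ring
  have hunit : IsUnit (aeval θ (derivative g)) := by
    rw [hder]
    refine IsUnit.mul (heu.map _) (IsUnit.pow _ ?_)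
    have : IsUnit (α ^ p) := by rw [hα]; exact u.isUnit.map _
    exact (isUnit_pow_iff hp.out.ne_zero).mp this
  -- the minimal polynomial
  have hθint : IsIntegral (𝓞 K) θ := Algebra.IsIntegral.isIntegral θ
  obtain ⟨q, hq⟩ := minpoly.isIntegrallyClosed_dvd hθint hθg
  have hunit' : IsUnit (aeval θ (derivative (minpoly (𝓞 K) θ))) := by
    have h2 : aeval θ (derivative g) =
        aeval θ (derivative (minpoly (𝓞 K) θ)) * aeval θ q := by
      rw [hq, derivative_mul, map_add, map_mul, map_mul, minpoly.aeval, zero_mul, add_zero]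
    rw [h2] at hunit
    exact isUnit_of_mul_isUnit_left hunit
  -- `θ` generates
  have hadj : Algebra.adjoin K {algebraMap (𝓞 L) L θ} = ⊤ := by
    have hprime : (Module.finrank K L).Prime := hdeg ▸ hp.out
    have := Subalgebra.isSimpleOrder_of_finrank_prime K L hprime
    rcases eq_bot_or_eq_top (Algebra.adjoin K {algebraMap (𝓞 L) L θ}) with h | h
    · exfalso
      have hmem : algebraMap (𝓞 L) L θ ∈ (⊥ : Subalgebra K L) :=
        h ▸ Algebra.subset_adjoin (Set.mem_singleton _)
      obtain ⟨y, hy⟩ := Algebra.mem_bot.mp hmem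
      apply hαK
      refine ⟨algebraMap (𝓞 K) K lam * y + 1, ?_⟩
      rw [map_add, map_mul, map_one, hy, hθ, ← h0, ← IsScalarTower.algebraMap_apply (𝓞 K) K L]
    · exact h
  have hmem := aeval_derivative_mem_differentIdeal (𝓞 K) K L θ hadj
  exact Ideal.eq_top_of_isUnit_mem _ hmem hunit'

end Different

end Fermat.Agent.FLTReg
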