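import Mathlib

/-!
# P8 / piece B3 (number field input): the index of `p`-th powers in the unit group
-/

set_option autoImplicit false

open NumberField NumberField.Units

namespace Fermat.Agent.FLTReg

section UnitsIndex

variable (K : Type*) [Field K] [NumberField K]

theorem index_range_powMonoidHom_units (p : ℕ) [hp : Fact p.Prime]
    (hpT : p ∣ torsionOrder K) :
    (powMonoidHom p : (𝓞 K)ˣ →* (𝓞 K)ˣ).range.index = p ^ (rank K + 1) := by
  classical
  set P : Subgroup (𝓞 K)ˣ := (powMonoidHom p : (𝓞 K)ˣ →* (𝓞 K)ˣ).range with hP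
  set T : Subgroup (𝓞 K)ˣ := torsion K with hT
  set π : (𝓞 K)ˣ →* (𝓞 K)ˣ ⧸ T := QuotientGroup.mk' T with hπ
  set P' : Subgroup ((𝓞 K)ˣ ⧸ T) := (powMonoidHom (α := (𝓞 K)ˣ ⧸ T) p).range with hP'
  have h1 : P'.comap π = P ⊔ T := by
    apply le_antisymm
    · rintro x ⟨y, hy⟩
      obtain ⟨z, rfl⟩ := QuotientGroup.mk'_surjective T y
      have hz : π (z ^ p) = π x := by rw [map_pow]; exact hy
      have hmem : (z ^ p)⁻¹ * x ∈ T := by
        rw [← QuotientGroup.eq]; exact hz
      have : x = z ^ p * ((z ^ p)⁻¹ * x) := by group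
      rw [this]
      exact Subgroup.mul_mem_sup ⟨z, rfl⟩ hmem
    · refine sup_le ?_ ?_
      · rintro _ ⟨z, rfl⟩
        exact ⟨π z, (map_pow π z p).symm⟩
      · intro t ht
        have : π t = 1 := (QuotientGroup.eq_one_iff t).mpr ht
        show π t ∈ P'
        rw [this]; exact P'.one_mem
  have h2 : P'.index = p ^ rank K := by
    have key := AddSubgroup.index_range_nsmul (Additive ((𝓞 K)ˣ ⧸ torsion K)) p
    rw [finrank_modTorsion] at key
    rw [← key, ← Subgroup.index_toAddSubgroup]
    congr 1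
  have h3 : (P ⊔ T).index = p ^ rank K := by
    rw [← h1, Subgroup.index_comap_of_surjective _ (QuotientGroup.mk'_surjective T), h2]
  have h4 : P.relIndex T = p := by
    have hPT : P ⊓ T = T.map (powMonoidHom p) := by
      apply le_antisymm
      · rintro x ⟨⟨y, rfl⟩, hx⟩
        refine ⟨y, ?_, rfl⟩
        -- y ^ p torsion implies y torsion
        have hx' : IsOfFinOrder (y ^ p) := hx
        exact IsOfFinOrder.of_pow hx' hp.out.ne_zero
      · rintro _ ⟨y, hy, rfl⟩
        exact ⟨⟨y, rfl⟩, T.pow_mem hy p⟩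
    rw [← Subgroup.inf_relIndex_right, hPT, Subgroup.relIndex,
      Subgroup.subgroupOf_map_powMonoidHom_eq_range, IsCyclic.index_powMonoidHom_range]
    exact Nat.gcd_eq_right hpT
  rw [← Subgroup.relIndex_mul_index (le_sup_left : P ≤ P ⊔ T), Subgroup.relIndex_sup_left, h3, h4,
    pow_succ, mul_comm]

end UnitsIndex

end Fermat.Agent.FLTReg
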