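import Mathlib
import Fermat.Agent.Lib.FLTReg.KummerCongr
import Fermat.Agent.Lib.FLTReg.KummerExt
import Fermat.Agent.Lib.FLTReg.Hilbert92Count
import Fermat.Agent.Lib.FLTReg.UnitsIndex
import Fermat.Agent.Lib.FLTReg.Hilbert90Int

/-!
# P8 / piece B: Kummer's lemma for a prime `p` with `ℤ[ζ_p]` a PID

If a unit `u` of `ℤ[ζ_p]` is congruent to a rational integer mod `p` then it is a `p`-th power.
Proof: otherwise `L = K(u^(1/p))` is an unramified cyclic extension of degree `p`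
(`KummerExt`); by Hilbert 92 (`Hilbert92Count`, `UnitsIndex`) there is a unit of norm one which is
not of the form `σ ε / ε`, contradicting the integral Hilbert 90 over a PID (`Hilbert90Int`).
-/

set_option autoImplicit false

open NumberField NumberField.Units NumberField.InfinitePlace Polynomial

namespace Fermat.Agent.FLTReg

section Rank

theorem two_mul_rank_add_one (K : Type*) [Field K] [NumberField K] [IsTotallyComplex K] :
    2 * (rank K + 1) = Module.finrank ℚ K := by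
  have h1 : Fintype.card (InfinitePlace K) = nrRealPlaces K + nrComplexPlaces K :=
    card_eq_nrRealPlaces_add_nrComplexPlaces K
  have h2 := IsTotallyComplex.nrRealPlaces_eq_zero K
  have h3 := IsTotallyComplex.finrank K
  have h4 : 0 < Fintype.card (InfinitePlace K) := Fintype.card_pos
  rw [rank]; omega

end Rank

section Galois

variable {K L : Type*} [Field K] [NumberField K] [Field L] [NumberField L] [Algebra K L]
  [IsGalois K L]

theorem prod_smul_eq_algebraMap_intNorm (z : 𝓞 L) :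
    ∏ σ : Gal(L/K), σ • z = algebraMap (𝓞 K) (𝓞 L) (Algebra.intNorm (𝓞 K) (𝓞 L) z) := by
  apply RingOfIntegers.coe_injective
  rw [map_prod, ← IsScalarTower.algebraMap_apply (𝓞 K) (𝓞 L) L,
    IsScalarTower.algebraMap_apply (𝓞 K) K L, Algebra.algebraMap_intNorm (L := L),
    Algebra.norm_eq_prod_automorphisms]
  rfl

theorem prod_univ_eq_prod_range {G : Type*} [Group G] [Fintype G] {M : Type*} [CommMonoid M]
    {g : G} (hg : ∀ x, x ∈ Subgroup.zpowers g) {p : ℕ} (hcard : Nat.card G = p) (f : G → M) :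
    ∏ σ : G, f σ = ∏ i ∈ Finset.range p, f (g ^ i) := by
  classical
  have ho : orderOf g = p := (orderOf_eq_card_of_forall_mem_zpowers hg).trans hcard
  rw [← IsCyclic.image_range_card hg, hcard, Finset.prod_image]
  intro i hi j hj hij
  refine pow_injOn_Iio_orderOf ?_ ?_ hij
  · simpa [ho] using hi
  · simpa [ho] using hj

/-- the action of a Galois automorphism on the units of `𝓞 L` -/
noncomputable def unitsGalMap (σ : Gal(L/K)) : (𝓞 L)ˣ →* (𝓞 L)ˣ :=
  Units.map (MulSemiringAction.toRingHom Gal(L/K) (𝓞 L) σ : 𝓞 L →* 𝓞 L)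

omit [NumberField K] [NumberField L] [IsGalois K L] in
theorem coe_unitsGalMap (σ : Gal(L/K)) (y : (𝓞 L)ˣ) :
    ((unitsGalMap σ y : (𝓞 L)ˣ) : 𝓞 L) = σ • (y : 𝓞 L) := rfl

omit [NumberField K] [NumberField L] [IsGalois K L] in
theorem coe_unitsGalMap_iterate (σ : Gal(L/K)) (i : ℕ) (y : (𝓞 L)ˣ) :
    (((unitsGalMap σ)^[i] y : (𝓞 L)ˣ) : 𝓞 L) = σ ^ i • (y : 𝓞 L) := by
  induction i with
  | zero => simp
  | succ n ih => rw [Function.iterate_succ_apply', coe_unitsGalMap, ih, pow_succ', mul_smul]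

end Galois

section H92

variable {K L : Type*} [Field K] [NumberField K] [Field L] [NumberField L] [Algebra K L]
  [IsGalois K L] {p : ℕ} [hp : Fact p.Prime]

/-- **Hilbert 92** for `L = K(u^(1/p))`, `u` a unit which is not a `p`-th power: there is a unit
of `L` of relative norm one which is not of the form `σ(ε)/ε`. -/
theorem exists_unit_norm_one_not_div [IsTotallyComplex K] {ζ : K} (hζ : IsPrimitiveRoot ζ p)
    (hdeg : Module.finrank K L = p) {σ₀ : Gal(L/K)} (hσ₀ : ∀ x, x ∈ Subgroup.zpowers σ₀)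
    (u : (𝓞 K)ˣ) (α : (𝓞 L)ˣ)
    (hα : α ^ p = Units.map (algebraMap (𝓞 K) (𝓞 L) : 𝓞 K →* 𝓞 L) u)
    (hu : ¬ ∃ v : (𝓞 K)ˣ, v ^ p = u) :
    ∃ η : (𝓞 L)ˣ, ∏ i ∈ Finset.range p, σ₀ ^ i • (η : 𝓞 L) = 1 ∧
      ¬ ∃ ε : (𝓞 L)ˣ, σ₀ • (ε : 𝓞 L) = η * ε := by
  classical
  set ι : (𝓞 K)ˣ →* (𝓞 L)ˣ := Units.map (algebraMap (𝓞 K) (𝓞 L) : 𝓞 K →* 𝓞 L) with hι
  have hιinj : Function.Injective ι :=
    Units.map_injective (FaithfulSMul.algebraMap_injective (𝓞 K) (𝓞 L))
  have hcard : Nat.card Gal(L/K) = p := (IsGalois.card_aut_eq_finrank K L).trans hdeg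
  have hpTK : p ∣ torsionOrder K := dvd_torsionOrder_of_isPrimitiveRoot hζ
  have hpTL : p ∣ torsionOrder L :=
    dvd_torsionOrder_of_isPrimitiveRoot (hζ.map_of_injective (algebraMap K L).injective)
  have : IsTotallyComplex L := isTotallyComplex_of_algebra K L
  have hrank : rank L + 1 = p * (rank K + 1) := by
    have h1 := two_mul_rank_add_one K
    have h2 := two_mul_rank_add_one L
    have h3 := Module.finrank_mul_finrank ℚ K L
    rw [hdeg] at h3
    have : 2 * (rank L + 1) = 2 * (p * (rank K + 1)) := by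
      rw [h2, ← h3, ← h1]; ring
    omega
  have hidxL := index_range_powMonoidHom_units L p hpTL
  have hidxK := index_range_powMonoidHom_units K p hpTK
  have hrel : (ι.range.map (powMonoidHom (α := (𝓞 L)ˣ) p)).relIndex ι.range =
      p ^ (rank K + 1) := by
    have h1 : ι.range = Subgroup.map ι ⊤ := MonoidHom.range_eq_map ι
    have h2 : ι.range.map (powMonoidHom (α := (𝓞 L)ˣ) p) =
        Subgroup.map ι (powMonoidHom (α := (𝓞 K)ˣ) p).range := by
      ext y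
      constructor
      · rintro ⟨_, ⟨a, rfl⟩, rfl⟩
        exact ⟨a ^ p, ⟨a, rfl⟩, map_pow ι a p⟩
      · rintro ⟨_, ⟨a, rfl⟩, rfl⟩
        exact ⟨ι a, ⟨a, rfl⟩, (map_pow ι a p).symm⟩
    rw [h2, h1, Subgroup.relIndex_map_map_of_injective _ _ hιinj, Subgroup.relIndex_top_right,
      hidxK]
  obtain ⟨x, hx1, hx2⟩ := hilbert92_count_mul p (unitsGalMap σ₀) ι.range
    (by
      rintro _ ⟨a, rfl⟩
      apply Units.ext
      rw [coe_unitsGalMap]
      exact smul_algebraMap_ringOfIntegers σ₀ (a : 𝓞 K))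
    (by
      intro y
      have hunit : IsUnit (Algebra.intNorm (𝓞 K) (𝓞 L) (y : 𝓞 L)) := y.isUnit.map _
      refine ⟨hunit.unit, ?_⟩
      apply Units.ext
      rw [Units.coe_prod]
      simp only [coe_unitsGalMap_iterate]
      rw [← prod_univ_eq_prod_range hσ₀ hcard (fun σ => σ • (y : 𝓞 L)),
        prod_smul_eq_algebraMap_intNorm]
      rfl)
    (by rw [hidxL]; exact pow_ne_zero _ hp.out.ne_zero)
    (by rw [hrel]; exact pow_ne_zero _ hp.out.ne_zero)
    (by rw [hrel, hidxL, hrank, ← pow_mul, mul_comm])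
    (u := ι u) ⟨u, rfl⟩ ⟨α, hα⟩
    (by
      rintro ⟨_, ⟨v, rfl⟩, hv⟩
      apply hu
      refine ⟨v, hιinj ?_⟩
      rw [map_pow]; exact hv)
  refine ⟨x, ?_, ?_⟩
  · have := congrArg (fun y : (𝓞 L)ˣ => (y : 𝓞 L)) hx1
    simp only [Units.coe_prod, coe_unitsGalMap_iterate, Units.val_one] at this
    exact this
  · rintro ⟨ε, hε⟩
    apply hx2
    refine ⟨ε, ?_⟩
    rw [div_eq_iff_eq_mul]
    apply Units.ext
    rw [coe_unitsGalMap, hε, Units.val_mul]

end H92

section Final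

open IsCyclotomicExtension.Rat in
/-- The core of Kummer's lemma: a unit of `ℤ[ζ_p]` (class number one) which is `≡ 1 mod p` is a
`p`-th power. -/
theorem kummer_lemma_aux {p : ℕ} [hp : Fact p.Prime] (hp2 : p ≠ 2) {K : Type} [Field K]
    [NumberField K] [IsCyclotomicExtension {p} ℚ K] [IsPrincipalIdealRing (𝓞 K)]
    (x : (𝓞 K)ˣ) (h : (p : 𝓞 K) ∣ (x : 𝓞 K) - 1) : ∃ v : (𝓞 K)ˣ, v ^ p = x := by
  classical
  by_contra hne
  have hζ := IsCyclotomicExtension.zeta_spec p ℚ K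
  set lam : 𝓞 K := hζ.toInteger - 1 with hlam
  have hlamprime : Prime lam := hζ.zeta_sub_one_prime'
  obtain ⟨ε, hε⟩ := exists_unit_zeta_sub_one_pow_mul hζ
  -- `x ≡ 1 mod λ^p`
  obtain ⟨c, hc⟩ := mul_zeta_sub_one_dvd_unit_sub_one hζ hp2 x h
  have hw : (x : 𝓞 K) - 1 = lam ^ p * ((ε : 𝓞 K) * c) := by
    have h3 : lam ^ p = lam ^ (p - 1) * lam := by
      rw [← pow_succ, Nat.sub_add_cancel hp.out.one_le]
    rw [hc, ← hε, h3]; ring
  -- `x` is not a `p`-th power in `K`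
  have hK : ∀ b : K, b ^ p ≠ ((x : 𝓞 K) : K) := by
    intro b hb
    have hbint : IsIntegral ℤ b := by
      refine IsIntegral.of_pow hp.out.pos ?_
      rw [hb]; exact (x : 𝓞 K).isIntegral_coe
    let b' : 𝓞 K := ⟨b, hbint⟩
    have hb' : b' ^ p = (x : 𝓞 K) := by
      apply RingOfIntegers.coe_injective
      rw [map_pow]; exact hb
    have hunit : IsUnit b' := by
      rw [← isUnit_pow_iff hp.out.ne_zero, hb']; exact x.isUnit
    exact hne ⟨hunit.unit, Units.ext (by rw [Units.val_pow_eq_pow_val]; exact hb')⟩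
  have hirr : Irreducible (X ^ p - C ((x : 𝓞 K) : K)) :=
    X_pow_sub_C_irreducible_of_prime hp.out hK
  have hprim : (primitiveRoots p K).Nonempty :=
    ⟨_, (mem_primitiveRoots hp.out.pos).mpr hζ⟩
  -- the Kummer extension
  let L := (X ^ p - C ((x : 𝓞 K) : K)).SplittingField
  have : NumberField L := NumberField.of_module_finite K L
  have : IsGalois K L := isGalois_of_isSplittingField_X_pow_sub_C hprim hirr L
  have : IsCyclic Gal(L/K) := isCyclic_of_isSplittingField_X_pow_sub_C hprim hirr L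
  have hdeg : Module.finrank K L = p := finrank_of_isSplittingField_X_pow_sub_C hprim hirr L
  obtain ⟨σ₀, hσ₀⟩ := IsCyclic.exists_generator (α := Gal(L/K))
  -- the root
  set α₀ : L := rootOfSplitsXPowSubC hp.out.pos ((x : 𝓞 K) : K) L with hα₀
  have hα₀p : α₀ ^ p = algebraMap K L ((x : 𝓞 K) : K) := rootOfSplitsXPowSubC_pow _ L
  have hα₀int : IsIntegral ℤ α₀ := by
    refine IsIntegral.of_pow hp.out.pos ?_
    rw [hα₀p]
    exact ((x : 𝓞 K).isIntegral_coe).algebraMap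
  let α : 𝓞 L := ⟨α₀, hα₀int⟩
  have hαp : α ^ p = algebraMap (𝓞 K) (𝓞 L) (x : 𝓞 K) := by
    apply RingOfIntegers.coe_injective
    rw [map_pow, ← IsScalarTower.algebraMap_apply (𝓞 K) (𝓞 L) L,
      IsScalarTower.algebraMap_apply (𝓞 K) K L]
    exact hα₀p
  have hαK : (α : L) ∉ Set.range (algebraMap K L) := by
    rintro ⟨b, hb⟩
    apply hK b
    apply (algebraMap K L).injective
    rw [map_pow, hb]; exact hα₀p
  have hdiff : differentIdeal (𝓞 K) (𝓞 L) = ⊤ :=
    differentIdeal_eq_top_of_kummer (lam := lam) (e := ε) (w := (ε : 𝓞 K) * c) (u := x)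
      hlamprime.ne_zero hε ε.isUnit hw hdeg hαp hαK
  -- Hilbert 92
  have hαunit : IsUnit α := by
    rw [← isUnit_pow_iff hp.out.ne_zero, hαp]; exact x.isUnit.map _
  have : IsTotallyComplex K := isTotallyComplex K (n := p) (by
    have := hp.out.two_le; omega)
  obtain ⟨η, hη1, hη2⟩ := exists_unit_norm_one_not_div hζ hdeg hσ₀ x hαunit.unit
    (Units.ext (by
      rw [Units.val_pow_eq_pow_val, IsUnit.unit_spec, hαp]; rfl)) hne
  -- Hilbert 90
  have hnorm : Algebra.norm K ((η : 𝓞 L) : L) = 1 := by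
    apply (algebraMap K L).injective
    rw [map_one, Algebra.norm_eq_prod_automorphisms]
    have hcard : Nat.card Gal(L/K) = p := (IsGalois.card_aut_eq_finrank K L).trans hdeg
    have h1 := prod_univ_eq_prod_range hσ₀ hcard (fun σ => σ • (η : 𝓞 L))
    rw [hη1] at h1
    have h2 := congrArg (algebraMap (𝓞 L) L) h1
    rw [map_prod, map_one] at h2
    exact h2
  obtain ⟨ε', hε'⟩ := exists_unit_of_norm_eq_one hdiff hσ₀ η hnorm
  apply hη2
  refine ⟨ε'⁻¹, ?_⟩
  -- `η * σ₀ ε' = ε'` gives `σ₀ ε'⁻¹ = η * ε'⁻¹`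
  have h1 : (σ₀ • (ε' : 𝓞 L)) * (σ₀ • ((ε'⁻¹ : (𝓞 L)ˣ) : 𝓞 L)) = 1 := by
    rw [← smul_mul', Units.mul_inv, smul_one]
  have h2 : (ε' : 𝓞 L) * ((ε'⁻¹ : (𝓞 L)ˣ) : 𝓞 L) = 1 := Units.mul_inv ε'
  have h3 : σ₀ • (ε' : 𝓞 L) ≠ 0 := left_ne_zero_of_mul_eq_one h1
  apply mul_left_cancel₀ h3
  rw [h1]
  calc (1 : 𝓞 L) = (ε' : 𝓞 L) * ((ε'⁻¹ : (𝓞 L)ˣ) : 𝓞 L) := h2.symm
    _ = (η : 𝓞 L) * σ₀ • (ε' : 𝓞 L) * ((ε'⁻¹ : (𝓞 L)ˣ) : 𝓞 L) := by rw [hε']
    _ = _ := by ring

end Final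

section Statement

/-- **Kummer's lemma** for a prime `p` with `ℤ[ζ_p]` a principal ideal domain: a unit congruent to
a rational integer modulo `p` is a `p`-th power. -/
theorem kummer_lemma_of_pid {p : ℕ} [hp : Fact p.Prime] (hp2 : p ≠ 2) {K : Type} [Field K]
    [NumberField K] [IsCyclotomicExtension {p} ℚ K] [IsPrincipalIdealRing (𝓞 K)]
    (u : (𝓞 K)ˣ) (n : ℤ) (h : (p : 𝓞 K) ∣ (u : 𝓞 K) - n) : ∃ v : (𝓞 K)ˣ, u = v ^ p := by
  have hζ := IsCyclotomicExtension.zeta_spec p ℚ K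
  have hlamprime : Prime (hζ.toInteger - 1) := hζ.zeta_sub_one_prime'
  have hlamdvd : hζ.toInteger - 1 ∣ (p : 𝓞 K) := hζ.toInteger_sub_one_dvd_prime'
  have hpn : ¬ (p : ℤ) ∣ n := by
    intro hd
    have h1 : (p : 𝓞 K) ∣ (n : 𝓞 K) := by
      obtain ⟨m, rfl⟩ := hd
      exact ⟨m, by push_cast; ring⟩
    have h2 : (p : 𝓞 K) ∣ (u : 𝓞 K) := by
      have := dvd_add h h1
      rwa [sub_add_cancel] at this
    have h3 : IsUnit (hζ.toInteger - 1) := isUnit_of_dvd_unit (hlamdvd.trans h2) u.isUnit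
    exact hlamprime.not_isUnit h3
  have hcop : IsCoprime n (p : ℤ) :=
    ((Nat.prime_iff_prime_int.mp hp.out).coprime_iff_not_dvd.mpr hpn).symm
  have hflt : n ^ (p - 1) ≡ 1 [ZMOD p] := Int.ModEq.pow_card_sub_one_eq_one hp.out hcop
  have h4 : (p : 𝓞 K) ∣ ((n : 𝓞 K)) ^ (p - 1) - 1 := by
    obtain ⟨m, hm⟩ := hflt.symm.dvd
    refine ⟨m, ?_⟩
    have := congrArg (Int.cast : ℤ → 𝓞 K) hm
    push_cast at this
    exact this
  have h5 : (p : 𝓞 K) ∣ (u : 𝓞 K) ^ (p - 1) - (n : 𝓞 K) ^ (p - 1) :=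
    h.trans (sub_dvd_pow_sub_pow _ _ _)
  have h6 : (p : 𝓞 K) ∣ ((u ^ (p - 1) : (𝓞 K)ˣ) : 𝓞 K) - 1 := by
    rw [Units.val_pow_eq_pow_val]
    have := dvd_add h5 h4
    rwa [sub_add_sub_cancel] at this
  obtain ⟨v, hv⟩ := kummer_lemma_aux hp2 (u ^ (p - 1)) h6
  refine ⟨u / v, ?_⟩
  have hup : u ^ p = u * u ^ (p - 1) := by
    rw [← pow_succ', Nat.sub_add_cancel hp.out.one_le]
  rw [div_pow, hv, hup, mul_div_cancel_right]

end Statement

end Fermat.Agent.FLTReg
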