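import Mathlib

/-!
# P8 (FLT for small regular primes), piece D: auxiliary lemmas for class number one  (helper4)

* the group ring `ℤ[C_n]` as functions `Fin n → ℤ` with cyclic convolution `gConv`, dilations
  `gDil`, evaluation `gEval ζ` at an `n`-th root of unity, and the "norm vector" `gNormVec`;
* `natAbs_norm_gEval`: if `gNormVec a = (c + q, c, …, c)` then `|N(gEval ζ a)| = |q|` in `ℚ(ζ_n)`;
* `exists_isPrincipal_mem_primesOver_of_absNorm`: an element of norm `q ^ f` generates a prime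
  over `q`.
-/

set_option autoImplicit false
set_option linter.unusedSectionVars false

namespace Fermat.Agent.FLTReg

open Finset

section GroupRing

variable {n : ℕ} [NeZero n]

/-- cyclic convolution on `Fin n → ℤ` -/
def gConv (a b : Fin n → ℤ) : Fin n → ℤ :=
  fun k => ∑ i : Fin n, a i * b (k - i)

/-- dilation: `(gDil k a) j = ∑_{i : k * i = j} a i` -/
def gDil (k : Fin n) (a : Fin n → ℤ) : Fin n → ℤ :=
  fun j => ∑ i : Fin n, if k * i = j then a i else 0

/-- the unit of the group ring -/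
def gOne : Fin n → ℤ := fun i => if i = 0 then 1 else 0

/-- product of all dilations `k = 1, …, n - 1` -/
def gNormVec (a : Fin n → ℤ) : Fin n → ℤ :=
  ((List.range (n - 1)).map fun k => gDil (Fin.ofNat n (k + 1)) a).foldl gConv gOne

variable {R : Type*} [CommRing R]

/-- evaluation of a group ring element at `ζ` -/
def gEval (ζ : R) (a : Fin n → ℤ) : R := ∑ i : Fin n, (a i : R) * ζ ^ (i : ℕ)

theorem pow_fin_add {ζ : R} (hζ : ζ ^ n = 1) (i j : Fin n) :
    ζ ^ ((i + j : Fin n) : ℕ) = ζ ^ (i : ℕ) * ζ ^ (j : ℕ) := by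
  rw [Fin.val_add, ← pow_eq_pow_mod _ hζ, pow_add]

theorem pow_fin_mul {ζ : R} (hζ : ζ ^ n = 1) (i j : Fin n) :
    ζ ^ ((i * j : Fin n) : ℕ) = (ζ ^ (i : ℕ)) ^ (j : ℕ) := by
  rw [Fin.val_mul, ← pow_eq_pow_mod _ hζ, pow_mul]

theorem gEval_gOne (ζ : R) : gEval ζ (gOne : Fin n → ℤ) = 1 := by
  unfold gEval gOne
  rw [Finset.sum_eq_single (0 : Fin n)]
  · simp
  · intro i _ hi
    simp [hi]
  · intro h
    exact absurd (Finset.mem_univ _) h

theorem gEval_gConv {ζ : R} (hζ : ζ ^ n = 1) (a b : Fin n → ℤ) :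
    gEval ζ (gConv a b) = gEval ζ a * gEval ζ b := by
  unfold gEval gConv
  rw [Finset.sum_mul_sum]
  simp only [Int.cast_sum, Int.cast_mul, Finset.sum_mul]
  rw [Finset.sum_comm]
  refine Finset.sum_congr rfl fun i _ => ?_
  -- reindex `k = j + i`
  rw [← Equiv.sum_comp (Equiv.addRight i)]
  refine Finset.sum_congr rfl fun j _ => ?_
  simp only [Equiv.coe_addRight, add_sub_cancel_right]
  rw [pow_fin_add hζ]
  ring

theorem gEval_gDil {ζ : R} (hζ : ζ ^ n = 1) (k : Fin n) (a : Fin n → ℤ) :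
    gEval ζ (gDil k a) = gEval (ζ ^ (k : ℕ)) a := by
  unfold gEval gDil
  simp only [Int.cast_sum, Finset.sum_mul]
  rw [Finset.sum_comm]
  refine Finset.sum_congr rfl fun i _ => ?_
  rw [Finset.sum_eq_single (k * i)]
  · rw [if_pos rfl, pow_fin_mul hζ]
  · intro j _ hj
    rw [if_neg (Ne.symm hj)]
    simp
  · intro h
    exact absurd (Finset.mem_univ _) h

theorem gEval_foldl_gConv {ζ : R} (hζ : ζ ^ n = 1) (l : List (Fin n → ℤ)) (b : Fin n → ℤ) :
    gEval ζ (l.foldl gConv b) = gEval ζ b * (l.map (gEval ζ)).prod := by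
  induction l generalizing b with
  | nil => simp
  | cons x l ih =>
    rw [List.foldl_cons, ih, gEval_gConv hζ, List.map_cons, List.prod_cons, mul_assoc]

theorem gEval_gNormVec {ζ : R} (hζ : ζ ^ n = 1) (a : Fin n → ℤ) :
    gEval ζ (gNormVec a) = ((List.range (n - 1)).map fun k => gEval (ζ ^ (k + 1)) a).prod := by
  unfold gNormVec
  rw [gEval_foldl_gConv hζ, gEval_gOne, one_mul, List.map_map]
  congr 1
  refine List.map_congr_left fun k hk => ?_
  rw [Function.comp_apply, gEval_gDil hζ]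
  congr 2
  rw [List.mem_range] at hk
  show (k + 1) % n = k + 1
  exact Nat.mod_eq_of_lt (by omega)

/-- ring homomorphisms commute with evaluation -/
theorem map_gEval {S : Type*} [CommRing S] (φ : R →+* S) (ζ : R) (a : Fin n → ℤ) :
    φ (gEval ζ a) = gEval (φ ζ) a := by
  unfold gEval
  rw [map_sum]
  refine Finset.sum_congr rfl fun i _ => ?_
  rw [map_mul, map_intCast, map_pow]

/-- a vector which is constant off `0` evaluates to a constant at a root of `1 + X + ⋯` -/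
theorem gEval_of_const {ζ : R} (hsum : ∑ i ∈ Finset.range n, ζ ^ i = 0) (c q : ℤ)
    (v : Fin n → ℤ) (hv : ∀ j, v j = if j = 0 then c + q else c) : gEval ζ v = (q : R) := by
  unfold gEval
  have h1 : ∀ i : Fin n, (v i : R) * ζ ^ (i : ℕ) =
      (c : R) * ζ ^ (i : ℕ) + (if i = 0 then (q : R) else 0) := by
    intro i
    rw [hv i]
    split_ifs with h
    · subst h
      simp
    · simp
  rw [Finset.sum_congr rfl fun i _ => h1 i, Finset.sum_add_distrib, ← Finset.mul_sum,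
    Fin.sum_univ_eq_sum_range (fun i => ζ ^ i) n, hsum, mul_zero, zero_add]
  simp

end GroupRing

section NormComputation

open NumberField Polynomial

variable {n : ℕ} [hn : Fact n.Prime] {K : Type*} [Field K] [NumberField K]
  [IsCyclotomicExtension {n} ℚ K] {ζ : K} (hζ : IsPrimitiveRoot ζ n)

instance neZero_of_fact_prime : NeZero n := ⟨hn.out.ne_zero⟩

include hζ

/-- Galois automorphisms `ζ ↦ ζ ^ k` for `k` prime to `n`. -/
theorem exists_algEquiv_zeta_pow (k : ℕ) (hk : k.Coprime n) :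
    ∃ σ : K ≃ₐ[ℚ] K, σ ζ = ζ ^ k := by
  have hirr : Irreducible (cyclotomic n ℚ) := cyclotomic.irreducible_rat hn.out.pos
  have hζk : IsPrimitiveRoot (ζ ^ k) n := hζ.pow_of_coprime k hk
  have hmin : minpoly ℚ (hζ.powerBasis ℚ).gen = minpoly ℚ (hζk.powerBasis ℚ).gen := by
    rw [IsPrimitiveRoot.powerBasis_gen, IsPrimitiveRoot.powerBasis_gen,
      ← hζ.minpoly_eq_cyclotomic_of_irreducible hirr,
      ← hζk.minpoly_eq_cyclotomic_of_irreducible hirr]
  refine ⟨(hζ.powerBasis ℚ).equivOfMinpoly (hζk.powerBasis ℚ) hmin, ?_⟩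
  have h := (hζ.powerBasis ℚ).equivOfMinpoly_gen (hζk.powerBasis ℚ) hmin
  have h1 : (hζ.powerBasis ℚ).gen = ζ := hζ.powerBasis_gen ℚ
  have h2 : (hζk.powerBasis ℚ).gen = ζ ^ k := hζk.powerBasis_gen ℚ
  calc ((hζ.powerBasis ℚ).equivOfMinpoly (hζk.powerBasis ℚ) hmin) ζ
      = ((hζ.powerBasis ℚ).equivOfMinpoly (hζk.powerBasis ℚ) hmin) (hζ.powerBasis ℚ).gen :=
        congrArg _ h1.symm
    _ = (hζk.powerBasis ℚ).gen := h
    _ = ζ ^ k := h2

/-- conjugates have the same norm -/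
theorem norm_gEval_zeta_pow (a : Fin n → ℤ) (k : ℕ) (hk : k.Coprime n) :
    Algebra.norm ℚ (gEval (ζ ^ k) a) = Algebra.norm ℚ (gEval ζ a) := by
  obtain ⟨σ, hσ⟩ := exists_algEquiv_zeta_pow hζ k hk
  have h1 : gEval (ζ ^ k) a = σ (gEval ζ a) := by
    rw [← hσ]
    exact (map_gEval (σ : K →+* K) ζ a).symm
  rw [h1, Algebra.norm_eq_of_algEquiv]

/-- **Norm from the norm vector (rational form).** -/
theorem norm_gEval_pow (a : Fin n → ℤ) (c q : ℤ)
    (hv : ∀ j, gNormVec a j = if j = 0 then c + q else c) :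
    Algebra.norm ℚ (gEval ζ a) ^ (n - 1) = (q : ℚ) ^ (n - 1) := by
  have hζn : ζ ^ n = 1 := hζ.pow_eq_one
  have hsum : ∑ i ∈ Finset.range n, ζ ^ i = 0 := hζ.geom_sum_eq_zero hn.out.one_lt
  have h1 : gEval ζ (gNormVec a) = (q : K) := gEval_of_const hsum c q _ hv
  have h2 := gEval_gNormVec hζn a
  rw [h1] at h2
  have h3 := congrArg (Algebra.norm ℚ) h2
  rw [map_list_prod, List.map_map] at h3
  have h4 : ∀ k ∈ List.range (n - 1),
      ((Algebra.norm ℚ) ∘ fun k => gEval (ζ ^ (k + 1)) a) k = Algebra.norm ℚ (gEval ζ a) := by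
    intro k hk
    rw [List.mem_range] at hk
    rw [Function.comp_apply]
    refine norm_gEval_zeta_pow hζ a (k + 1) ?_
    exact (Nat.coprime_of_lt_prime (Nat.succ_ne_zero k) (by omega) hn.out).symm
  rw [List.prod_eq_pow_card _ _ (by
    intro x hx
    rw [List.mem_map] at hx
    obtain ⟨k, hk, rfl⟩ := hx
    exact h4 k hk), List.length_map, List.length_range] at h3
  rw [← h3]
  have h5 : (q : K) = algebraMap ℚ K (q : ℚ) := by simp
  rw [h5, Algebra.norm_algebraMap, IsCyclotomicExtension.finrank K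
    (cyclotomic.irreducible_rat hn.out.pos), Nat.totient_prime hn.out]

/-- **Norm from the norm vector (integral form).** -/
theorem natAbs_norm_gEval_toInteger (a : Fin n → ℤ) (c q : ℤ)
    (hv : ∀ j, gNormVec a j = if j = 0 then c + q else c) :
    (Algebra.norm ℤ (gEval hζ.toInteger a)).natAbs = q.natAbs := by
  have h1 := norm_gEval_pow hζ a c q hv
  have h2 : ((gEval hζ.toInteger a : 𝓞 K) : K) = gEval ζ a := by
    exact map_gEval (algebraMap (𝓞 K) K) hζ.toInteger a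
  rw [← h2, ← Algebra.coe_norm_int] at h1
  have h3 : (Algebra.norm ℤ (gEval hζ.toInteger a)) ^ (n - 1) = q ^ (n - 1) := by
    exact_mod_cast h1
  have h4 := congrArg Int.natAbs h3
  rw [Int.natAbs_pow, Int.natAbs_pow] at h4
  exact Nat.pow_left_injective (by have := hn.out.two_le; omega) h4

theorem absNorm_span_gEval_toInteger (a : Fin n → ℤ) (c q : ℤ)
    (hv : ∀ j, gNormVec a j = if j = 0 then c + q else c) :
    Ideal.absNorm (Ideal.span {gEval hζ.toInteger a}) = q.natAbs := by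
  rw [Ideal.absNorm_span_singleton, natAbs_norm_gEval_toInteger hζ a c q hv]

end NormComputation

section Primes

open NumberField Ideal

variable {n : ℕ} [hn : Fact n.Prime] (K : Type*) [Field K] [NumberField K]
  [IsCyclotomicExtension {n} ℚ K]

/-- A prime ideal containing the prime number `q` lies over `q`. -/
theorem liesOver_span_of_mem {q : ℕ} (hq : q.Prime) (P : Ideal (𝓞 K)) [hP : P.IsPrime]
    (hqP : (q : 𝓞 K) ∈ P) : P.LiesOver (span {(q : ℤ)}) := by
  constructor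
  have hmax : (span {(q : ℤ)}).IsMaximal :=
    (PrincipalIdealRing.isMaximal_of_irreducible
      (Nat.prime_iff_prime_int.mp hq).irreducible)
  refine hmax.eq_of_le (Ideal.IsPrime.ne_top (Ideal.IsPrime.under ℤ P)) ?_
  rw [span_singleton_le_iff_mem, Ideal.under_def, Ideal.mem_comap]
  simpa using hqP

/-- An element whose norm is `q ^ f`, where `f` is the order of `q` modulo `n`, generates a prime
ideal above `q`. -/
theorem exists_isPrincipal_mem_primesOver_of_absNorm {q : ℕ} (hq : q.Prime) (hqn : q ≠ n)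
    (α : 𝓞 K) (hα : absNorm (span {α}) = q ^ orderOf (q : ZMod n)) :
    ∃ P ∈ primesOver (span {(q : ℤ)}) (𝓞 K), Submodule.IsPrincipal P := by
  have : Fact q.Prime := ⟨hq⟩
  have hqn' : ¬ q ∣ n := fun h => hqn ((Nat.prime_dvd_prime_iff_eq hq hn.out).mp h)
  have hf : 0 < orderOf (q : ZMod n) := by
    have : NeZero n := ⟨hn.out.ne_zero⟩
    apply orderOf_pos_iff.mpr
    have hunit : IsUnit (q : ZMod n) :=
      (ZMod.isUnit_iff_coprime q n).mpr ((Nat.coprime_primes hq hn.out).mpr hqn)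
    exact hunit.isOfFinOrder
  have hne_top : span {α} ≠ (⊤ : Ideal (𝓞 K)) := by
    intro htop
    rw [← absNorm_eq_one_iff, hα] at htop
    exact (Nat.one_lt_pow hf.ne' hq.one_lt).ne' htop
  obtain ⟨P, hPmax, hle⟩ := Ideal.exists_le_maximal _ hne_top
  have hPprime : P.IsPrime := hPmax.isPrime
  have hqP : (q : 𝓞 K) ∈ P := by
    have h1 : ((absNorm (span {α}) : ℕ) : 𝓞 K) ∈ P := hle (absNorm_mem _)
    rw [hα, Nat.cast_pow] at h1
    exact hPprime.mem_of_pow_mem _ h1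
  have hlies : P.LiesOver (span {(q : ℤ)}) := liesOver_span_of_mem K hq P hqP
  have hfP : inertiaDeg P ℤ = orderOf (q : ZMod n) :=
    IsCyclotomicExtension.Rat.inertiaDeg_eq_of_not_dvd q K P hqn'
  have hnormP : absNorm P = q ^ orderOf (q : ZMod n) := by
    rw [← hfP]
    exact (Ideal.pow_inertiaDeg q P).symm
  -- `span {α} ≤ P` with the same norm, hence equal
  have hαne : span {α} ≠ (⊥ : Ideal (𝓞 K)) := by
    intro h
    rw [h, absNorm_bot] at hα
    exact (pow_pos hq.pos _).ne hα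
  obtain ⟨J, hJ⟩ := Ideal.dvd_iff_le.mpr hle
  have hJnorm : absNorm J = 1 := by
    have h1 := congrArg absNorm hJ
    rw [map_mul, hα, hnormP] at h1
    have hpos : 0 < q ^ orderOf (q : ZMod n) := pow_pos hq.pos _
    exact (Nat.eq_of_mul_eq_mul_left hpos (by rw [mul_one]; exact h1)).symm
  rw [absNorm_eq_one_iff] at hJnorm
  rw [hJnorm, Ideal.mul_top] at hJ
  exact ⟨P, ⟨hPprime, hlies⟩, hJ ▸ ⟨⟨α, rfl⟩⟩⟩

/-- If no power `q ^ m ≤ B` is `≡ 1 mod n`, every prime above `q` has norm `> B`. -/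
theorem exists_mem_primesOver_lt {q : ℕ} (hq : q.Prime) (hqn : q ≠ n) (B : ℕ)
    (hgood : ∀ m, 0 < m → q ^ m ≤ B → q ^ m % n ≠ 1) :
    ∃ P ∈ primesOver (span {(q : ℤ)}) (𝓞 K), B < q ^ P.inertiaDeg ℤ := by
  have : Fact q.Prime := ⟨hq⟩
  have hqn' : ¬ q ∣ n := fun h => hqn ((Nat.prime_dvd_prime_iff_eq hq hn.out).mp h)
  have hprime : (span {(q : ℤ)}).IsPrime :=
    (Ideal.span_singleton_prime (by exact_mod_cast hq.ne_zero)).mpr
      (Nat.prime_iff_prime_int.mp hq)
  obtain ⟨⟨P, hP1, hP2⟩⟩ := (span {(q : ℤ)}).nonempty_primesOver (S := 𝓞 K)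
  refine ⟨P, ⟨hP1, hP2⟩, ?_⟩
  rw [IsCyclotomicExtension.Rat.inertiaDeg_eq_of_not_dvd q K P hqn']
  by_contra hle
  rw [not_lt] at hle
  have hf : 0 < orderOf (q : ZMod n) := by
    have : NeZero n := ⟨hn.out.ne_zero⟩
    apply orderOf_pos_iff.mpr
    have hunit : IsUnit (q : ZMod n) :=
      (ZMod.isUnit_iff_coprime q n).mpr ((Nat.coprime_primes hq hn.out).mpr hqn)
    exact hunit.isOfFinOrder
  refine hgood _ hf hle ?_
  have h1 : ((q ^ orderOf (q : ZMod n) : ℕ) : ZMod n) = ((1 : ℕ) : ZMod n) := by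
    rw [Nat.cast_pow, pow_orderOf_eq_one, Nat.cast_one]
  rw [ZMod.natCast_eq_natCast_iff'] at h1
  rw [h1, Nat.mod_eq_of_lt hn.out.one_lt]

/-- The prime above `n` in `ℚ(ζ_n)` is principal. -/
theorem exists_isPrincipal_mem_primesOver_self :
    ∃ P ∈ primesOver (span {(n : ℤ)}) (𝓞 K), Submodule.IsPrincipal P := by
  have hζ := IsCyclotomicExtension.zeta_spec n ℚ K
  have hK : IsCyclotomicExtension {n ^ (0 + 1)} ℚ K := by
    rw [zero_add, pow_one]; infer_instance
  have hζ' : IsPrimitiveRoot (IsCyclotomicExtension.zeta n ℚ K) (n ^ (0 + 1)) := by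
    rw [zero_add, pow_one]; exact hζ
  exact ⟨span {hζ'.toInteger - 1},
    ⟨IsCyclotomicExtension.Rat.isPrime_span_zeta_sub_one n 0 hζ',
      IsCyclotomicExtension.Rat.liesOver_span_zeta_sub_one n 0 hζ'⟩, ⟨⟨_, rfl⟩⟩⟩

open Real Module Nat in
/-- **Class number one criterion** for `ℚ(ζ_n)`, `n` prime: `B` is an upper bound for the Minkowski
bound, and every prime `q ≤ B`, `q ≠ n` either has no power `q ^ m ≤ B` with `q ^ m ≡ 1 mod n`, or
admits an element of norm `q ^ f`. -/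
theorem isPrincipalIdealRing_of_forall_prime_le (B : ℕ)
    (hM : ⌊(4 / π) ^ InfinitePlace.nrComplexPlaces K *
      ((finrank ℚ K)! / (finrank ℚ K) ^ (finrank ℚ K) * √|discr K|)⌋₊ ≤ B)
    (h : ∀ q : ℕ, q.Prime → q ≤ B → q ≠ n →
      (∀ m, 0 < m → q ^ m ≤ B → q ^ m % n ≠ 1) ∨
      ∃ α : 𝓞 K, absNorm (span {α}) = q ^ orderOf (q : ZMod n)) :
    IsPrincipalIdealRing (𝓞 K) := by
  have : IsGalois ℚ K := IsCyclotomicExtension.isGalois {n} ℚ K
  refine RingOfIntegers.isPrincipalIdealRing_of_isPrincipal_of_lt_or_isPrincipal_of_mem_primesOver_of_mem_Icc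
    fun q hq hqprime => ?_
  have hqB : q ≤ B := (Finset.mem_Icc.mp hq).2.trans hM
  by_cases hqn : q = n
  · subst hqn
    obtain ⟨P, hP, hprinc⟩ := exists_isPrincipal_mem_primesOver_self K (n := q)
    exact ⟨P, hP, Or.inr hprinc⟩
  · rcases h q hqprime hqB hqn with hgood | ⟨α, hα⟩
    · obtain ⟨P, hP, hlt⟩ := exists_mem_primesOver_lt K hqprime hqn B hgood
      exact ⟨P, hP, Or.inl (lt_of_le_of_lt hM hlt)⟩
    · obtain ⟨P, hP, hprinc⟩ := exists_isPrincipal_mem_primesOver_of_absNorm K hqprime hqn α hα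
      exact ⟨P, hP, Or.inr hprinc⟩

open Real Module Nat in
/-- An explicit upper bound for the Minkowski bound of `ℚ(ζ_n)`, `n` an odd prime. -/
theorem minkowski_floor_le (B : ℕ) (s : ℝ) (hs0 : 0 < s) (hs : (n : ℝ) ^ (n - 2) < s ^ 2)
    (hnum : (4 / 3.1415 : ℝ) ^ ((n - 1) / 2) *
      (((n - 1)! : ℝ) / ((n - 1 : ℕ) : ℝ) ^ (n - 1) * s) < B + 1) :
    ⌊(4 / π) ^ InfinitePlace.nrComplexPlaces K *
      ((finrank ℚ K)! / (finrank ℚ K) ^ (finrank ℚ K) * √|discr K|)⌋₊ ≤ B := by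
  have hfin : finrank ℚ K = n - 1 := by
    rw [IsCyclotomicExtension.finrank K (Polynomial.cyclotomic.irreducible_rat hn.out.pos),
      Nat.totient_prime hn.out]
  have hr2 : InfinitePlace.nrComplexPlaces K = (n - 1) / 2 := by
    rw [IsCyclotomicExtension.Rat.nrComplexPlaces_eq_totient_div_two n, Nat.totient_prime hn.out]
  have hdisc : |((discr K : ℤ) : ℝ)| = (n : ℝ) ^ (n - 2) := by
    rw [IsCyclotomicExtension.Rat.discr_prime n K]
    push_cast
    rw [abs_mul, abs_pow, abs_neg, abs_one, one_pow, one_mul, abs_pow, Nat.abs_cast]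
  rw [hfin, hr2, hdisc]
  apply Nat.le_of_lt_succ
  rw [Nat.floor_lt (by positivity)]
  push_cast
  have hsqrt : √((n : ℝ) ^ (n - 2)) < s := by
    rw [Real.sqrt_lt' hs0]
    exact hs
  have hpi : (4 / π : ℝ) ≤ 4 / 3.1415 := by
    apply div_le_div_of_nonneg_left (by norm_num) (by norm_num)
    exact Real.pi_gt_d4.le
  have h1 : (4 / π : ℝ) ^ ((n - 1) / 2) ≤ (4 / 3.1415 : ℝ) ^ ((n - 1) / 2) :=
    pow_le_pow_left₀ (by positivity) hpi _
  have h2 : ((n - 1)! : ℝ) / ((n - 1 : ℕ) : ℝ) ^ (n - 1) * √((n : ℝ) ^ (n - 2)) ≤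
      ((n - 1)! : ℝ) / ((n - 1 : ℕ) : ℝ) ^ (n - 1) * s :=
    mul_le_mul_of_nonneg_left hsqrt.le (by positivity)
  calc (4 / π : ℝ) ^ ((n - 1) / 2) *
        (((n - 1)! : ℝ) / ((n - 1 : ℕ) : ℝ) ^ (n - 1) * √((n : ℝ) ^ (n - 2)))
      ≤ (4 / 3.1415 : ℝ) ^ ((n - 1) / 2) *
        (((n - 1)! : ℝ) / ((n - 1 : ℕ) : ℝ) ^ (n - 1) * s) :=
        mul_le_mul h1 h2 (by positivity) (by positivity)
    _ < B + 1 := hnum

end Primes

end Fermat.Agent.FLTReg
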