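import Mathlib
import Fermat.Agent.Lib.FLTReg.PIDAux

/-!
# `ℤ[ζ₁₁]` is a principal ideal domain  (helper4, P8 piece D)

Minkowski bound `58`; the only primes to treat are those above `23`, generated by the conjugates of
`1 - ζ + ζ³` (norm `23`).
-/

set_option autoImplicit false

namespace Fermat.Agent.FLTReg

open NumberField

set_option maxRecDepth 1000000 in
theorem key11 : ∀ q ∈ Finset.Icc 2 58, (∀ m ∈ Finset.Icc 1 5, q ^ m ≤ 58 → q ^ m % 11 ≠ 1) ∨
    q ∈ ({23} : Finset ℕ) ∨ ¬ q.Prime := by decide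

/-- the coefficient vector of `1 - ζ + ζ³` -/
def gen11_23 : Fin 11 → ℤ := ![1, -1, 0, 1, 0, 0, 0, 0, 0, 0, 0]

set_option maxRecDepth 1000000 in
theorem gNormVec_gen11_23 : ∀ j : Fin 11, gNormVec gen11_23 j =
    if j = 0 then gNormVec gen11_23 1 + 23 else gNormVec gen11_23 1 := by decide

theorem cast_23_zmod11 : ((23 : ℕ) : ZMod 11) = 1 := by decide

/-- If `IsCyclotomicExtension {11} ℚ K` then `𝓞 K` is a principal ideal domain. -/
theorem eleven_pid (K : Type*) [Field K] [NumberField K] [IsCyclotomicExtension {11} ℚ K] :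
    IsPrincipalIdealRing (𝓞 K) := by
  have : Fact (Nat.Prime 11) := ⟨by norm_num⟩
  have hζ := IsCyclotomicExtension.zeta_spec 11 ℚ K
  refine isPrincipalIdealRing_of_forall_prime_le (n := 11) K 58
    (minkowski_floor_le (n := 11) K 58 48558.71 (by norm_num) (by norm_num)
      (by norm_num [Nat.factorial]))
    fun q hq hqB hq11 => ?_
  rcases key11 q (Finset.mem_Icc.mpr ⟨hq.two_le, hqB⟩) with h | h | h
  · refine Or.inl fun m hm hle => h m (Finset.mem_Icc.mpr ⟨hm, ?_⟩) hle
    by_contra hm2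
    rw [not_le] at hm2
    have h1 : q ^ 6 ≤ q ^ m := Nat.pow_le_pow_right hq.pos hm2
    have h2 : 2 ^ 6 ≤ q ^ 6 := Nat.pow_le_pow_left hq.two_le 6
    omega
  · refine Or.inr ⟨gEval hζ.toInteger gen11_23, ?_⟩
    rw [Finset.mem_singleton] at h
    subst h
    rw [absNorm_span_gEval_toInteger hζ gen11_23 _ 23 gNormVec_gen11_23]
    rw [cast_23_zmod11, orderOf_one, pow_one]
    rfl
  · exact absurd hq h

end Fermat.Agent.FLTReg
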