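import Mathlib
import Fermat.Agent.Lib.FLTReg.PIDAux

/-!
# `ℤ[ζ₁₃]` is a principal ideal domain  (helper4, P8 piece D)

Minkowski bound `306`; the primes to treat are those above `3` (inertia degree `3`, norm `27`),
`53`, `79`, `131`, `157` (totally split).  Generators:
`1 + ζ - ζ³` (norm `27`), `1 - ζ + ζ³` (`53`), `1 - ζ - ζ⁴` (`79`), `1 - ζ - ζ³` (`131`),
`1 - ζ + ζ² + ζ⁴` (`157`).
-/

set_option autoImplicit false

namespace Fermat.Agent.FLTReg

open NumberField

set_option maxRecDepth 1000000 in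
theorem key13 : ∀ q ∈ Finset.Icc 2 306, (∀ m ∈ Finset.Icc 1 8, q ^ m ≤ 306 → q ^ m % 13 ≠ 1) ∨
    q ∈ ({3, 53, 79, 131, 157} : Finset ℕ) ∨ ¬ q.Prime := by decide

/-- `1 + ζ - ζ³` -/
def gen13_3 : Fin 13 → ℤ := ![1, 1, 0, -1, 0, 0, 0, 0, 0, 0, 0, 0, 0]
/-- `1 - ζ + ζ³` -/
def gen13_53 : Fin 13 → ℤ := ![1, -1, 0, 1, 0, 0, 0, 0, 0, 0, 0, 0, 0]
/-- `1 - ζ - ζ⁴` -/
def gen13_79 : Fin 13 → ℤ := ![1, -1, 0, 0, -1, 0, 0, 0, 0, 0, 0, 0, 0]
/-- `1 - ζ - ζ³` -/
def gen13_131 : Fin 13 → ℤ := ![1, -1, 0, -1, 0, 0, 0, 0, 0, 0, 0, 0, 0]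
/-- `1 - ζ + ζ² + ζ⁴` -/
def gen13_157 : Fin 13 → ℤ := ![1, -1, 1, 0, 1, 0, 0, 0, 0, 0, 0, 0, 0]

set_option maxRecDepth 1000000 in
theorem gNormVec_gen13_3 : ∀ j : Fin 13, gNormVec gen13_3 j =
    if j = 0 then gNormVec gen13_3 1 + 27 else gNormVec gen13_3 1 := by decide

set_option maxRecDepth 1000000 in
theorem gNormVec_gen13_53 : ∀ j : Fin 13, gNormVec gen13_53 j =
    if j = 0 then gNormVec gen13_53 1 + 53 else gNormVec gen13_53 1 := by decide

set_option maxRecDepth 1000000 in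
theorem gNormVec_gen13_79 : ∀ j : Fin 13, gNormVec gen13_79 j =
    if j = 0 then gNormVec gen13_79 1 + 79 else gNormVec gen13_79 1 := by decide

set_option maxRecDepth 1000000 in
theorem gNormVec_gen13_131 : ∀ j : Fin 13, gNormVec gen13_131 j =
    if j = 0 then gNormVec gen13_131 1 + 131 else gNormVec gen13_131 1 := by decide

set_option maxRecDepth 1000000 in
theorem gNormVec_gen13_157 : ∀ j : Fin 13, gNormVec gen13_157 j =
    if j = 0 then gNormVec gen13_157 1 + 157 else gNormVec gen13_157 1 := by decide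

theorem orderOf_3_zmod13 : orderOf ((3 : ℕ) : ZMod 13) = 3 := by
  have : Fact (Nat.Prime 3) := ⟨by norm_num⟩
  exact orderOf_eq_prime (by decide) (by decide)

theorem cast_53_zmod13 : ((53 : ℕ) : ZMod 13) = 1 := by decide
theorem cast_79_zmod13 : ((79 : ℕ) : ZMod 13) = 1 := by decide
theorem cast_131_zmod13 : ((131 : ℕ) : ZMod 13) = 1 := by decide
theorem cast_157_zmod13 : ((157 : ℕ) : ZMod 13) = 1 := by decide

/-- If `IsCyclotomicExtension {13} ℚ K` then `𝓞 K` is a principal ideal domain. -/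
theorem thirteen_pid (K : Type*) [Field K] [NumberField K] [IsCyclotomicExtension {13} ℚ K] :
    IsPrincipalIdealRing (𝓞 K) := by
  have : Fact (Nat.Prime 13) := ⟨by norm_num⟩
  have hζ := IsCyclotomicExtension.zeta_spec 13 ℚ K
  refine isPrincipalIdealRing_of_forall_prime_le (n := 13) K 306
    (minkowski_floor_le (n := 13) K 306 1338716.1 (by norm_num) (by norm_num)
      (by norm_num [Nat.factorial]))
    fun q hq hqB hq13 => ?_
  rcases key13 q (Finset.mem_Icc.mpr ⟨hq.two_le, hqB⟩) with h | h | h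
  · refine Or.inl fun m hm hle => h m (Finset.mem_Icc.mpr ⟨hm, ?_⟩) hle
    by_contra hm2
    rw [not_le] at hm2
    have h1 : q ^ 9 ≤ q ^ m := Nat.pow_le_pow_right hq.pos hm2
    have h2 : 2 ^ 9 ≤ q ^ 9 := Nat.pow_le_pow_left hq.two_le 9
    omega
  · simp only [Finset.mem_insert, Finset.mem_singleton] at h
    rcases h with rfl | rfl | rfl | rfl | rfl
    · refine Or.inr ⟨gEval hζ.toInteger gen13_3, ?_⟩
      rw [absNorm_span_gEval_toInteger hζ gen13_3 _ 27 gNormVec_gen13_3, orderOf_3_zmod13]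
      rfl
    · refine Or.inr ⟨gEval hζ.toInteger gen13_53, ?_⟩
      rw [absNorm_span_gEval_toInteger hζ gen13_53 _ 53 gNormVec_gen13_53, cast_53_zmod13,
        orderOf_one, pow_one]
      rfl
    · refine Or.inr ⟨gEval hζ.toInteger gen13_79, ?_⟩
      rw [absNorm_span_gEval_toInteger hζ gen13_79 _ 79 gNormVec_gen13_79, cast_79_zmod13,
        orderOf_one, pow_one]
      rfl
    · refine Or.inr ⟨gEval hζ.toInteger gen13_131, ?_⟩
      rw [absNorm_span_gEval_toInteger hζ gen13_131 _ 131 gNormVec_gen13_131, cast_131_zmod13,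
        orderOf_one, pow_one]
      rfl
    · refine Or.inr ⟨gEval hζ.toInteger gen13_157, ?_⟩
      rw [absNorm_span_gEval_toInteger hζ gen13_157 _ 157 gNormVec_gen13_157, cast_157_zmod13,
        orderOf_one, pow_one]
      rfl
  · exact absurd hq h

end Fermat.Agent.FLTReg
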