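import Mathlib
import Fermat.Agent.Lib.FLTReg.PIDAux

/-!
# `ℤ[ζ₇]` is a principal ideal domain  (helper4, P8 piece D)
-/

set_option autoImplicit false

namespace Fermat.Agent.FLTReg

open NumberField

theorem key7 : ∀ q ∈ Finset.Icc 2 4, (∀ m ∈ Finset.Icc 1 2, q ^ m ≤ 4 → q ^ m % 7 ≠ 1) ∨
    ¬ q.Prime := by decide

/-- If `IsCyclotomicExtension {7} ℚ K` then `𝓞 K` is a principal ideal domain. -/
theorem seven_pid (K : Type*) [Field K] [NumberField K] [IsCyclotomicExtension {7} ℚ K] :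
    IsPrincipalIdealRing (𝓞 K) := by
  have : Fact (Nat.Prime 7) := ⟨by norm_num⟩
  refine isPrincipalIdealRing_of_forall_prime_le (n := 7) K 4
    (minkowski_floor_le (n := 7) K 4 129.65 (by norm_num) (by norm_num)
      (by norm_num [Nat.factorial]))
    fun q hq hq4 hq7 => Or.inl fun m hm hle => ?_
  rcases key7 q (Finset.mem_Icc.mpr ⟨hq.two_le, hq4⟩) with h | h
  · refine h m (Finset.mem_Icc.mpr ⟨hm, ?_⟩) hle
    by_contra hm2
    rw [not_le] at hm2
    have h1 : q ^ 3 ≤ q ^ m := Nat.pow_le_pow_right hq.pos hm2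
    have h2 : 2 ^ 3 ≤ q ^ 3 := Nat.pow_le_pow_left hq.two_le 3
    omega
  · exact absurd hq h

end Fermat.Agent.FLTReg
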