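import Mathlib
import Fermat.Prelude.Def_FLTPrelim_FreyPackage
import Fermat.Agent.Lib.FLTReg.CaseI
import Fermat.Agent.Lib.FLTReg.CaseII
import Fermat.Agent.Lib.FLTReg.PID7
import Fermat.Agent.Lib.FLTReg.PID11
import Fermat.Agent.Lib.FLTReg.PID13
import Fermat.Agent.Lib.FLTReg.KummerFinal

/-!
# P8 : Fermat's Last Theorem for the exponents 5, 7, 11, 13

Kummer's proof for primes `p` whose cyclotomic ring of integers is a principal ideal domain.
-/

set_option autoImplicit false

open NumberField

namespace Fermat.Agent.FLTReg

set_option backward.isDefEq.respectTransparency false in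
/-- Fermat's Last Theorem for a prime `p ≥ 5` such that `ℤ[ζ_p]` is a PID. -/
theorem fermatLastTheoremFor_of_pid {p : ℕ} [Fact p.Prime] (hp5 : 5 ≤ p)
    (hpid : IsPrincipalIdealRing (𝓞 (CyclotomicField p ℚ))) : FermatLastTheoremFor p := by
  rw [fermatLastTheoremFor_iff_int]
  refine fermatLastTheoremWith_of_fermatLastTheoremWith_coprime ?_
  intro a b c ha hb hc hgcd
  have hp2 : p ≠ 2 := by omega
  by_cases hcase : (p : ℤ) ∣ a * b * c
  · exact caseII_of_pid (K := CyclotomicField p ℚ) hp5
      (fun u n h => kummer_lemma_of_pid hp2 u n h) ha hb hc hgcd hcase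
  · exact caseI_of_pid (K := CyclotomicField p ℚ) hp5 hgcd hcase

set_option backward.isDefEq.respectTransparency false in
theorem fermatLastTheoremFor_five : FermatLastTheoremFor 5 :=
  haveI : Fact (Nat.Prime 5) := ⟨by norm_num⟩
  fermatLastTheoremFor_of_pid le_rfl (IsCyclotomicExtension.Rat.five_pid _)

set_option backward.isDefEq.respectTransparency false in
theorem fermatLastTheoremFor_seven : FermatLastTheoremFor 7 :=
  haveI : Fact (Nat.Prime 7) := ⟨by norm_num⟩
  fermatLastTheoremFor_of_pid (by norm_num) (seven_pid _)

set_option backward.isDefEq.respectTransparency false in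
theorem fermatLastTheoremFor_eleven : FermatLastTheoremFor 11 :=
  haveI : Fact (Nat.Prime 11) := ⟨by norm_num⟩
  fermatLastTheoremFor_of_pid (by norm_num) (eleven_pid _)

set_option backward.isDefEq.respectTransparency false in
theorem fermatLastTheoremFor_thirteen : FermatLastTheoremFor 13 :=
  haveI : Fact (Nat.Prime 13) := ⟨by norm_num⟩
  fermatLastTheoremFor_of_pid (by norm_num) (thirteen_pid _)

/-- A Frey package with exponent `p` cannot exist when Fermat's Last Theorem holds for `p`. -/
theorem freyPackage_false_of_flt (P : FreyPackage) (h : FermatLastTheoremFor P.p) : False := by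
  rw [fermatLastTheoremFor_iff_int] at h
  exact h P.a P.b P.c P.ha0 P.hb0 P.hc0 P.hFLT

end Fermat.Agent.FLTReg
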